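import Mathlib

/-!
# S16, lower bound, route (A-theta): definitions and block interfaces

Owner of the block: helper88.  Goal of the block (file `Theta/Final.lean`):
for every odd prime `p` there is `H : ModularForm Γ₀(p) 2` with `a₀(H) = 1/2` and `aₙ(H) ∈ ℤ`
for `n ≥ 1`, namely `H = Θ_A / 2` for an even positive definite quaternary Gram matrix `A` of
determinant `p²` and level `p` (helper65's `ThetaLattice`).

Blocks:
* (I)   `InversionStatement`: theta inversion in `r` variables with real characteristics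
        (induction on `r`, each step is Mathlib's `jacobiTheta₂_functional_equation`).
* (II)  transformation of `Θ_A` under `γ ∈ SL₂(ℤ)`, `c ≠ 0` (helper88, `Theta/Transform.lean`).
* (III) the multiplier is trivial on `Γ₀(p)` (Gauss sums; helper57 `GaussQuad` + assembly).
* (IV)  packaging as a Mathlib `ModularForm` and `q`-expansion.
-/

set_option autoImplicit false

open Complex Matrix

namespace Fermat.Agent.S16.Theta

/-- `xᵀ A x` for a real matrix `A` and a real vector `x`. -/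
def quad {ι : Type*} [Fintype ι] (A : Matrix ι ι ℝ) (x : ι → ℝ) : ℝ := x ⬝ᵥ (A *ᵥ x)

/-- The general term of the theta series with real characteristics `u` (shift) and `v` (linear
term): `exp(π i w (x+u)ᵀ A (x+u) + 2 π i vᵀ(x+u))`. -/
noncomputable def thetaTerm {ι : Type*} [Fintype ι] (A : Matrix ι ι ℝ) (w : ℂ) (u v : ι → ℝ)
    (x : ι → ℤ) : ℂ :=
  cexp (Real.pi * I * w * (quad A (fun i => (x i : ℝ) + u i) : ℝ) +
    2 * Real.pi * I * ((∑ i, v i * ((x i : ℝ) + u i) : ℝ) : ℂ))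

/-- The general term of the dual theta series:
`exp(-π i (m-v)ᵀ A⁻¹ (m-v) / w + 2 π i mᵀ u)`. -/
noncomputable def thetaDualTerm {ι : Type*} [Fintype ι] [DecidableEq ι] (A : Matrix ι ι ℝ) (w : ℂ)
    (u v : ι → ℝ) (m : ι → ℤ) : ℂ :=
  cexp (-(Real.pi * I * (quad A⁻¹ (fun i => (m i : ℝ) - v i) : ℝ)) / w +
    2 * Real.pi * I * ((∑ i, (m i : ℝ) * u i : ℝ) : ℂ))

/-- **Block (I): theta inversion formula in `r` variables** with real characteristics.
For `A` real symmetric positive definite, `Im w > 0`: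
`∑_x exp(π i w (x+u)ᵀA(x+u) + 2π i vᵀ(x+u))
   = ((-i w)^{1/2})^{-r} (det A)^{-1/2} ∑_m exp(-π i (m-v)ᵀA⁻¹(m-v)/w + 2π i mᵀu)`,
both series being (absolutely) summable. -/
def InversionStatement : Prop :=
  ∀ (r : ℕ) (A : Matrix (Fin r) (Fin r) ℝ), A.PosDef → ∀ w : ℂ, 0 < w.im →
    ∀ u v : Fin r → ℝ,
      Summable (thetaTerm A w u v) ∧ Summable (thetaDualTerm A w u v) ∧
      ∑' x, thetaTerm A w u v x =
        (1 / (-I * w) ^ (1 / 2 : ℂ)) ^ r * (1 / (Real.sqrt A.det : ℂ)) *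
          ∑' m, thetaDualTerm A w u v m

/-! ### The quaternary lattice and its theta function -/

/-- The hypotheses on the lattice, in the shape exported by helper65's
`ThetaLattice.exists_lattice`: `A` even symmetric positive definite, `det A = p²`,
`B = p A⁻¹` integral with even diagonal. -/
structure IsLevelLattice (p : ℕ) (A B : Matrix (Fin 4) (Fin 4) ℤ) : Prop where
  symm : A.IsSymm
  even : ∀ i, Even (A i i)
  posDef : (A.map (Int.cast : ℤ → ℝ)).PosDef
  pos : ∀ x : Fin 4 → ℤ, x ≠ 0 → 0 < x ⬝ᵥ A *ᵥ x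
  det : A.det = (p : ℤ) ^ 2
  symmB : B.IsSymm
  mul : A * B = (p : ℤ) • (1 : Matrix (Fin 4) (Fin 4) ℤ)
  mul' : B * A = (p : ℤ) • (1 : Matrix (Fin 4) (Fin 4) ℤ)
  evenB : ∀ i, Even (B i i)

/-- `xᵀ A x` for an integral matrix and an integral vector. -/
def qz (A : Matrix (Fin 4) (Fin 4) ℤ) (x : Fin 4 → ℤ) : ℤ := x ⬝ᵥ A *ᵥ x

/-- The theta function `Θ_A(z) = ∑_{x ∈ ℤ⁴} exp(π i z xᵀAx) = ∑_x q^{Q(x)}`, `Q(x) = xᵀAx/2`. -/
noncomputable def thetaFun (A : Matrix (Fin 4) (Fin 4) ℤ) (z : ℂ) : ℂ :=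
  ∑' x : Fin 4 → ℤ, cexp (Real.pi * I * z * (qz A x : ℂ))

/-- The quadratic Gauss sum `G(a, c) = ∑_{g mod c} e(a Q(g) / c)`. -/
noncomputable def gaussQ (A : Matrix (Fin 4) (Fin 4) ℤ) (a : ℤ) (c : ℕ) : ℂ :=
  ∑ g : Fin 4 → Fin c, cexp (Real.pi * I * (a : ℂ) * (qz A (fun i => ((g i : ℕ) : ℤ)) : ℂ) / (c : ℂ))

/-- The multiplier `ε(γ) = -G(a, c) / (p c²)` for `γ = (a b; c d)`, `c > 0`. -/
noncomputable def eps (p : ℕ) (A : Matrix (Fin 4) (Fin 4) ℤ) (a c : ℤ) : ℂ :=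
  -gaussQ A a c.toNat / ((p : ℂ) * (c : ℂ) ^ 2)

end Fermat.Agent.S16.Theta
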