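import Mathlib
import Fermat.Prelude.Def_FLTPrelim_Modularity
import Fermat.Prelude.Thm_CongruenceSubgroup_one_mem_strictPeriods_Gamma0
import Fermat.Agent.S16.Theta.Defs

/-!
# S16, lower bound, route (A-theta), block (IV): packaging of `Θ_A` (helper47)

For `h : IsLevelLattice p A B`:

* (P1) `summable_term`, `hasSum_term` : the theta series converges absolutely for `Im z > 0`;
  `differentiableOn_thetaFun`, `mdifferentiable_thetaFun` : `Θ_A` is holomorphic on `ℍ`;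
* (P2) `rep A n` (representation numbers of `Q(x) = xᵀAx/2`): `finite_fiber`, `rep_zero`,
  `even_rep`, `qz_even`, `qz_nonneg`, and the `q`-expansion `hasSum_rep`;
* (P3) `thetaForm` (the `ModularForm Γ₀(p) 2`, given the transformation law `hslash` on `Γ₀(p)` and
  boundedness `hbdd` of all `SL₂(ℤ)`-translates), `qCoeff_thetaForm`, and `thetaForm_of`: the body
  of `Interfaces.ThetaFormStatement` for this `p`.
-/

set_option autoImplicit false
set_option linter.style.haveILetI false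

open Complex Matrix
open UpperHalfPlane hiding I
open ModularForm CongruenceSubgroup MatrixGroups
open scoped ENNReal Manifold

namespace Fermat.Agent.S16.Theta.Package

open Fermat.Agent.S16.Theta

variable {p : ℕ} {A B : Matrix (Fin 4) (Fin 4) ℤ}

/-! ### A lower bound for the quadratic form -/

/-- The real quadratic form of an integral matrix. -/
noncomputable def qr (A : Matrix (Fin 4) (Fin 4) ℤ) (v : Fin 4 → ℝ) : ℝ :=
  v ⬝ᵥ (A.map (Int.cast : ℤ → ℝ)) *ᵥ v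

theorem qr_eq_sum (A : Matrix (Fin 4) (Fin 4) ℤ) (v : Fin 4 → ℝ) :
    qr A v = ∑ i, ∑ j, v i * ((A i j : ℝ) * v j) := by
  simp only [qr, dotProduct, mulVec, Matrix.map_apply, Finset.mul_sum]

theorem qz_eq_sum (A : Matrix (Fin 4) (Fin 4) ℤ) (x : Fin 4 → ℤ) :
    qz A x = ∑ i, ∑ j, x i * (A i j * x j) := by
  simp only [qz, dotProduct, mulVec, Finset.mul_sum]

theorem qz_cast (A : Matrix (Fin 4) (Fin 4) ℤ) (x : Fin 4 → ℤ) :
    (qz A x : ℝ) = qr A (fun i => (x i : ℝ)) := by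
  rw [qz_eq_sum, qr_eq_sum]
  push_cast
  rfl

theorem continuous_qr (A : Matrix (Fin 4) (Fin 4) ℤ) : Continuous (qr A) := by
  have : qr A = fun v => ∑ i, ∑ j, v i * ((A i j : ℝ) * v j) := funext (qr_eq_sum A)
  rw [this]
  fun_prop

theorem qr_smul (A : Matrix (Fin 4) (Fin 4) ℤ) (t : ℝ) (v : Fin 4 → ℝ) :
    qr A (t • v) = t ^ 2 * qr A v := by
  rw [qr_eq_sum, qr_eq_sum, Finset.mul_sum]
  refine Finset.sum_congr rfl fun i _ => ?_
  rw [Finset.mul_sum]
  refine Finset.sum_congr rfl fun j _ => ?_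
  simp only [Pi.smul_apply, smul_eq_mul]
  ring

/-- A positive definite form dominates a multiple of the sum of squares. -/
theorem exists_lower_bound (h : IsLevelLattice p A B) :
    ∃ c : ℝ, 0 < c ∧ ∀ v : Fin 4 → ℝ, c * ∑ i, v i ^ 2 ≤ qr A v := by
  have hpos : ∀ v : Fin 4 → ℝ, v ≠ 0 → 0 < qr A v := by
    intro v hv
    have := h.posDef.dotProduct_mulVec_pos hv
    simpa [qr] using this
  obtain ⟨x₀, hx₀, hmin⟩ := (isCompact_sphere (0 : Fin 4 → ℝ) 1).exists_isMinOn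
    (NormedSpace.sphere_nonempty.mpr zero_le_one) (continuous_qr A).continuousOn
  have hx₀0 : x₀ ≠ 0 := by
    intro h0
    rw [h0] at hx₀
    simp at hx₀
  have hc : 0 < qr A x₀ := hpos x₀ hx₀0
  have hbound : ∀ v : Fin 4 → ℝ, qr A x₀ * ‖v‖ ^ 2 ≤ qr A v := by
    intro v
    rcases eq_or_ne v 0 with rfl | hv
    · simp [qr]
    have hn : ‖v‖ ≠ 0 := norm_ne_zero_iff.mpr hv
    have hu : ‖v‖⁻¹ • v ∈ Metric.sphere (0 : Fin 4 → ℝ) 1 := by
      rw [mem_sphere_zero_iff_norm, norm_smul, norm_inv, norm_norm, inv_mul_cancel₀ hn]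
    have h1 : qr A x₀ ≤ qr A (‖v‖⁻¹ • v) := hmin hu
    rw [qr_smul] at h1
    have h2 : qr A v = ‖v‖ ^ 2 * ((‖v‖⁻¹) ^ 2 * qr A v) := by
      field_simp
    rw [h2, mul_comm]
    exact mul_le_mul_of_nonneg_left h1 (sq_nonneg _)
  refine ⟨qr A x₀ / 4, by positivity, fun v => ?_⟩
  have h4 : ∑ i, v i ^ 2 ≤ 4 * ‖v‖ ^ 2 := by
    have : ∀ i, v i ^ 2 ≤ ‖v‖ ^ 2 := fun i => by
      have := norm_le_pi_norm v i
      rw [Real.norm_eq_abs] at this
      calc v i ^ 2 = |v i| ^ 2 := (sq_abs _).symm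
        _ ≤ ‖v‖ ^ 2 := pow_le_pow_left₀ (abs_nonneg _) this 2
    calc ∑ i, v i ^ 2 ≤ ∑ _i : Fin 4, ‖v‖ ^ 2 := Finset.sum_le_sum fun i _ => this i
      _ = 4 * ‖v‖ ^ 2 := by simp
  calc qr A x₀ / 4 * ∑ i, v i ^ 2 ≤ qr A x₀ / 4 * (4 * ‖v‖ ^ 2) :=
        mul_le_mul_of_nonneg_left h4 (by positivity)
    _ = qr A x₀ * ‖v‖ ^ 2 := by ring
    _ ≤ qr A v := hbound v

theorem exists_lower_bound_int (h : IsLevelLattice p A B) :
    ∃ c : ℝ, 0 < c ∧ ∀ x : Fin 4 → ℤ, c * ∑ i, (x i : ℝ) ^ 2 ≤ (qz A x : ℝ) := by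
  obtain ⟨c, hc, hb⟩ := exists_lower_bound h
  exact ⟨c, hc, fun x => by rw [qz_cast]; exact hb _⟩

/-! ### Summability of Gaussian sums over `ℤ⁴` -/

/-- Product formula for `ℝ≥0∞`-valued sums over a finite product of copies of `ℤ`. -/
theorem tsum_pi_prod :
    ∀ (ι : Type) [Fintype ι] (f : ι → ℤ → ℝ≥0∞),
      ∑' n : ι → ℤ, ∏ i, f i (n i) = ∏ i, ∑' k : ℤ, f i k := by
  intro ι _
  refine Fintype.induction_empty_option
    (P := fun ι [Fintype ι] => ∀ f : ι → ℤ → ℝ≥0∞,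
      ∑' n : ι → ℤ, ∏ i, f i (n i) = ∏ i, ∑' k : ℤ, f i k) ?_ ?_ ?_ ι
  · intro α β _ e hα f
    let _ : Fintype α := Fintype.ofEquiv β e.symm
    have h1 := hα (fun a => f (e a))
    rw [← (Equiv.piCongrLeft (fun _ => ℤ) e).tsum_eq]
    rw [← Equiv.prod_comp e (fun i => ∑' k : ℤ, f i k), ← h1]
    refine tsum_congr fun n => ?_
    rw [← Equiv.prod_comp e]
    refine Finset.prod_congr rfl fun a _ => ?_
    rw [Equiv.piCongrLeft_apply_apply]
  · intro f
    simp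
  · intro α _ hα f
    rw [← (Equiv.piOptionEquivProd (β := fun _ => ℤ)).symm.tsum_eq]
    rw [ENNReal.tsum_prod', Fintype.prod_option, ← hα (fun a => f (some a)),
      ← ENNReal.tsum_mul_right]
    refine tsum_congr fun k => ?_
    rw [← ENNReal.tsum_mul_left]
    refine tsum_congr fun n => ?_
    rw [Fintype.prod_option]
    rfl

theorem summable_geom_natAbs {r : ℝ} (h0 : 0 ≤ r) (h1 : r < 1) :
    Summable (fun k : ℤ => r ^ k.natAbs) := by
  rw [summable_int_iff_summable_nat_and_neg]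
  constructor
  · simpa using summable_geometric_of_lt_one h0 h1
  · simpa using summable_geometric_of_lt_one h0 h1

theorem summable_prod_geom {r : ℝ} (h0 : 0 ≤ r) (h1 : r < 1) :
    Summable (fun x : Fin 4 → ℤ => ∏ i, r ^ (x i).natAbs) := by
  have hs := summable_geom_natAbs h0 h1
  have hne : ∑' x : Fin 4 → ℤ, ∏ i, (fun (_ : Fin 4) (k : ℤ) => ENNReal.ofReal (r ^ k.natAbs)) i (x i)
      ≠ ⊤ := by
    rw [tsum_pi_prod (Fin 4) (fun _ k => ENNReal.ofReal (r ^ k.natAbs))]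
    refine ENNReal.prod_ne_top fun i _ => ?_
    rw [← ENNReal.ofReal_tsum_of_nonneg (fun k => pow_nonneg h0 _) hs]
    exact ENNReal.ofReal_ne_top
  have := ENNReal.summable_toReal hne
  refine this.congr fun x => ?_
  rw [ENNReal.toReal_prod]
  refine Finset.prod_congr rfl fun i _ => ?_
  rw [ENNReal.toReal_ofReal (pow_nonneg h0 _)]

theorem summable_exp_neg_qz (h : IsLevelLattice p A B) {y : ℝ} (hy : 0 < y) :
    Summable (fun x : Fin 4 → ℤ => Real.exp (-y * (qz A x : ℝ))) := by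
  obtain ⟨c, hc, hb⟩ := exists_lower_bound_int h
  have hr0 : 0 ≤ Real.exp (-(y * c)) := (Real.exp_pos _).le
  have hr1 : Real.exp (-(y * c)) < 1 := by
    rw [Real.exp_lt_one_iff]
    have : 0 < y * c := mul_pos hy hc
    linarith
  refine Summable.of_nonneg_of_le (fun x => (Real.exp_pos _).le) (fun x => ?_)
    (summable_prod_geom hr0 hr1)
  have h1 : ∀ i, ((x i).natAbs : ℝ) ≤ (x i : ℝ) ^ 2 := fun i => by
    rw [← Int.cast_natCast, ← Int.cast_pow]
    exact Int.cast_le.mpr (Int.natAbs_le_self_sq _)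
  have h2 : ∑ i, ((x i).natAbs : ℝ) ≤ ∑ i, (x i : ℝ) ^ 2 := Finset.sum_le_sum fun i _ => h1 i
  have h3 : ∏ i : Fin 4, Real.exp (-(y * c)) ^ (x i).natAbs =
      Real.exp (-(y * c) * ∑ i, ((x i).natAbs : ℝ)) := by
    rw [Finset.mul_sum, Real.exp_sum]
    refine Finset.prod_congr rfl fun i _ => ?_
    rw [← Real.exp_nat_mul]
    congr 1
    ring
  rw [h3, Real.exp_le_exp]
  have h4 := hb x
  have h5 : y * (c * ∑ i, ((x i).natAbs : ℝ)) ≤ y * (qz A x : ℝ) :=
    mul_le_mul_of_nonneg_left ((mul_le_mul_of_nonneg_left h2 hc.le).trans h4) hy.le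
  linarith

/-! ### (P1) The theta series: convergence and holomorphy -/

/-- The general term of `thetaFun A`. -/
noncomputable def term (A : Matrix (Fin 4) (Fin 4) ℤ) (x : Fin 4 → ℤ) (z : ℂ) : ℂ :=
  cexp (Real.pi * I * z * (qz A x : ℂ))

theorem thetaFun_eq_tsum (A : Matrix (Fin 4) (Fin 4) ℤ) (z : ℂ) :
    thetaFun A z = ∑' x : Fin 4 → ℤ, term A x z := rfl

theorem norm_term (A : Matrix (Fin 4) (Fin 4) ℤ) (x : Fin 4 → ℤ) (z : ℂ) :
    ‖term A x z‖ = Real.exp (-(Real.pi * z.im) * (qz A x : ℝ)) := by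
  unfold term
  rw [Complex.norm_exp]
  congr 1
  have : (Real.pi * I * z * (qz A x : ℂ) : ℂ) = ((Real.pi * (qz A x : ℝ) : ℝ) : ℂ) * (I * z) := by
    push_cast
    ring
  rw [this, re_ofReal_mul]
  simp only [mul_re, Complex.I_re, Complex.I_im, zero_mul, one_mul, zero_sub]
  ring

theorem qz_zero (A : Matrix (Fin 4) (Fin 4) ℤ) : qz A 0 = 0 := by
  simp [qz]

theorem qz_nonneg (h : IsLevelLattice p A B) (x : Fin 4 → ℤ) : 0 ≤ qz A x := by
  rcases eq_or_ne x 0 with rfl | hx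
  · rw [qz_zero]
  · exact (h.pos x hx).le

theorem qz_eq_zero_iff (h : IsLevelLattice p A B) (x : Fin 4 → ℤ) : qz A x = 0 ↔ x = 0 := by
  constructor
  · intro h0
    by_contra hx
    have := h.pos x hx
    unfold qz at h0
    omega
  · rintro rfl
    exact qz_zero A

theorem summable_norm_term (h : IsLevelLattice p A B) {z : ℂ} (hz : 0 < z.im) :
    Summable (fun x : Fin 4 → ℤ => ‖term A x z‖) := by
  simp_rw [norm_term]
  exact summable_exp_neg_qz h (mul_pos Real.pi_pos hz)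

theorem summable_term (h : IsLevelLattice p A B) {z : ℂ} (hz : 0 < z.im) :
    Summable (fun x : Fin 4 → ℤ => term A x z) :=
  (summable_norm_term h hz).of_norm

theorem hasSum_term (h : IsLevelLattice p A B) {z : ℂ} (hz : 0 < z.im) :
    HasSum (fun x : Fin 4 → ℤ => term A x z) (thetaFun A z) :=
  (summable_term h hz).hasSum

theorem differentiable_term (A : Matrix (Fin 4) (Fin 4) ℤ) (x : Fin 4 → ℤ) :
    Differentiable ℂ (term A x) := by
  unfold term
  fun_prop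

theorem differentiableAt_thetaFun (h : IsLevelLattice p A B) {z : ℂ} (hz : 0 < z.im) :
    DifferentiableAt ℂ (thetaFun A) z := by
  set ε : ℝ := z.im / 2 with hε
  have hε0 : 0 < ε := by positivity
  have hopen : IsOpen {w : ℂ | ε < w.im} := isOpen_lt continuous_const Complex.continuous_im
  have hmem : z ∈ {w : ℂ | ε < w.im} := by
    show ε < z.im
    rw [hε]
    linarith
  have hd : DifferentiableOn ℂ (fun w => ∑' x : Fin 4 → ℤ, term A x w) {w : ℂ | ε < w.im} := by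
    refine differentiableOn_tsum_of_summable_norm
      (u := fun x : Fin 4 → ℤ => Real.exp (-(Real.pi * ε) * (qz A x : ℝ)))
      (summable_exp_neg_qz h (mul_pos Real.pi_pos hε0))
      (fun x => (differentiable_term A x).differentiableOn) hopen ?_
    intro x w hw
    rw [norm_term, Real.exp_le_exp]
    have hq : (0 : ℝ) ≤ (qz A x : ℝ) := by exact_mod_cast qz_nonneg h x
    have hw' : ε ≤ w.im := le_of_lt hw
    have : Real.pi * ε ≤ Real.pi * w.im := mul_le_mul_of_nonneg_left hw' Real.pi_pos.le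
    nlinarith
  exact (hd z hmem).differentiableAt (hopen.mem_nhds hmem)

theorem differentiableOn_thetaFun (h : IsLevelLattice p A B) :
    DifferentiableOn ℂ (thetaFun A) {z : ℂ | 0 < z.im} :=
  fun _ hz => (differentiableAt_thetaFun h hz).differentiableWithinAt

theorem mdifferentiable_thetaFun (h : IsLevelLattice p A B) :
    MDifferentiable 𝓘(ℂ) 𝓘(ℂ) (fun z : ℍ => thetaFun A (z : ℂ)) := by
  rw [UpperHalfPlane.mdifferentiable_iff]
  refine (differentiableOn_thetaFun h).congr fun z hz => ?_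
  simp only [Function.comp_apply]
  rw [ofComplex_apply_of_im_pos hz]

/-! ### (P2) Representation numbers and the `q`-expansion -/

theorem qz_neg (A : Matrix (Fin 4) (Fin 4) ℤ) (x : Fin 4 → ℤ) : qz A (-x) = qz A x := by
  simp [qz, mulVec_neg]

/-- Every value of the quadratic form of an even lattice is even. -/
theorem qz_even (h : IsLevelLattice p A B) (x : Fin 4 → ℤ) : ∃ m : ℤ, qz A x = 2 * m := by
  obtain ⟨a0, h0⟩ := h.even 0
  obtain ⟨a1, h1⟩ := h.even 1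
  obtain ⟨a2, h2⟩ := h.even 2
  obtain ⟨a3, h3⟩ := h.even 3
  have s10 : A 1 0 = A 0 1 := h.symm.apply 0 1
  have s20 : A 2 0 = A 0 2 := h.symm.apply 0 2
  have s30 : A 3 0 = A 0 3 := h.symm.apply 0 3
  have s21 : A 2 1 = A 1 2 := h.symm.apply 1 2
  have s31 : A 3 1 = A 1 3 := h.symm.apply 1 3
  have s32 : A 3 2 = A 2 3 := h.symm.apply 2 3
  refine ⟨a0 * x 0 ^ 2 + a1 * x 1 ^ 2 + a2 * x 2 ^ 2 + a3 * x 3 ^ 2 + A 0 1 * x 0 * x 1 +
    A 0 2 * x 0 * x 2 + A 0 3 * x 0 * x 3 + A 1 2 * x 1 * x 2 + A 1 3 * x 1 * x 3 +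
    A 2 3 * x 2 * x 3, ?_⟩
  rw [qz_eq_sum]
  simp only [Fin.sum_univ_four]
  rw [s10, s20, s30, s21, s31, s32, h0, h1, h2, h3]
  ring

/-- Half of the value of the quadratic form, as a natural number. -/
noncomputable def nu (A : Matrix (Fin 4) (Fin 4) ℤ) (x : Fin 4 → ℤ) : ℕ := (qz A x / 2).toNat

theorem qz_eq_two_nu (h : IsLevelLattice p A B) (x : Fin 4 → ℤ) :
    qz A x = 2 * (nu A x : ℤ) := by
  obtain ⟨m, hm⟩ := qz_even h x
  have hnn := qz_nonneg h x
  unfold nu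
  rw [hm, Int.mul_ediv_cancel_left _ (by norm_num : (2 : ℤ) ≠ 0), Int.toNat_of_nonneg (by omega)]

theorem nu_eq_iff (h : IsLevelLattice p A B) (x : Fin 4 → ℤ) (n : ℕ) :
    nu A x = n ↔ qz A x = 2 * (n : ℤ) := by
  rw [qz_eq_two_nu h x]
  constructor
  · intro hn
    rw [hn]
  · intro hn
    omega

theorem finite_fiber (h : IsLevelLattice p A B) (m : ℤ) :
    {x : Fin 4 → ℤ | qz A x = m}.Finite := by
  classical
  obtain ⟨c, hc, hb⟩ := exists_lower_bound_int h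
  set R : ℤ := ⌈(m : ℝ) / c⌉ with hR
  refine Set.Finite.subset (Finset.finite_toSet
    (Fintype.piFinset fun _ : Fin 4 => Finset.Icc (-R) R)) ?_
  intro x hx
  rw [Set.mem_ofPred_eq] at hx
  rw [Finset.mem_coe, Fintype.mem_piFinset]
  intro i
  have h1 := hb x
  rw [hx] at h1
  have h2 : (x i : ℝ) ^ 2 ≤ ∑ j, (x j : ℝ) ^ 2 :=
    Finset.single_le_sum (f := fun j => (x j : ℝ) ^ 2) (fun j _ => sq_nonneg _) (Finset.mem_univ i)
  have h3 : (x i : ℝ) ^ 2 ≤ (m : ℝ) / c := by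
    rw [le_div_iff₀ hc]
    nlinarith
  have h4 : ((x i ^ 2 : ℤ) : ℝ) ≤ (R : ℝ) := by
    push_cast
    exact h3.trans (Int.le_ceil _)
  have h5 : x i ^ 2 ≤ R := by exact_mod_cast h4
  have h6 : |x i| ≤ x i ^ 2 := by
    have := Int.natAbs_le_self_sq (x i)
    simpa using this
  rw [Finset.mem_Icc, ← abs_le]
  exact h6.trans h5

/-- The representation numbers of the form `Q(x) = xᵀAx / 2`. -/
noncomputable def rep (A : Matrix (Fin 4) (Fin 4) ℤ) (n : ℕ) : ℕ :=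
  Nat.card {x : Fin 4 → ℤ // qz A x = 2 * (n : ℤ)}

theorem finite_rep_type (h : IsLevelLattice p A B) (n : ℕ) :
    Finite {x : Fin 4 → ℤ // qz A x = 2 * (n : ℤ)} :=
  (finite_fiber h (2 * (n : ℤ))).to_subtype

theorem rep_zero (h : IsLevelLattice p A B) : rep A 0 = 1 := by
  unfold rep
  rw [Nat.card_eq_one_iff_unique]
  constructor
  · refine ⟨fun a b => Subtype.ext ?_⟩
    rw [(qz_eq_zero_iff h a.1).mp (by simpa using a.2),
      (qz_eq_zero_iff h b.1).mp (by simpa using b.2)]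
  · exact ⟨⟨0, by simp [qz_zero]⟩⟩

theorem even_rep (h : IsLevelLattice p A B) {n : ℕ} (hn : 1 ≤ n) : Even (rep A n) := by
  classical
  unfold rep
  haveI := finite_rep_type h n
  haveI := Fintype.ofFinite {x : Fin 4 → ℤ // qz A x = 2 * (n : ℤ)}
  let σ : Equiv.Perm {x : Fin 4 → ℤ // qz A x = 2 * (n : ℤ)} :=
    { toFun := fun x => ⟨-x.1, by rw [qz_neg]; exact x.2⟩
      invFun := fun x => ⟨-x.1, by rw [qz_neg]; exact x.2⟩
      left_inv := fun x => Subtype.ext (neg_neg _)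
      right_inv := fun x => Subtype.ext (neg_neg _) }
  have hσ2 : σ ^ 2 = 1 := by
    ext x : 2
    simp [pow_two, σ]
  have hsupp : σ.support = Finset.univ := by
    ext x
    simp only [Equiv.Perm.mem_support, Finset.mem_univ, iff_true]
    intro hx
    have h1 : -x.1 = x.1 := congrArg Subtype.val hx
    have h2 : x.1 = 0 := by
      funext i
      have := congrFun h1 i
      simp only [Pi.neg_apply, Pi.zero_apply] at this ⊢
      omega
    have h3 := x.2
    rw [h2, qz_zero] at h3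
    omega
  have := Equiv.Perm.two_dvd_card_support hσ2
  rw [hsupp, Finset.card_univ, ← Nat.card_eq_fintype_card] at this
  exact even_iff_two_dvd.mpr this

theorem term_eq_pow (h : IsLevelLattice p A B) (x : Fin 4 → ℤ) (z : ℂ) :
    term A x z = cexp (2 * Real.pi * I * z) ^ nu A x := by
  unfold term
  rw [qz_eq_two_nu h x, ← Complex.exp_nat_mul]
  congr 1
  push_cast
  ring

theorem hasSum_rep (h : IsLevelLattice p A B) {z : ℂ} (hz : 0 < z.im) :
    HasSum (fun n : ℕ => (rep A n : ℂ) * cexp (2 * Real.pi * I * z) ^ n) (thetaFun A z) := by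
  have h1 : HasSum (fun s : (n : ℕ) × {x : Fin 4 → ℤ // nu A x = n} =>
      term A (Equiv.sigmaFiberEquiv (nu A) s) z) (thetaFun A z) :=
    (Equiv.sigmaFiberEquiv (nu A)).hasSum_iff.mpr (hasSum_term h hz)
  refine h1.sigma fun n => ?_
  have hfin : Finite {x : Fin 4 → ℤ // nu A x = n} := by
    have : {x : Fin 4 → ℤ | nu A x = n} = {x : Fin 4 → ℤ | qz A x = 2 * (n : ℤ)} := by
      ext x
      exact nu_eq_iff h x n
    have hf := finite_fiber h (2 * (n : ℤ))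
    rw [← this] at hf
    exact hf.to_subtype
  haveI := Fintype.ofFinite {x : Fin 4 → ℤ // nu A x = n}
  have hcard : rep A n = Fintype.card {x : Fin 4 → ℤ // nu A x = n} := by
    unfold rep
    rw [← Nat.card_eq_fintype_card]
    exact Nat.card_congr (Equiv.subtypeEquivRight fun x => (nu_eq_iff h x n).symm)
  have h2 : ∀ c : {x : Fin 4 → ℤ // nu A x = n},
      term A (Equiv.sigmaFiberEquiv (nu A) ⟨n, c⟩) z = cexp (2 * Real.pi * I * z) ^ n := by
    intro c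
    rw [term_eq_pow h]
    congr 1
    exact c.2
  simp_rw [h2]
  convert hasSum_fintype (fun _ : {x : Fin 4 → ℤ // nu A x = n} => cexp (2 * Real.pi * I * z) ^ n)
    using 1
  rw [Finset.sum_const, Finset.card_univ, hcard, nsmul_eq_mul]

/-! ### (P3) Packaging as a modular form -/

/-- `Θ_A` as a function on the upper half plane. -/
noncomputable def thetaH (A : Matrix (Fin 4) (Fin 4) ℤ) : ℍ → ℂ := fun z => thetaFun A (z : ℂ)

theorem thetaH_apply (A : Matrix (Fin 4) (Fin 4) ℤ) (z : ℍ) : thetaH A z = thetaFun A (z : ℂ) := rfl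

theorem denom_SL2 (γ : SL(2, ℤ)) (z : ℍ) :
    denom (γ : GL (Fin 2) ℝ) z = ((γ 1 0 : ℤ) : ℂ) * z + ((γ 1 1 : ℤ) : ℂ) := by
  simp [denom]

theorem slash_thetaH (γ : SL(2, ℤ))
    (hγ : ∀ z : ℍ, thetaFun A ((γ • z : ℍ) : ℂ) =
      (((γ 1 0 : ℤ) : ℂ) * (z : ℂ) + ((γ 1 1 : ℤ) : ℂ)) ^ 2 * thetaFun A (z : ℂ)) :
    thetaH A ∣[(2 : ℤ)] γ = thetaH A := by
  funext z
  rw [SL_slash_apply]
  have hd : denom (γ : GL (Fin 2) ℝ) z ≠ 0 := denom_ne_zero _ z
  have h2 : denom (γ : GL (Fin 2) ℝ) z ^ (-(2 : ℤ)) = (denom (γ : GL (Fin 2) ℝ) z ^ 2)⁻¹ := by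
    rw [_root_.zpow_neg]
    norm_cast
  change thetaFun A ((γ • z : ℍ) : ℂ) * _ = thetaFun A (z : ℂ)
  rw [hγ z, ← denom_SL2, h2]
  field_simp

theorem isBoundedAt_thetaH
    (hbdd : ∀ γ : SL(2, ℤ), IsBoundedAtImInfty (thetaH A ∣[(2 : ℤ)] γ))
    {c : OnePoint ℝ} (hc : IsCusp c ((Gamma0 p : Subgroup SL(2, ℤ)) : Subgroup (GL (Fin 2) ℝ))) :
    c.IsBoundedAt (thetaH A) 2 := by
  have hc' : IsCusp c 𝒮ℒ := hc.mono (Subgroup.map_le_range _ _)
  rw [OnePoint.isBoundedAt_iff_exists_SL2Z hc']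
  obtain ⟨γ, rfl⟩ := isCusp_SL2Z_iff'.mp hc'
  exact ⟨γ, rfl, hbdd γ⟩

/-- `Θ_A` as a modular form of weight `2` on `Γ₀(p)`, given the transformation law and boundedness
at the cusps. -/
noncomputable def thetaForm (h : IsLevelLattice p A B)
    (hslash : ∀ γ ∈ Gamma0 p, ∀ z : ℍ, thetaFun A ((γ • z : ℍ) : ℂ) =
      (((γ 1 0 : ℤ) : ℂ) * (z : ℂ) + ((γ 1 1 : ℤ) : ℂ)) ^ 2 * thetaFun A (z : ℂ))
    (hbdd : ∀ γ : SL(2, ℤ), IsBoundedAtImInfty (thetaH A ∣[(2 : ℤ)] γ)) :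
    ModularForm (Gamma0 p) 2 where
  toFun := thetaH A
  slash_action_eq' := by
    rintro g ⟨γ, hγ, rfl⟩
    exact slash_thetaH γ (hslash γ hγ)
  holo' := mdifferentiable_thetaFun h
  bdd_at_cusps' := fun hc => isBoundedAt_thetaH hbdd hc

theorem thetaForm_apply (h : IsLevelLattice p A B)
    (hslash : ∀ γ ∈ Gamma0 p, ∀ z : ℍ, thetaFun A ((γ • z : ℍ) : ℂ) =
      (((γ 1 0 : ℤ) : ℂ) * (z : ℂ) + ((γ 1 1 : ℤ) : ℂ)) ^ 2 * thetaFun A (z : ℂ))
    (hbdd : ∀ γ : SL(2, ℤ), IsBoundedAtImInfty (thetaH A ∣[(2 : ℤ)] γ)) (z : ℍ) :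
    thetaForm h hslash hbdd z = thetaFun A (z : ℂ) := rfl

theorem qCoeff_thetaForm (h : IsLevelLattice p A B)
    (hslash : ∀ γ ∈ Gamma0 p, ∀ z : ℍ, thetaFun A ((γ • z : ℍ) : ℂ) =
      (((γ 1 0 : ℤ) : ℂ) * (z : ℂ) + ((γ 1 1 : ℤ) : ℂ)) ^ 2 * thetaFun A (z : ℂ))
    (hbdd : ∀ γ : SL(2, ℤ), IsBoundedAtImInfty (thetaH A ∣[(2 : ℤ)] γ)) (n : ℕ) :
    ModularFormClass.qCoeff (thetaForm h hslash hbdd) n = (rep A n : ℂ) := by
  unfold ModularFormClass.qCoeff
  refine (ModularFormClass.qExpansion_coeff_unique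
    (Γ := ((Gamma0 p : Subgroup SL(2, ℤ)) : Subgroup (GL (Fin 2) ℝ))) (k := 2)
    (c := fun n => (rep A n : ℂ)) one_pos
    (CongruenceSubgroup.one_mem_strictPeriods_Gamma0 p) (f := thetaForm h hslash hbdd)
    (fun τ => ?_) n).symm
  have := hasSum_rep h τ.im_pos
  simpa [Function.Periodic.qParam, thetaForm_apply] using this

/-- **Packaging**: from the transformation law on `Γ₀(p)` and boundedness at all cusps, `Θ_A` is a
modular form of weight 2 and level `p` with constant term `1` and even higher coefficients. -/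
theorem thetaForm_of (h : IsLevelLattice p A B)
    (hslash : ∀ γ ∈ Gamma0 p, ∀ z : ℍ, thetaFun A ((γ • z : ℍ) : ℂ) =
      (((γ 1 0 : ℤ) : ℂ) * (z : ℂ) + ((γ 1 1 : ℤ) : ℂ)) ^ 2 * thetaFun A (z : ℂ))
    (hbdd : ∀ γ : SL(2, ℤ),
      IsBoundedAtImInfty ((fun z : ℍ => thetaFun A (z : ℂ)) ∣[(2 : ℤ)] γ)) :
    ∃ G : ModularForm (Gamma0 p) 2, ModularFormClass.qCoeff G 0 = 1 ∧
      ∀ j : ℕ, 1 ≤ j → ∃ c : ℤ, ModularFormClass.qCoeff G j = 2 * (c : ℂ) := by
  have hbdd' : ∀ γ : SL(2, ℤ), IsBoundedAtImInfty (thetaH A ∣[(2 : ℤ)] γ) := hbdd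
  refine ⟨thetaForm h hslash hbdd', ?_, fun j hj => ?_⟩
  · rw [qCoeff_thetaForm, rep_zero h, Nat.cast_one]
  · obtain ⟨m, hm⟩ := even_rep h hj
    refine ⟨(m : ℤ), ?_⟩
    rw [qCoeff_thetaForm, hm]
    push_cast
    ring

end Fermat.Agent.S16.Theta.Package
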