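import Mathlib
import Fermat.Agent.S16.Theta.Defs

/-!
# S16, (A-theta), block (II): transformation of `Θ_A` under `SL₂(ℤ)`

From the inversion formula (`InversionStatement`, block (I)) we derive, for an even quaternary
lattice `A` of determinant `p²` and level `p` (`IsLevelLattice p A B`):

* `theta_inversion` : `∑_y exp(π i w (y+u)ᵀA(y+u)) = -(1/(p w²)) ∑_m exp(-π i (mᵀBm/p)/w + 2π i mᵀu)`;
* `theta_fricke` : `Θ_A(-1/(p z)) = -p z² Θ_B(z)`;
* `theta_smul_general` : for `γ = (a b; c d) ∈ SL₂(ℤ)`, `c > 0`: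
  `Θ_A(γ z) = -((cz+d)²/(p c²)) ∑_m exp(π i z mᵀBm/p) G_γ(m)`;
* `theta_smul` : for `γ ∈ Γ₀(p)`, `c > 0`: `Θ_A(γ z) = ε(γ) (cz+d)² Θ_A(z)`, `ε(γ) = -G(a,c)/(p c²)`.

Owner: helper88.
-/

set_option autoImplicit false
set_option linter.unusedSectionVars false

open Complex Matrix

namespace Fermat.Agent.S16.Theta.Transform

open Fermat.Agent.S16.Theta

/-! ### Algebra of the quadratic forms -/

section Algebra

variable {ι : Type*} [Fintype ι]

theorem quad_add (M : Matrix ι ι ℝ) (hM : M.IsSymm) (x y : ι → ℝ) :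
    quad M (x + y) = quad M x + 2 * (x ⬝ᵥ (M *ᵥ y)) + quad M y := by
  unfold quad
  rw [mulVec_add, add_dotProduct, dotProduct_add, dotProduct_add]
  have h : y ⬝ᵥ (M *ᵥ x) = x ⬝ᵥ (M *ᵥ y) := by
    rw [dotProduct_mulVec, ← hM.eq, vecMul_transpose, dotProduct_comm, hM.eq]
  rw [h]
  ring

theorem quad_smul (M : Matrix ι ι ℝ) (c : ℝ) (x : ι → ℝ) :
    quad M (c • x) = c ^ 2 * quad M x := by
  unfold quad
  rw [mulVec_smul, smul_dotProduct, dotProduct_smul, smul_eq_mul, smul_eq_mul]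
  ring

end Algebra

section Int

variable (A : Matrix (Fin 4) (Fin 4) ℤ)

/-- the real matrix attached to `A`. -/
noncomputable def toR : Matrix (Fin 4) (Fin 4) ℝ := A.map (Int.cast : ℤ → ℝ)

theorem toR_apply (i j : Fin 4) : toR A i j = (A i j : ℝ) := rfl

theorem quad_toR_cast (x : Fin 4 → ℤ) : quad (toR A) (fun i => (x i : ℝ)) = (qz A x : ℝ) := by
  unfold quad qz toR
  simp only [dotProduct, mulVec, Matrix.map_apply]
  push_cast
  rfl

theorem toR_isSymm (hA : A.IsSymm) : (toR A).IsSymm := by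
  ext i j
  rw [transpose_apply, toR_apply, toR_apply, ← hA.apply]

theorem qz_add (hA : A.IsSymm) (x y : Fin 4 → ℤ) :
    qz A (x + y) = qz A x + 2 * (x ⬝ᵥ (A *ᵥ y)) + qz A y := by
  unfold qz
  rw [mulVec_add, add_dotProduct, dotProduct_add, dotProduct_add]
  have h : y ⬝ᵥ (A *ᵥ x) = x ⬝ᵥ (A *ᵥ y) := by
    rw [dotProduct_mulVec, ← hA.eq, vecMul_transpose, dotProduct_comm, hA.eq]
  rw [h]
  ring

theorem qz_smul (c : ℤ) (x : Fin 4 → ℤ) : qz A (c • x) = c ^ 2 * qz A x := by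
  unfold qz
  rw [mulVec_smul, smul_dotProduct, dotProduct_smul, smul_eq_mul, smul_eq_mul]
  ring

theorem qz_neg (x : Fin 4 → ℤ) : qz A (-x) = qz A x := by
  unfold qz
  rw [mulVec_neg, neg_dotProduct, dotProduct_neg, neg_neg]

/-- `xᵀAx` is even when `A` is symmetric with even diagonal. -/
theorem even_qz (hA : A.IsSymm) (hev : ∀ i, Even (A i i)) (x : Fin 4 → ℤ) : Even (qz A x) := by
  unfold qz
  simp only [dotProduct, mulVec, Fin.sum_univ_four]
  obtain ⟨a0, h0⟩ := hev 0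
  obtain ⟨a1, h1⟩ := hev 1
  obtain ⟨a2, h2⟩ := hev 2
  obtain ⟨a3, h3⟩ := hev 3
  have s01 := hA.apply 0 1
  have s02 := hA.apply 0 2
  have s03 := hA.apply 0 3
  have s12 := hA.apply 1 2
  have s13 := hA.apply 1 3
  have s23 := hA.apply 2 3
  rw [h0, h1, h2, h3, s01, s02, s03, s12, s13, s23]
  refine ⟨a0 * x 0 ^ 2 + a1 * x 1 ^ 2 + a2 * x 2 ^ 2 + a3 * x 3 ^ 2 + A 0 1 * x 0 * x 1 +
    A 0 2 * x 0 * x 2 + A 0 3 * x 0 * x 3 + A 1 2 * x 1 * x 2 + A 1 3 * x 1 * x 3 +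
    A 2 3 * x 2 * x 3, ?_⟩
  ring

end Int

/-! ### The inversion formula for the lattice -/

section Inversion

variable {p : ℕ} {A B : Matrix (Fin 4) (Fin 4) ℤ}

theorem toR_mul (A B : Matrix (Fin 4) (Fin 4) ℤ) : toR (A * B) = toR A * toR B := by
  simpa [toR] using Matrix.map_mul (L := A) (M := B) (f := Int.castRingHom ℝ)

theorem toR_inv (h : IsLevelLattice p A B) (hp : p ≠ 0) :
    (toR A)⁻¹ = (1 / (p : ℝ)) • toR B := by
  apply Matrix.inv_eq_right_inv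
  rw [Matrix.mul_smul, ← toR_mul, h.mul]
  ext i j
  simp only [toR, Matrix.map_apply, Matrix.smul_apply, Matrix.one_apply, smul_eq_mul]
  have hp' : (p : ℝ) ≠ 0 := by exact_mod_cast hp
  by_cases hij : i = j
  · simp [hij, hp']
  · simp [hij]

theorem toR_det (h : IsLevelLattice p A B) : (toR A).det = (p : ℝ) ^ 2 := by
  have h1 : (toR A).det = ((A.det : ℤ) : ℝ) := by
    have := RingHom.map_det (Int.castRingHom ℝ) A
    rw [RingHom.mapMatrix_apply] at this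
    exact this.symm
  rw [h1, h.det]
  push_cast
  rfl

theorem quad_inv (h : IsLevelLattice p A B) (hp : p ≠ 0) (m : Fin 4 → ℤ) :
    quad (toR A)⁻¹ (fun i => (m i : ℝ)) = (qz B m : ℝ) / p := by
  rw [toR_inv h hp]
  unfold quad
  rw [Matrix.smul_mulVec, dotProduct_smul, smul_eq_mul]
  have := quad_toR_cast B m
  unfold quad at this
  rw [this]
  ring

theorem four_pow (w : ℂ) (hw : w ≠ 0) :
    (1 / (-I * w) ^ (1 / 2 : ℂ)) ^ 4 = -(1 / w ^ 2) := by
  have h1 : ((-I * w) ^ (1 / 2 : ℂ)) ^ 2 = -I * w := by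
    simp
  rw [one_div, inv_pow, show (4 : ℕ) = 2 * 2 from rfl, pow_mul, h1, mul_pow]
  have : (-I) ^ 2 = -1 := by rw [neg_sq, I_sq]
  rw [this]
  field_simp

/-- **Inversion formula for the lattice**, with a real shift `u`. -/
theorem theta_inversion (h : IsLevelLattice p A B) (hp : p ≠ 0) (hInv : InversionStatement)
    (w : ℂ) (hw : 0 < w.im) (u : Fin 4 → ℝ) :
    Summable (fun y : Fin 4 → ℤ =>
      cexp (Real.pi * I * w * (quad (toR A) (fun i => (y i : ℝ) + u i) : ℝ))) ∧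
    Summable (fun m : Fin 4 → ℤ =>
      cexp (-(Real.pi * I * ((qz B m : ℂ) / p)) / w +
        2 * Real.pi * I * ((∑ i, (m i : ℝ) * u i : ℝ) : ℂ))) ∧
    ∑' y : Fin 4 → ℤ, cexp (Real.pi * I * w * (quad (toR A) (fun i => (y i : ℝ) + u i) : ℝ)) =
      -(1 / ((p : ℂ) * w ^ 2)) * ∑' m : Fin 4 → ℤ,
        cexp (-(Real.pi * I * ((qz B m : ℂ) / p)) / w +
          2 * Real.pi * I * ((∑ i, (m i : ℝ) * u i : ℝ) : ℂ)) := by
  have hw0 : w ≠ 0 := by
    rintro rfl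
    simp at hw
  obtain ⟨h1, h2, h3⟩ := hInv 4 (toR A) h.posDef w hw u 0
  have e1 : thetaTerm (toR A) w u 0 = fun y : Fin 4 → ℤ =>
      cexp (Real.pi * I * w * (quad (toR A) (fun i => (y i : ℝ) + u i) : ℝ)) := by
    funext y
    unfold thetaTerm
    simp
  have e2 : thetaDualTerm (toR A) w u 0 = fun m : Fin 4 → ℤ =>
      cexp (-(Real.pi * I * ((qz B m : ℂ) / p)) / w +
        2 * Real.pi * I * ((∑ i, (m i : ℝ) * u i : ℝ) : ℂ)) := by
    funext m
    unfold thetaDualTerm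
    have : (fun i => (m i : ℝ) - (0 : Fin 4 → ℝ) i) = fun i => (m i : ℝ) := by
      funext i; simp
    rw [this, quad_inv h hp m]
    push_cast
    rfl
  rw [e1] at h1 h3
  rw [e2] at h2 h3
  refine ⟨h1, h2, ?_⟩
  rw [h3, four_pow w hw0, toR_det h, Real.sqrt_sq (Nat.cast_nonneg p)]
  push_cast
  have hp' : (p : ℂ) ≠ 0 := by exact_mod_cast hp
  field_simp

/-- **Fricke involution**: `Θ_A(-1/(p z)) = -p z² Θ_B(z)`. -/
theorem theta_fricke (h : IsLevelLattice p A B) (hp : p ≠ 0) (hInv : InversionStatement)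
    (z : ℂ) (hz : 0 < z.im) :
    thetaFun A (-1 / ((p : ℂ) * z)) = -(p : ℂ) * z ^ 2 * thetaFun B z := by
  have hp' : (p : ℂ) ≠ 0 := by exact_mod_cast hp
  have hz0 : z ≠ 0 := by
    rintro rfl
    simp at hz
  set w : ℂ := -1 / ((p : ℂ) * z) with hw
  have hwim : 0 < w.im := by
    have h1 : w = ((-1 / (p : ℝ) : ℝ) : ℂ) * z⁻¹ := by
      rw [hw]; push_cast; field_simp
    rw [h1, Complex.im_ofReal_mul, Complex.inv_im]
    have hn : 0 < Complex.normSq z := Complex.normSq_pos.mpr hz0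
    have hpR : (0 : ℝ) < p := by exact_mod_cast Nat.pos_of_ne_zero hp
    have : -1 / (p : ℝ) * (-z.im / Complex.normSq z) = z.im / ((p : ℝ) * Complex.normSq z) := by
      field_simp
    rw [this]
    positivity
  obtain ⟨-, -, h3⟩ := theta_inversion h hp hInv w hwim 0
  have e1 : ∀ y : Fin 4 → ℤ,
      cexp (Real.pi * I * w * (quad (toR A) (fun i => (y i : ℝ) + (0 : Fin 4 → ℝ) i) : ℝ)) =
        cexp (Real.pi * I * w * (qz A y : ℂ)) := by
    intro y
    have : (fun i => (y i : ℝ) + (0 : Fin 4 → ℝ) i) = fun i => (y i : ℝ) := by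
      funext i; simp
    rw [this, quad_toR_cast]
    push_cast
    rfl
  have e2 : ∀ m : Fin 4 → ℤ,
      cexp (-(Real.pi * I * ((qz B m : ℂ) / p)) / w +
        2 * Real.pi * I * ((∑ i, (m i : ℝ) * (0 : Fin 4 → ℝ) i : ℝ) : ℂ)) =
        cexp (Real.pi * I * z * (qz B m : ℂ)) := by
    intro m
    congr 1
    simp only [Pi.zero_apply, mul_zero, Finset.sum_const_zero, Complex.ofReal_zero, add_zero]
    rw [hw]
    field_simp
  simp_rw [e1, e2] at h3
  unfold thetaFun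
  rw [h3, hw]
  field_simp

end Inversion

/-! ### Splitting the summation variable modulo `n` -/

section Split

variable {A : Matrix (Fin 4) (Fin 4) ℤ}

/-- the integer vector attached to a residue vector. -/
def gz {n : ℕ} (g : Fin 4 → Fin n) : Fin 4 → ℤ := fun i => ((g i : ℕ) : ℤ)

/-- the equivalence `x = n y + g`. -/
def splitEquiv (n : ℕ) [NeZero n] : (Fin 4 → Fin n) × (Fin 4 → ℤ) ≃ (Fin 4 → ℤ) :=
  (Equiv.prodComm _ _).trans
    ((Equiv.arrowProdEquivProdArrow (Fin 4) (fun _ => ℤ) (fun _ => Fin n)).symm.trans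
      (Equiv.piCongrRight fun _ => (Int.divModEquiv n).symm))

theorem splitEquiv_apply (n : ℕ) [NeZero n] (g : Fin 4 → Fin n) (y : Fin 4 → ℤ) :
    splitEquiv n (g, y) = (n : ℤ) • y + gz g := by
  funext i
  simp [splitEquiv, gz, Equiv.arrowProdEquivProdArrow, mul_comm]

theorem term_split (hA : A.IsSymm) (hev : ∀ i, Even (A i i)) (n : ℕ) [NeZero n] (a : ℤ) (w : ℂ)
    (g : Fin 4 → Fin n) (y : Fin 4 → ℤ) :
    cexp (Real.pi * I * ((a : ℂ) / n + w / (n : ℂ) ^ 2) * (qz A ((n : ℤ) • y + gz g) : ℂ)) =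
      cexp (Real.pi * I * a * (qz A (gz g) : ℂ) / n) *
        cexp (Real.pi * I * w *
          (quad (toR A) (fun i => (y i : ℝ) + ((g i : ℕ) : ℝ) / n) : ℝ)) := by
  have hn : (n : ℂ) ≠ 0 := by exact_mod_cast NeZero.ne n
  have hnR : (n : ℝ) ≠ 0 := by exact_mod_cast NeZero.ne n
  have hx : qz A ((n : ℤ) • y + gz g) =
      (n : ℤ) ^ 2 * qz A y + 2 * ((n : ℤ) * (y ⬝ᵥ (A *ᵥ gz g))) + qz A (gz g) := by
    rw [qz_add A hA, qz_smul, smul_dotProduct, smul_eq_mul]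
  have hq : quad (toR A) (fun i => (y i : ℝ) + ((g i : ℕ) : ℝ) / n) =
      (qz A ((n : ℤ) • y + gz g) : ℝ) / (n : ℝ) ^ 2 := by
    have h1 : (fun i => (((n : ℤ) • y + gz g) i : ℝ)) =
        (n : ℝ) • fun i => (y i : ℝ) + ((g i : ℕ) : ℝ) / n := by
      funext i
      simp only [Pi.add_apply, Pi.smul_apply, smul_eq_mul, gz]
      push_cast
      field_simp
    rw [← quad_toR_cast, h1, quad_smul]
    exact (mul_div_cancel_left₀ _ (pow_ne_zero 2 hnR)).symm
  obtain ⟨e, he⟩ := even_qz A hA hev y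
  rw [← Complex.exp_add, hq]
  have key : Real.pi * I * ((a : ℂ) / n + w / (n : ℂ) ^ 2) * (qz A ((n : ℤ) • y + gz g) : ℂ) =
      (Real.pi * I * a * (qz A (gz g) : ℂ) / n + Real.pi * I * w *
        (((qz A ((n : ℤ) • y + gz g) : ℝ) / (n : ℝ) ^ 2 : ℝ) : ℂ)) +
      ((a * ((n : ℤ) * e + y ⬝ᵥ (A *ᵥ gz g)) : ℤ) : ℂ) * (2 * Real.pi * I) := by
    rw [hx, he]
    push_cast
    field_simp
    ring
  rw [key, Complex.exp_add, Complex.exp_int_mul_two_pi_mul_I, mul_one]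

end Split

/-! ### The general transformation formula -/

section General

variable {p : ℕ} {A B : Matrix (Fin 4) (Fin 4) ℤ}

/-- `∑_{g mod n} e((a Q(g) + m·g)/n)`. -/
noncomputable def innerSum (A : Matrix (Fin 4) (Fin 4) ℤ) (n : ℕ) (a : ℤ) (m : Fin 4 → ℤ) : ℂ :=
  ∑ g : Fin 4 → Fin n, cexp (Real.pi * I * a * (qz A (gz g) : ℂ) / n) *
    cexp (2 * Real.pi * I * ((m ⬝ᵥ gz g : ℤ) : ℂ) / n)

/-- The coefficient `G_γ(m)` of the general transformation formula. -/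
noncomputable def Gm (A B : Matrix (Fin 4) (Fin 4) ℤ) (p n : ℕ) (a d : ℤ) (m : Fin 4 → ℤ) : ℂ :=
  innerSum A n a m * cexp (Real.pi * I * d * (qz B m : ℂ) / ((p : ℂ) * n))

/-- the dual term `exp(π i z mᵀBm/p)`. -/
noncomputable def dualTerm (B : Matrix (Fin 4) (Fin 4) ℤ) (p : ℕ) (z : ℂ) (m : Fin 4 → ℤ) : ℂ :=
  cexp (Real.pi * I * z * (qz B m : ℂ) / p)

theorem denom_ne_zero (n : ℕ) [NeZero n] (d : ℤ) (z : ℂ) (hz : 0 < z.im) :
    (n : ℂ) * z + d ≠ 0 := by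
  intro h0
  have := congrArg Complex.im h0
  simp only [add_im, mul_im, natCast_re, natCast_im, zero_mul, add_zero, intCast_im,
    zero_im] at this
  have hn : (0 : ℝ) < n := by exact_mod_cast Nat.pos_of_ne_zero (NeZero.ne n)
  have : (n : ℝ) * z.im = 0 := this
  exact absurd this (mul_pos hn hz).ne'

theorem im_w_pos (n : ℕ) [NeZero n] (d : ℤ) (z : ℂ) (hz : 0 < z.im) :
    0 < (-(n : ℂ) / ((n : ℂ) * z + d)).im := by
  have hD := denom_ne_zero n d z hz
  have hn : (0 : ℝ) < n := by exact_mod_cast Nat.pos_of_ne_zero (NeZero.ne n)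
  rw [neg_div, neg_im, div_im]
  simp only [natCast_im, natCast_re, zero_mul, zero_div, zero_sub, neg_neg, add_im, mul_im,
    add_zero, intCast_im]
  have hns : 0 < Complex.normSq ((n : ℂ) * z + d) := Complex.normSq_pos.mpr hD
  positivity

theorem inner_g (h : IsLevelLattice p A B) (hp : p ≠ 0) (hInv : InversionStatement)
    (n : ℕ) [NeZero n] (d : ℤ) (z : ℂ) (hz : 0 < z.im) (g : Fin 4 → Fin n) :
    Summable (fun y : Fin 4 → ℤ => cexp (Real.pi * I * (-(n : ℂ) / ((n : ℂ) * z + d)) *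
      (quad (toR A) (fun i => (y i : ℝ) + ((g i : ℕ) : ℝ) / n) : ℝ))) ∧
    Summable (fun m : Fin 4 → ℤ => dualTerm B p z m *
      (cexp (Real.pi * I * d * (qz B m : ℂ) / ((p : ℂ) * n)) *
        cexp (2 * Real.pi * I * ((m ⬝ᵥ gz g : ℤ) : ℂ) / n))) ∧
    ∑' y : Fin 4 → ℤ, cexp (Real.pi * I * (-(n : ℂ) / ((n : ℂ) * z + d)) *
      (quad (toR A) (fun i => (y i : ℝ) + ((g i : ℕ) : ℝ) / n) : ℝ)) =
    -(((n : ℂ) * z + d) ^ 2 / ((p : ℂ) * (n : ℂ) ^ 2)) *
      ∑' m : Fin 4 → ℤ, dualTerm B p z m *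
        (cexp (Real.pi * I * d * (qz B m : ℂ) / ((p : ℂ) * n)) *
          cexp (2 * Real.pi * I * ((m ⬝ᵥ gz g : ℤ) : ℂ) / n)) := by
  have hD := denom_ne_zero n d z hz
  have hn : (n : ℂ) ≠ 0 := by exact_mod_cast NeZero.ne n
  have hp' : (p : ℂ) ≠ 0 := by exact_mod_cast hp
  obtain ⟨h1, h2, h3⟩ := theta_inversion h hp hInv _ (im_w_pos n d z hz)
    (fun i => ((g i : ℕ) : ℝ) / n)
  have e : ∀ m : Fin 4 → ℤ,
      cexp (-(Real.pi * I * ((qz B m : ℂ) / p)) / (-(n : ℂ) / ((n : ℂ) * z + d)) +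
        2 * Real.pi * I * ((∑ i, (m i : ℝ) * (((g i : ℕ) : ℝ) / n) : ℝ) : ℂ)) =
      dualTerm B p z m * (cexp (Real.pi * I * d * (qz B m : ℂ) / ((p : ℂ) * n)) *
        cexp (2 * Real.pi * I * ((m ⬝ᵥ gz g : ℤ) : ℂ) / n)) := by
    intro m
    unfold dualTerm
    rw [← Complex.exp_add, ← Complex.exp_add]
    congr 1
    have hs : ((∑ i, (m i : ℝ) * (((g i : ℕ) : ℝ) / n) : ℝ) : ℂ) =
        ((m ⬝ᵥ gz g : ℤ) : ℂ) / n := by
      simp only [dotProduct, gz]
      push_cast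
      rw [Finset.sum_div]
      apply Finset.sum_congr rfl
      intro i _
      ring
    rw [hs]
    field_simp
    ring
  simp_rw [e] at h2 h3
  refine ⟨h1, h2, ?_⟩
  rw [h3]
  congr 1
  field_simp

theorem summable_theta (h : IsLevelLattice p A B) (hp : p ≠ 0) (hInv : InversionStatement)
    (w : ℂ) (hw : 0 < w.im) :
    Summable (fun x : Fin 4 → ℤ => cexp (Real.pi * I * w * (qz A x : ℂ))) := by
  obtain ⟨h1, -, -⟩ := theta_inversion h hp hInv w hw 0
  refine h1.congr fun y => ?_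
  have : (fun i => (y i : ℝ) + (0 : Fin 4 → ℝ) i) = fun i => (y i : ℝ) := by
    funext i; simp
  rw [this, quad_toR_cast]
  push_cast
  rfl

/-- **General transformation formula**: for `(a b; n d) ∈ SL₂(ℤ)`, `n > 0`,
`Θ_A((az+b)/(nz+d)) = -((nz+d)²/(p n²)) ∑_m exp(π i z mᵀBm/p) G(m)`. -/
theorem theta_smul_general (h : IsLevelLattice p A B) (hp : p ≠ 0) (hInv : InversionStatement)
    (n : ℕ) [NeZero n] (a b d : ℤ) (hdet : a * d - b * n = 1) (z : ℂ) (hz : 0 < z.im) :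
    Summable (fun m : Fin 4 → ℤ => dualTerm B p z m * Gm A B p n a d m) ∧
    thetaFun A (((a : ℂ) * z + b) / ((n : ℂ) * z + d)) =
      -(((n : ℂ) * z + d) ^ 2 / ((p : ℂ) * (n : ℂ) ^ 2)) *
        ∑' m : Fin 4 → ℤ, dualTerm B p z m * Gm A B p n a d m := by
  have hD := denom_ne_zero n d z hz
  have hn : (n : ℂ) ≠ 0 := by exact_mod_cast NeZero.ne n
  have hnR : (0 : ℝ) < n := by exact_mod_cast Nat.pos_of_ne_zero (NeZero.ne n)
  have hdetC : (a : ℂ) * d - b * n = 1 := by exact_mod_cast congrArg (Int.cast : ℤ → ℂ) hdet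
  have hwim : 0 < (-(n : ℂ) / ((n : ℂ) * z + d)).im := im_w_pos n d z hz
  have hz' : ((a : ℂ) * z + b) / ((n : ℂ) * z + d) =
      (a : ℂ) / n + (-(n : ℂ) / ((n : ℂ) * z + d)) / (n : ℂ) ^ 2 := by
    have h1 : (-(n : ℂ) / ((n : ℂ) * z + d)) / (n : ℂ) ^ 2 = -1 / ((n : ℂ) * ((n : ℂ) * z + d)) := by
      field_simp
    rw [h1, div_add_div _ _ hn (mul_ne_zero hn hD),
      div_eq_div_iff hD (mul_ne_zero hn (mul_ne_zero hn hD))]
    linear_combination (-((n : ℂ) * ((n : ℂ) * z + d))) * hdetC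
  have him : 0 < ((a : ℂ) / n + (-(n : ℂ) / ((n : ℂ) * z + d)) / (n : ℂ) ^ 2).im := by
    have h1 : ((a : ℂ) / n) = (((a : ℝ) / n : ℝ) : ℂ) := by push_cast; rfl
    have h2 : (-(n : ℂ) / ((n : ℂ) * z + d)) / (n : ℂ) ^ 2 =
        ((1 / (n : ℝ) ^ 2 : ℝ) : ℂ) * (-(n : ℂ) / ((n : ℂ) * z + d)) := by
      push_cast; field_simp
    rw [h1, h2, add_im, ofReal_im, zero_add, Complex.im_ofReal_mul]
    positivity
  have hsum := summable_theta h hp hInv _ him
  -- the family of dual terms, for each `g`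
  have hg := fun g : Fin 4 → Fin n => inner_g h hp hInv n d z hz g
  have hfin : ∀ m : Fin 4 → ℤ, dualTerm B p z m * Gm A B p n a d m =
      ∑ g : Fin 4 → Fin n, cexp (Real.pi * I * a * (qz A (gz g) : ℂ) / n) *
        (dualTerm B p z m * (cexp (Real.pi * I * d * (qz B m : ℂ) / ((p : ℂ) * n)) *
          cexp (2 * Real.pi * I * ((m ⬝ᵥ gz g : ℤ) : ℂ) / n))) := by
    intro m
    unfold Gm innerSum
    rw [Finset.sum_mul, Finset.mul_sum]
    apply Finset.sum_congr rfl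
    intro g _
    ring
  have hsummable : Summable (fun m : Fin 4 → ℤ => dualTerm B p z m * Gm A B p n a d m) := by
    simp_rw [hfin]
    exact summable_sum fun g _ => (hg g).2.1.mul_left _
  refine ⟨hsummable, ?_⟩
  unfold thetaFun
  rw [hz']
  have hsum' : Summable (fun q : (Fin 4 → Fin n) × (Fin 4 → ℤ) =>
      cexp (Real.pi * I * ((a : ℂ) / n + (-(n : ℂ) / ((n : ℂ) * z + d)) / (n : ℂ) ^ 2) *
        (qz A (splitEquiv n q) : ℂ))) :=
    (Equiv.summable_iff (splitEquiv n)).mpr hsum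
  rw [← (splitEquiv n).tsum_eq, Summable.tsum_prod hsum', tsum_fintype]
  simp_rw [splitEquiv_apply, term_split h.symm h.even, tsum_mul_left]
  simp_rw [(hg _).2.2, hfin]
  rw [Summable.tsum_finsetSum fun g _ => (hg g).2.1.mul_left _, Finset.mul_sum]
  apply Finset.sum_congr rfl
  intro g _
  rw [tsum_mul_left]
  ring

end General

/-! ### Sums of periodic functions over residues -/

section Periodic

variable (n : ℕ) [NeZero n]

/-- the standard integer lift of a vector of residues. -/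
def liftZ (g : Fin 4 → ZMod n) : Fin 4 → ℤ := fun i => ((g i).val : ℤ)

theorem periodic_congr {F : (Fin 4 → ℤ) → ℂ} (hF : ∀ x t, F (x + (n : ℤ) • t) = F x)
    {x y : Fin 4 → ℤ} (hxy : ∀ i, (n : ℤ) ∣ x i - y i) : F x = F y := by
  choose t ht using hxy
  have : x = y + (n : ℤ) • t := by
    funext i
    simp only [Pi.add_apply, Pi.smul_apply, smul_eq_mul]
    linarith [ht i]
  rw [this, hF]

/-- `Fin n ≃ ZMod n` by casting. -/
noncomputable def finZMod : Fin n ≃ ZMod n where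
  toFun x := ((x : ℕ) : ZMod n)
  invFun y := ⟨y.val, ZMod.val_lt y⟩
  left_inv x := by
    apply Fin.ext
    simp only [ZMod.val_natCast]
    exact Nat.mod_eq_of_lt x.isLt
  right_inv y := by simp

theorem sum_fin_eq_sum_zmod (F : (Fin 4 → ℤ) → ℂ) :
    ∑ g : Fin 4 → Fin n, F (gz g) = ∑ g : Fin 4 → ZMod n, F (liftZ n g) := by
  apply Fintype.sum_equiv (Equiv.piCongrRight fun _ => finZMod n)
  intro g
  congr 1
  funext i
  simp only [liftZ, gz, Equiv.piCongrRight_apply, Pi.map_apply, finZMod, Equiv.coe_fn_mk,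
    ZMod.val_natCast]
  rw [Nat.mod_eq_of_lt (g i).isLt]

theorem sum_shift_zmod {F : (Fin 4 → ℤ) → ℂ} (hF : ∀ x t, F (x + (n : ℤ) • t) = F x)
    (s : Fin 4 → ℤ) :
    ∑ g : Fin 4 → ZMod n, F (liftZ n g + s) = ∑ g : Fin 4 → ZMod n, F (liftZ n g) := by
  apply Fintype.sum_equiv (Equiv.addRight (fun i => ((s i : ℤ) : ZMod n)))
  intro g
  apply periodic_congr n hF
  intro i
  rw [← ZMod.intCast_zmod_eq_zero_iff_dvd]
  simp only [liftZ, Pi.add_apply, Equiv.coe_addRight]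
  push_cast
  rw [ZMod.natCast_zmod_val, ZMod.natCast_zmod_val]
  ring

theorem sum_shift {F : (Fin 4 → ℤ) → ℂ} (hF : ∀ x t, F (x + (n : ℤ) • t) = F x)
    (s : Fin 4 → ℤ) :
    ∑ g : Fin 4 → Fin n, F (gz g + s) = ∑ g : Fin 4 → Fin n, F (gz g) := by
  rw [sum_fin_eq_sum_zmod n (fun x => F (x + s)), sum_fin_eq_sum_zmod n F]
  exact sum_shift_zmod n hF s

end Periodic

/-! ### The case `p ∣ n`: the multiplier -/

section Level

variable {p : ℕ} {A B : Matrix (Fin 4) (Fin 4) ℤ}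

/-- exponentials of `π i X / n` only depend on `X` modulo `2n`. -/
theorem cexp_pi_congr (n : ℕ) [NeZero n] {X Y : ℤ} (k : ℤ) (hXY : X = Y + 2 * n * k) :
    cexp (Real.pi * I * (X : ℂ) / n) = cexp (Real.pi * I * (Y : ℂ) / n) := by
  have hn : (n : ℂ) ≠ 0 := by exact_mod_cast NeZero.ne n
  have : Real.pi * I * (X : ℂ) / n = Real.pi * I * (Y : ℂ) / n + (k : ℂ) * (2 * Real.pi * I) := by
    rw [hXY]
    push_cast
    field_simp
  rw [this, Complex.exp_add, Complex.exp_int_mul_two_pi_mul_I, mul_one]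

/-- the summand of `innerSum`, as a function on `ℤ⁴`. -/
noncomputable def Fm (A : Matrix (Fin 4) (Fin 4) ℤ) (n : ℕ) (a : ℤ) (m x : Fin 4 → ℤ) : ℂ :=
  cexp (Real.pi * I * ((a * qz A x + 2 * (m ⬝ᵥ x) : ℤ) : ℂ) / n)

theorem innerSum_eq (n : ℕ) [NeZero n] (a : ℤ) (m : Fin 4 → ℤ) :
    innerSum A n a m = ∑ g : Fin 4 → Fin n, Fm A n a m (gz g) := by
  unfold innerSum Fm
  apply Finset.sum_congr rfl
  intro g _
  rw [← Complex.exp_add]
  congr 1
  push_cast
  ring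

theorem Fm_periodic (hA : A.IsSymm) (hev : ∀ i, Even (A i i)) (n : ℕ) [NeZero n] (a : ℤ)
    (m x t : Fin 4 → ℤ) : Fm A n a m (x + (n : ℤ) • t) = Fm A n a m x := by
  unfold Fm
  obtain ⟨e, he⟩ := even_qz A hA hev t
  apply cexp_pi_congr n (a * (x ⬝ᵥ (A *ᵥ t)) + a * n * e + m ⬝ᵥ t)
  rw [qz_add A hA, qz_smul, dotProduct_add, mulVec_smul, dotProduct_smul, dotProduct_smul, he]
  simp only [smul_eq_mul]
  ring

theorem gaussQ_eq (n : ℕ) [NeZero n] (a : ℤ) :
    gaussQ A a n = ∑ g : Fin 4 → Fin n, Fm A n a 0 (gz g) := by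
  unfold gaussQ Fm
  apply Finset.sum_congr rfl
  intro g _
  congr 1
  simp only [zero_dotProduct, mul_zero, add_zero]
  push_cast
  unfold gz
  ring

theorem qz_B_mulVec (h : IsLevelLattice p A B) (t : Fin 4 → ℤ) :
    qz B (A *ᵥ t) = p * qz A t := by
  unfold qz
  rw [mulVec_mulVec, h.mul', smul_mulVec, one_mulVec, dotProduct_smul, smul_eq_mul,
    dotProduct_comm]

theorem qz_A_mulVec (h : IsLevelLattice p A B) (u : Fin 4 → ℤ) :
    qz A (B *ᵥ u) = p * qz B u := by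
  unfold qz
  rw [mulVec_mulVec, h.mul, smul_mulVec, one_mulVec, dotProduct_smul, smul_eq_mul,
    dotProduct_comm]

/-- **(b)** `G(A t) = G(a, n)`. -/
theorem Gm_mulVec (h : IsLevelLattice p A B) (hp : p ≠ 0) (n : ℕ) [NeZero n] (a b d : ℤ)
    (hdet : a * d - b * n = 1) (t : Fin 4 → ℤ) :
    Gm A B p n a d (A *ᵥ t) = gaussQ A a n := by
  have hn : (n : ℂ) ≠ 0 := by exact_mod_cast NeZero.ne n
  have hp' : (p : ℂ) ≠ 0 := by exact_mod_cast hp
  unfold Gm
  rw [innerSum_eq, gaussQ_eq, qz_B_mulVec h, Finset.sum_mul,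
    ← sum_shift n (Fm_periodic h.symm h.even n a 0) (d • t)]
  apply Finset.sum_congr rfl
  intro g _
  have e1 : cexp (Real.pi * I * d * ((p * qz A t : ℤ) : ℂ) / ((p : ℂ) * n)) =
      cexp (Real.pi * I * ((d * qz A t : ℤ) : ℂ) / n) := by
    congr 1
    push_cast
    field_simp
  rw [e1]
  unfold Fm
  rw [← Complex.exp_add, ← add_div, ← mul_add, ← Int.cast_add]
  obtain ⟨e, he⟩ := even_qz A h.symm h.even t
  apply cexp_pi_congr n (-(b * (gz g ⬝ᵥ (A *ᵥ t) + d * e)))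
  rw [qz_add A h.symm, qz_smul, mulVec_smul, dotProduct_smul, he, zero_dotProduct]
  simp only [smul_eq_mul]
  have h1 : (A *ᵥ t) ⬝ᵥ gz g = gz g ⬝ᵥ (A *ᵥ t) := dotProduct_comm _ _
  rw [h1]
  have had : a * d = 1 + b * n := by linarith
  linear_combination (-(2 * (gz g ⬝ᵥ (A *ᵥ t))) - 2 * d * e) * had

theorem Fm_shift (h : IsLevelLattice p A B) (n n₁ : ℕ) [NeZero n] (hn1 : n = p * n₁) (a : ℤ)
    (m x u : Fin 4 → ℤ) :
    Fm A n a m (x + (n₁ : ℤ) • (B *ᵥ u)) =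
      Fm A n a m x * cexp (2 * Real.pi * I * ((m ⬝ᵥ (B *ᵥ u) : ℤ) : ℂ) / p) := by
  have hn : (n : ℂ) ≠ 0 := by exact_mod_cast NeZero.ne n
  have hp0 : p ≠ 0 := by
    rintro rfl
    rw [zero_mul] at hn1
    exact NeZero.ne n hn1
  have hn10 : n₁ ≠ 0 := by
    rintro rfl
    rw [mul_zero] at hn1
    exact NeZero.ne n hn1
  have hp' : (p : ℂ) ≠ 0 := by exact_mod_cast hp0
  have hn1' : (n₁ : ℂ) ≠ 0 := by exact_mod_cast hn10
  obtain ⟨e, he⟩ := even_qz B h.symmB h.evenB u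
  have hAs : A *ᵥ (B *ᵥ u) = (p : ℤ) • u := by
    rw [mulVec_mulVec, h.mul, smul_mulVec, one_mulVec]
  have e2 : cexp (2 * Real.pi * I * ((m ⬝ᵥ (B *ᵥ u) : ℤ) : ℂ) / p) =
      cexp (Real.pi * I * ((2 * n₁ * (m ⬝ᵥ (B *ᵥ u)) : ℤ) : ℂ) / n) := by
    congr 1
    have : (n : ℂ) = p * n₁ := by exact_mod_cast congrArg (Nat.cast : ℕ → ℂ) hn1
    rw [this]
    push_cast
    field_simp
  rw [e2]
  unfold Fm
  rw [← Complex.exp_add, ← add_div, ← mul_add, ← Int.cast_add]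
  apply cexp_pi_congr n (a * (x ⬝ᵥ u) + a * n₁ * e)
  rw [qz_add A h.symm, qz_smul, mulVec_smul, dotProduct_smul, hAs, dotProduct_smul,
    qz_A_mulVec h, he, dotProduct_add, dotProduct_smul]
  simp only [smul_eq_mul]
  have : (n : ℤ) = p * n₁ := by exact_mod_cast congrArg (Nat.cast : ℕ → ℤ) hn1
  rw [this]
  ring

/-- **(a)** if `p ∣ n` and the inner sum does not vanish then `m ∈ A ℤ⁴`. -/
theorem exists_of_innerSum_ne_zero (h : IsLevelLattice p A B) (n : ℕ) [NeZero n]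
    (hpn : p ∣ n) (a : ℤ) (m : Fin 4 → ℤ) (hne : innerSum A n a m ≠ 0) :
    ∃ t : Fin 4 → ℤ, m = A *ᵥ t := by
  obtain ⟨n₁, hn1⟩ := hpn
  have hp0 : p ≠ 0 := by
    rintro rfl
    rw [zero_mul] at hn1
    exact NeZero.ne n hn1
  have hp' : (p : ℂ) ≠ 0 := by exact_mod_cast hp0
  have key : ∀ u : Fin 4 → ℤ, (p : ℤ) ∣ m ⬝ᵥ (B *ᵥ u) := by
    intro u
    have h1 := sum_shift n (Fm_periodic h.symm h.even n a m) ((n₁ : ℤ) • (B *ᵥ u))
    simp_rw [Fm_shift h n n₁ hn1] at h1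
    rw [← Finset.sum_mul, ← innerSum_eq] at h1
    have h2 : cexp (2 * Real.pi * I * ((m ⬝ᵥ (B *ᵥ u) : ℤ) : ℂ) / p) = 1 := by
      have := mul_left_cancel₀ hne (h1.trans (mul_one _).symm)
      exact this
    rw [Complex.exp_eq_one_iff] at h2
    obtain ⟨j, hj⟩ := h2
    refine ⟨j, ?_⟩
    have hpi : (2 * Real.pi * I : ℂ) ≠ 0 := Complex.two_pi_I_ne_zero
    have h3 : ((m ⬝ᵥ (B *ᵥ u) : ℤ) : ℂ) = (p : ℂ) * j := by
      field_simp at hj
      linear_combination hj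
    exact_mod_cast h3
  have hBm : ∀ i, (p : ℤ) ∣ (B *ᵥ m) i := by
    intro i
    have := key (Pi.single i 1)
    rwa [dotProduct_mulVec, ← h.symmB.eq, vecMul_transpose, dotProduct_single, mul_one] at this
  choose t ht using hBm
  refine ⟨t, ?_⟩
  have h1 : A *ᵥ (B *ᵥ m) = (p : ℤ) • m := by
    rw [mulVec_mulVec, h.mul, smul_mulVec, one_mulVec]
  have h2 : B *ᵥ m = (p : ℤ) • t := by
    funext i
    rw [ht i]
    rfl
  rw [h2, mulVec_smul] at h1
  have hpz : (p : ℤ) ≠ 0 := by exact_mod_cast hp0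
  funext i
  have := congrFun h1 i
  simp only [Pi.smul_apply, smul_eq_mul] at this
  exact (mul_left_cancel₀ hpz this).symm

theorem mulVec_injective (h : IsLevelLattice p A B) :
    Function.Injective (fun t : Fin 4 → ℤ => A *ᵥ t) := by
  intro t t' htt
  have h0 : A *ᵥ (t - t') = 0 := by
    rw [mulVec_sub]
    exact sub_eq_zero.mpr htt
  by_contra hne
  have hne' : t - t' ≠ 0 := sub_ne_zero.mpr hne
  have := h.pos (t - t') hne'
  rw [h0, dotProduct_zero] at this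
  exact lt_irrefl _ this

/-- **Transformation law on `Γ₀(p)`**: for `(a b; n d) ∈ SL₂(ℤ)` with `p ∣ n`, `n > 0`:
`Θ_A((az+b)/(nz+d)) = ε (nz+d)² Θ_A(z)`, `ε = -G(a,n)/(p n²)`. -/
theorem theta_smul (h : IsLevelLattice p A B) (hInv : InversionStatement)
    (n : ℕ) [NeZero n] (hpn : p ∣ n) (a b d : ℤ) (hdet : a * d - b * n = 1) (z : ℂ)
    (hz : 0 < z.im) :
    thetaFun A (((a : ℂ) * z + b) / ((n : ℂ) * z + d)) =
      eps p A a n * ((n : ℂ) * z + d) ^ 2 * thetaFun A z := by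
  have hp0 : p ≠ 0 := by
    rintro rfl
    obtain ⟨k, hk⟩ := hpn
    rw [zero_mul] at hk
    exact NeZero.ne n hk
  have hp' : (p : ℂ) ≠ 0 := by exact_mod_cast hp0
  have hn : (n : ℂ) ≠ 0 := by exact_mod_cast NeZero.ne n
  obtain ⟨-, h2⟩ := theta_smul_general h hp0 hInv n a b d hdet z hz
  rw [h2]
  have hsupp : Function.support (fun m : Fin 4 → ℤ => dualTerm B p z m * Gm A B p n a d m) ⊆
      Set.range (fun t : Fin 4 → ℤ => A *ᵥ t) := by
    intro m hm
    rw [Function.mem_support] at hm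
    have h3 : innerSum A n a m ≠ 0 := by
      intro h0
      apply hm
      unfold Gm
      rw [h0, zero_mul, mul_zero]
    obtain ⟨t, ht⟩ := exists_of_innerSum_ne_zero h n hpn a m h3
    exact ⟨t, ht.symm⟩
  rw [← (mulVec_injective h).tsum_eq hsupp]
  have e : ∀ t : Fin 4 → ℤ, dualTerm B p z (A *ᵥ t) * Gm A B p n a d (A *ᵥ t) =
      cexp (Real.pi * I * z * (qz A t : ℂ)) * gaussQ A a n := by
    intro t
    rw [Gm_mulVec h hp0 n a b d hdet t]
    congr 1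
    unfold dualTerm
    rw [qz_B_mulVec h]
    congr 1
    push_cast
    field_simp
  simp_rw [e]
  rw [tsum_mul_right]
  unfold eps thetaFun
  rw [Int.toNat_natCast]
  push_cast
  field_simp

end Level

end Fermat.Agent.S16.Theta.Transform
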