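import Mathlib
import Fermat.Agent.S16.Theta.Transform
import Fermat.Agent.S16.Theta.Package

/-!
# S16, (A-theta): boundedness of all `SL₂(ℤ)`-translates of `Θ_A` at `i∞`

`hbdd` is literally the hypothesis `hbdd` of `Package.thetaForm_of`.

Owner: helper88.
-/

set_option autoImplicit false
set_option linter.unusedSectionVars false

open Complex Matrix
open UpperHalfPlane hiding I
open ModularForm MatrixGroups

namespace Fermat.Agent.S16.Theta.Bounded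

open Fermat.Agent.S16.Theta Fermat.Agent.S16.Theta.Transform

variable {p : ℕ} {A B : Matrix (Fin 4) (Fin 4) ℤ}

theorem qzB_nonneg (h : IsLevelLattice p A B) (hp : p ≠ 0) (m : Fin 4 → ℤ) : 0 ≤ qz B m := by
  have h1 := qz_A_mulVec h m
  have h2 := Package.qz_nonneg h (B *ᵥ m)
  rw [h1] at h2
  have hp' : (0 : ℤ) < p := by exact_mod_cast Nat.pos_of_ne_zero hp
  exact nonneg_of_mul_nonneg_right h2 hp'

theorem norm_dualTerm (z : ℂ) (m : Fin 4 → ℤ) :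
    ‖dualTerm B p z m‖ = Real.exp (-(Real.pi * z.im) * (qz B m : ℝ) / p) := by
  unfold dualTerm
  rw [Complex.norm_exp]
  congr 1
  have : (Real.pi * I * z * (qz B m : ℂ) / p : ℂ) =
      ((Real.pi * (qz B m : ℝ) / p : ℝ) : ℂ) * (I * z) := by
    push_cast
    ring
  rw [this, re_ofReal_mul]
  simp only [mul_re, Complex.I_re, Complex.I_im, zero_mul, one_mul, zero_sub]
  ring

theorem norm_cexp_I (r : ℂ) (hr : r.im = 0) : ‖cexp (r * I)‖ = 1 := by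
  rw [Complex.norm_exp]
  simp [hr]

theorem norm_innerSum_le (n : ℕ) (a : ℤ) (m : Fin 4 → ℤ) :
    ‖innerSum A n a m‖ ≤ (n : ℝ) ^ 4 := by
  unfold innerSum
  refine (norm_sum_le _ _).trans ?_
  have h1 : ∀ g : Fin 4 → Fin n,
      ‖cexp (Real.pi * I * a * (qz A (gz g) : ℂ) / n) *
        cexp (2 * Real.pi * I * ((m ⬝ᵥ gz g : ℤ) : ℂ) / n)‖ = 1 := by
    intro g
    rw [norm_mul]
    have e1 : (Real.pi * I * a * (qz A (gz g) : ℂ) / n : ℂ) =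
        ((Real.pi * a * (qz A (gz g) : ℝ) / n : ℝ) : ℂ) * I := by
      push_cast; ring
    have e2 : (2 * Real.pi * I * ((m ⬝ᵥ gz g : ℤ) : ℂ) / n : ℂ) =
        ((2 * Real.pi * ((m ⬝ᵥ gz g : ℤ) : ℝ) / n : ℝ) : ℂ) * I := by
      push_cast; ring
    rw [e1, e2, Complex.norm_exp_ofReal_mul_I, Complex.norm_exp_ofReal_mul_I, one_mul]
  simp_rw [h1]
  simp

theorem norm_Gm_le (n : ℕ) (a d : ℤ) (m : Fin 4 → ℤ) :
    ‖Gm A B p n a d m‖ ≤ (n : ℝ) ^ 4 := by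
  unfold Gm
  rw [norm_mul]
  have e1 : (Real.pi * I * d * (qz B m : ℂ) / ((p : ℂ) * n) : ℂ) =
      ((Real.pi * d * (qz B m : ℝ) / ((p : ℝ) * n) : ℝ) : ℂ) * I := by
    push_cast; ring
  rw [e1, Complex.norm_exp_ofReal_mul_I, mul_one]
  exact norm_innerSum_le n a m

theorem summable_dual_bound (h : IsLevelLattice p A B) (hp : p ≠ 0) (hInv : InversionStatement) :
    Summable (fun m : Fin 4 → ℤ => Real.exp (-Real.pi * (qz B m : ℝ) / p)) := by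
  have h1 := (theta_inversion h hp hInv I (by simp) 0).2.1.norm
  refine h1.congr fun m => ?_
  rw [Complex.norm_exp]
  congr 1
  have e1 : (-(Real.pi * I * ((qz B m : ℂ) / p)) / I : ℂ) =
      ((-Real.pi * (qz B m : ℝ) / p : ℝ) : ℂ) := by
    push_cast
    field_simp
  have e2 : (2 * Real.pi * I * ((∑ i, (m i : ℝ) * (0 : Fin 4 → ℝ) i : ℝ) : ℂ) : ℂ) = 0 := by
    simp
  rw [e1, e2, add_zero, ofReal_re]

theorem coe_smul_SL (γ : SL(2, ℤ)) (z : ℍ) :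
    ((γ • z : ℍ) : ℂ) = (((γ 0 0 : ℤ) : ℂ) * z + ((γ 0 1 : ℤ) : ℂ)) /
      (((γ 1 0 : ℤ) : ℂ) * z + ((γ 1 1 : ℤ) : ℂ)) := by
  rw [coe_specialLinearGroup_apply]
  simp

/-- the case `c > 0`. -/
theorem bdd_pos (hInv : InversionStatement) (h : IsLevelLattice p A B) (hp : p ≠ 0)
    (γ : SL(2, ℤ)) (hc : 0 < γ 1 0) :
    IsBoundedAtImInfty ((fun z : ℍ => thetaFun A (z : ℂ)) ∣[(2 : ℤ)] γ) := by
  rw [isBoundedAtImInfty_iff]
  obtain ⟨n, hn⟩ : ∃ n : ℕ, (n : ℤ) = γ 1 0 := ⟨(γ 1 0).toNat, Int.toNat_of_nonneg hc.le⟩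
  have : NeZero n := ⟨by rintro rfl; simp at hn; omega⟩
  refine ⟨(n : ℝ) ^ 2 / p * ∑' m : Fin 4 → ℤ, Real.exp (-Real.pi * (qz B m : ℝ) / p), 1,
    fun z hz => ?_⟩
  rw [SL_slash_apply]
  have hdet : γ 0 0 * γ 1 1 - γ 0 1 * n = 1 := by
    rw [hn]
    have := γ.det_coe
    rw [Matrix.det_fin_two] at this
    linarith
  obtain ⟨hs, heq⟩ := theta_smul_general h hp hInv n (γ 0 0) (γ 0 1) (γ 1 1) hdet (z : ℂ) z.im_pos
  have hnC : ((γ 1 0 : ℤ) : ℂ) = (n : ℂ) := by rw [← hn]; simp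
  have hD : (n : ℂ) * (z : ℂ) + ((γ 1 1 : ℤ) : ℂ) ≠ 0 := denom_ne_zero n (γ 1 1) z z.im_pos
  have hpC : (p : ℂ) ≠ 0 := by exact_mod_cast hp
  have hnC0 : (n : ℂ) ≠ 0 := by exact_mod_cast NeZero.ne n
  have hval : thetaFun A ((γ • z : ℍ) : ℂ) * denom (γ : GL (Fin 2) ℝ) z ^ (-(2 : ℤ)) =
      -(1 / ((p : ℂ) * (n : ℂ) ^ 2)) *
        ∑' m : Fin 4 → ℤ, dualTerm B p z m * Gm A B p n (γ 0 0) (γ 1 1) m := by
    rw [coe_smul_SL, Package.denom_SL2, hnC, heq, _root_.zpow_neg]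
    have : ((n : ℂ) * (z : ℂ) + ((γ 1 1 : ℤ) : ℂ)) ^ (2 : ℤ) =
        ((n : ℂ) * (z : ℂ) + ((γ 1 1 : ℤ) : ℂ)) ^ 2 := by norm_cast
    rw [this]
    field_simp
  change ‖thetaFun A ((γ • z : ℍ) : ℂ) * denom (γ : GL (Fin 2) ℝ) z ^ (-(2 : ℤ))‖ ≤ _
  rw [hval, norm_mul, norm_neg]
  have hsb := summable_dual_bound h hp hInv
  have hterm : ∀ m : Fin 4 → ℤ, ‖dualTerm B p z m * Gm A B p n (γ 0 0) (γ 1 1) m‖ ≤
      Real.exp (-Real.pi * (qz B m : ℝ) / p) * (n : ℝ) ^ 4 := by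
    intro m
    rw [norm_mul]
    refine mul_le_mul ?_ (norm_Gm_le n _ _ m) (norm_nonneg _) (Real.exp_pos _).le
    rw [norm_dualTerm, Real.exp_le_exp]
    have hq : (0 : ℝ) ≤ (qz B m : ℝ) := by exact_mod_cast qzB_nonneg h hp m
    have hpR : (0 : ℝ) < p := by exact_mod_cast Nat.pos_of_ne_zero hp
    have hz1 : (1 : ℝ) ≤ (z : ℂ).im := hz
    rw [div_le_div_iff_of_pos_right hpR]
    have : Real.pi * (qz B m : ℝ) ≤ Real.pi * (z : ℂ).im * (qz B m : ℝ) := by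
      have := mul_le_mul_of_nonneg_right hz1 (mul_nonneg Real.pi_pos.le hq)
      nlinarith
    linarith
  have hsn : Summable (fun m : Fin 4 → ℤ =>
      ‖dualTerm B p z m * Gm A B p n (γ 0 0) (γ 1 1) m‖) :=
    Summable.of_nonneg_of_le (fun _ => norm_nonneg _) hterm (hsb.mul_right _)
  have hS : ‖∑' m : Fin 4 → ℤ, dualTerm B p z m * Gm A B p n (γ 0 0) (γ 1 1) m‖ ≤
      (∑' m : Fin 4 → ℤ, Real.exp (-Real.pi * (qz B m : ℝ) / p)) * (n : ℝ) ^ 4 := by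
    refine (norm_tsum_le_tsum_norm hsn).trans ?_
    rw [← tsum_mul_right]
    exact Summable.tsum_le_tsum hterm hsn (hsb.mul_right _)
  have hpR : (0 : ℝ) < p := by exact_mod_cast Nat.pos_of_ne_zero hp
  have hnR : (0 : ℝ) < n := by exact_mod_cast Nat.pos_of_ne_zero (NeZero.ne n)
  have hnorm : ‖(1 / ((p : ℂ) * (n : ℂ) ^ 2))‖ = 1 / ((p : ℝ) * (n : ℝ) ^ 2) := by
    rw [norm_div, norm_one, norm_mul, norm_pow, Complex.norm_natCast, Complex.norm_natCast]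
  rw [hnorm]
  calc 1 / ((p : ℝ) * (n : ℝ) ^ 2) *
        ‖∑' m : Fin 4 → ℤ, dualTerm B p z m * Gm A B p n (γ 0 0) (γ 1 1) m‖
      ≤ 1 / ((p : ℝ) * (n : ℝ) ^ 2) *
        ((∑' m : Fin 4 → ℤ, Real.exp (-Real.pi * (qz B m : ℝ) / p)) * (n : ℝ) ^ 4) :=
        mul_le_mul_of_nonneg_left hS (by positivity)
    _ = (n : ℝ) ^ 2 / p * ∑' m : Fin 4 → ℤ, Real.exp (-Real.pi * (qz B m : ℝ) / p) := by
        field_simp

/-- weight-2 slash is insensitive to the sign of `γ`. -/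
theorem slash_neg_SL (f : ℍ → ℂ) (γ : SL(2, ℤ)) : f ∣[(2 : ℤ)] (-γ) = f ∣[(2 : ℤ)] γ := by
  funext z
  rw [SL_slash_apply, SL_slash_apply, ModularGroup.SL_neg_smul, Package.denom_SL2,
    Package.denom_SL2]
  have h1 : (((-γ) 1 0 : ℤ) : ℂ) * (z : ℂ) + (((-γ) 1 1 : ℤ) : ℂ) =
      -((((γ 1 0 : ℤ) : ℂ)) * (z : ℂ) + ((γ 1 1 : ℤ) : ℂ)) := by
    simp [Matrix.SpecialLinearGroup.coe_neg, Matrix.neg_apply]
    ring
  rw [h1, Even.neg_zpow (by decide : Even (-(2 : ℤ)))]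

/-- `Θ_A` has period `1`. -/
theorem thetaFun_add_int (h : IsLevelLattice p A B) (z : ℂ) (k : ℤ) :
    thetaFun A (z + k) = thetaFun A z := by
  unfold thetaFun
  refine tsum_congr fun x => ?_
  obtain ⟨e, he⟩ := even_qz A h.symm h.even x
  have : (Real.pi * I * (z + k) * (qz A x : ℂ) : ℂ) =
      Real.pi * I * z * (qz A x : ℂ) + ((k * e : ℤ) : ℂ) * (2 * Real.pi * I) := by
    rw [he]
    push_cast
    ring
  rw [this, Complex.exp_add, Complex.exp_int_mul_two_pi_mul_I, mul_one]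

/-- `Θ_A` is bounded on `Im z ≥ 1`. -/
theorem norm_thetaFun_le (h : IsLevelLattice p A B) (z : ℂ) (hz : 1 ≤ z.im) :
    ‖thetaFun A z‖ ≤ ∑' x : Fin 4 → ℤ, Real.exp (-Real.pi * (qz A x : ℝ)) := by
  have hz0 : 0 < z.im := lt_of_lt_of_le one_pos hz
  have hs := Package.summable_norm_term h hz0
  have hb := Package.summable_exp_neg_qz h Real.pi_pos
  rw [Package.thetaFun_eq_tsum]
  refine (norm_tsum_le_tsum_norm hs).trans ?_
  refine Summable.tsum_le_tsum (fun x => ?_) hs hb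
  rw [Package.norm_term, Real.exp_le_exp]
  have hq : (0 : ℝ) ≤ (qz A x : ℝ) := by exact_mod_cast Package.qz_nonneg h x
  have := mul_le_mul_of_nonneg_right hz (mul_nonneg Real.pi_pos.le hq)
  nlinarith

/-- the case `c = 0`. -/
theorem bdd_zero (h : IsLevelLattice p A B) (γ : SL(2, ℤ)) (hc : γ 1 0 = 0) :
    IsBoundedAtImInfty ((fun z : ℍ => thetaFun A (z : ℂ)) ∣[(2 : ℤ)] γ) := by
  rw [isBoundedAtImInfty_iff]
  refine ⟨∑' x : Fin 4 → ℤ, Real.exp (-Real.pi * (qz A x : ℝ)), 1, fun z hz => ?_⟩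
  rw [SL_slash_apply]
  have hdet : γ 0 0 * γ 1 1 = 1 := by
    have := γ.det_coe
    rw [Matrix.det_fin_two, hc] at this
    linarith
  have had : γ 0 0 = γ 1 1 := by
    rcases Int.eq_one_or_neg_one_of_mul_eq_one' hdet with ⟨h1, h2⟩ | ⟨h1, h2⟩ <;> rw [h1, h2]
  have hdd : γ 1 1 * γ 1 1 = 1 := by rw [← had] at hdet ⊢; rw [had] at hdet ⊢; exact hdet
  have hddC : ((γ 1 1 : ℤ) : ℂ) * ((γ 1 1 : ℤ) : ℂ) = 1 := by exact_mod_cast hdd
  have hd0 : ((γ 1 1 : ℤ) : ℂ) ≠ 0 := by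
    intro h0; rw [h0] at hddC; simp at hddC
  have hcoe : ((γ • z : ℍ) : ℂ) = (z : ℂ) + ((γ 0 1 * γ 1 1 : ℤ) : ℂ) := by
    rw [coe_smul_SL, hc, had, Int.cast_zero, zero_mul, zero_add, div_eq_iff hd0]
    push_cast
    linear_combination (-(((γ 0 1 : ℤ) : ℂ))) * hddC
  have hden : denom (γ : GL (Fin 2) ℝ) z ^ (-(2 : ℤ)) = 1 := by
    rw [Package.denom_SL2, hc, _root_.zpow_neg]
    have : ((((0 : ℤ) : ℂ)) * (z : ℂ) + ((γ 1 1 : ℤ) : ℂ)) ^ (2 : ℤ) = 1 := by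
      rw [Int.cast_zero, zero_mul, zero_add, zpow_ofNat, pow_two, hddC]
    rw [this, inv_one]
  change ‖thetaFun A ((γ • z : ℍ) : ℂ) * denom (γ : GL (Fin 2) ℝ) z ^ (-(2 : ℤ))‖ ≤ _
  rw [hden, mul_one, hcoe, thetaFun_add_int h]
  exact norm_thetaFun_le h z hz

/-- **Boundedness at all cusps**: literally the hypothesis `hbdd` of `Package.thetaForm_of`. -/
theorem hbdd (hInv : InversionStatement) (h : IsLevelLattice p A B) (hp : p ≠ 0) :
    ∀ γ : SL(2, ℤ), IsBoundedAtImInfty ((fun z : ℍ => thetaFun A (z : ℂ)) ∣[(2 : ℤ)] γ) := by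
  intro γ
  rcases lt_trichotomy (γ 1 0) 0 with hc | hc | hc
  · rw [← slash_neg_SL]
    refine bdd_pos hInv h hp (-γ) ?_
    have : (-γ) 1 0 = -(γ 1 0) := by
      simp [Matrix.SpecialLinearGroup.coe_neg, Matrix.neg_apply]
    rw [this]
    linarith
  · exact bdd_zero h γ hc
  · exact bdd_pos hInv h hp γ hc

end Fermat.Agent.S16.Theta.Bounded
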