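import Fermat.Agent.S16.Theta.Defs
import Fermat.Agent.S16.GaussQuad

/-!
# The quadratic Gauss sum `gaussQ A t d` at an odd prime `d ∤ p t`  (S16, A-theta, block III input)

`gaussQ A t d = ∑_{g mod d} e(t Q(g) / d) = d ^ 2` for a level lattice `A` (`det A = p ^ 2`),
`d` an odd prime with `d ∤ p`, `d ∤ t`.  This is the hypothesis `hG` of `Theta/Multiplier.lean`.
-/

set_option autoImplicit false

open Complex Matrix

namespace Fermat.Agent.S16.Theta.GaussPrime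

open Fermat.Agent.S16.Theta Fermat.Agent.S16.GaussQuad

/-- `Fin d ≃ ZMod d` by casting. -/
noncomputable def finZModEquiv (d : ℕ) [NeZero d] : Fin d ≃ ZMod d where
  toFun x := ((x : ℕ) : ZMod d)
  invFun y := ⟨y.val, ZMod.val_lt y⟩
  left_inv x := by
    apply Fin.ext
    simp only [ZMod.val_natCast]
    exact Nat.mod_eq_of_lt x.isLt
  right_inv y := by simp

/-- **The prime Gauss sum** in the shape of `Theta/Defs.lean`. -/
theorem gaussQ_prime {p : ℕ} {A : Matrix (Fin 4) (Fin 4) ℤ} (hsymm : A.IsSymm)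
    (heven : ∀ i, Even (A i i)) (hdet : A.det = (p : ℤ) ^ 2) (d : ℕ) [Fact d.Prime] (hd2 : d ≠ 2)
    (hdp : ¬ d ∣ p) (t : ℤ) (ht : ¬ (d : ℤ) ∣ t) :
    gaussQ A t d = (d : ℂ) ^ 2 := by
  classical
  have : NeZero d := ⟨(Fact.out : d.Prime).ne_zero⟩
  have hp : (((p : ℤ)) : ZMod d) ≠ 0 := by
    intro h
    apply hdp
    have : ((p : ℕ) : ZMod d) = 0 := by exact_mod_cast h
    exact (ZMod.natCast_eq_zero_iff p d).mp this
  have hb : ((t : ℤ) : ZMod d) ≠ 0 := by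
    intro h
    exact ht ((ZMod.intCast_zmod_eq_zero_iff_dvd t d).mp h)
  -- representatives
  let r : (Fin 4 → ZMod d) → Fin 4 → ℤ := fun g i => ((g i).val : ℤ)
  have hr : ∀ g i, ((r g i : ℤ) : ZMod d) = g i := by
    intro g i
    simp [r]
  have key := sum_exp_quadratic_four hd2 A hsymm heven hdet hp hb r hr
  rw [← key]
  unfold gaussQ
  -- reindex along `Fin d ≃ ZMod d`
  let e : (Fin 4 → Fin d) ≃ (Fin 4 → ZMod d) := Equiv.piCongrRight fun _ => finZModEquiv d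
  rw [← Equiv.sum_comp e]
  refine Finset.sum_congr rfl fun g _ => ?_
  have hrg : r (e g) = fun i => ((g i : ℕ) : ℤ) := by
    funext i
    simp only [r, e, Equiv.piCongrRight_apply, Pi.map_apply, finZModEquiv, Equiv.coe_fn_mk,
      ZMod.val_natCast]
    rw [Nat.mod_eq_of_lt (g i).isLt]
  rw [hrg]
  obtain ⟨m, hm⟩ := even_dotProduct_mulVec A hsymm heven (fun i => ((g i : ℕ) : ℤ))
  have hdiv : ((fun i => ((g i : ℕ) : ℤ)) ⬝ᵥ A *ᵥ (fun i => ((g i : ℕ) : ℤ))) / 2 = m := by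
    rw [hm]; omega
  rw [hdiv]
  have hqz : qz A (fun i => ((g i : ℕ) : ℤ)) = m + m := hm
  rw [hqz]
  congr 1
  push_cast
  ring

/-- the same for a level lattice. -/
theorem gaussQ_prime_of_isLevelLattice {p : ℕ} {A B : Matrix (Fin 4) (Fin 4) ℤ}
    (h : IsLevelLattice p A B) (d : ℕ) [Fact d.Prime] (hd2 : d ≠ 2) (hdp : ¬ d ∣ p) (t : ℤ)
    (ht : ¬ (d : ℤ) ∣ t) : gaussQ A t d = (d : ℂ) ^ 2 :=
  gaussQ_prime h.symm h.even h.det d hd2 hdp t ht

end Fermat.Agent.S16.Theta.GaussPrime
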