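import Mathlib
import Fermat.Agent.S16.Theta.Defs

/-!
# S16, lower bound, route (A-theta), block (I): theta inversion in `r` variables

Induction on `r`: split off the first variable, complete the square (Schur complement), apply
Mathlib's one-variable `jacobiTheta₂_functional_equation`, then the induction hypothesis.
-/

set_option autoImplicit false

open Complex Matrix

namespace Fermat.Agent.S16.Theta.Inversion

open Fermat.Agent.S16.Theta

/-! ### One variable -/

/-- The one-variable inversion formula with real characteristics `s`, `lam`. -/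
theorem one_dim (τ : ℂ) (hτ : 0 < τ.im) (s lam : ℝ) :
    ∑' n : ℤ, cexp (Real.pi * I * τ * (((n : ℝ) + s : ℝ) : ℂ) ^ 2 +
        2 * Real.pi * I * (lam : ℂ) * (((n : ℝ) + s : ℝ) : ℂ)) =
      1 / (-I * τ) ^ (1 / 2 : ℂ) *
        ∑' m : ℤ, cexp (-(Real.pi * I * (((m : ℝ) - lam : ℝ) : ℂ) ^ 2) / τ +
          2 * Real.pi * I * (m : ℂ) * (s : ℂ)) := by
  have hτ0 : τ ≠ 0 := by
    rintro rfl
    simp at hτ
  set z : ℂ := τ * s + lam with hz
  have h1 : ∀ n : ℤ, cexp (Real.pi * I * τ * (((n : ℝ) + s : ℝ) : ℂ) ^ 2 +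
        2 * Real.pi * I * (lam : ℂ) * (((n : ℝ) + s : ℝ) : ℂ)) =
      cexp (Real.pi * I * τ * (s : ℂ) ^ 2 + 2 * Real.pi * I * lam * s) *
        jacobiTheta₂_term n z τ := by
    intro n
    rw [jacobiTheta₂_term, ← Complex.exp_add]
    congr 1
    push_cast
    rw [hz]
    ring
  have h2 : ∀ m : ℤ, cexp (-(Real.pi * I * (((m : ℝ) - lam : ℝ) : ℂ) ^ 2) / τ +
          2 * Real.pi * I * (m : ℂ) * (s : ℂ)) =
      cexp (-(Real.pi * I * (lam : ℂ) ^ 2) / τ) * jacobiTheta₂_term m (z / τ) (-1 / τ) := by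
    intro m
    rw [jacobiTheta₂_term, ← Complex.exp_add]
    congr 1
    push_cast
    rw [hz]
    field_simp
    ring
  simp_rw [h1, h2]
  rw [tsum_mul_left, tsum_mul_left]
  change _ * jacobiTheta₂ z τ = _ * (_ * jacobiTheta₂ (z / τ) (-1 / τ))
  rw [jacobiTheta₂_functional_equation z τ]
  have h3 : cexp (Real.pi * I * τ * (s : ℂ) ^ 2 + 2 * Real.pi * I * lam * s) *
      cexp (-Real.pi * I * z ^ 2 / τ) = cexp (-(Real.pi * I * (lam : ℂ) ^ 2) / τ) := by
    rw [← Complex.exp_add]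
    congr 1
    rw [hz]
    field_simp
    ring
  calc _ = 1 / (-I * τ) ^ (1 / 2 : ℂ) * (cexp (Real.pi * I * τ * (s : ℂ) ^ 2 +
        2 * Real.pi * I * lam * s) * cexp (-Real.pi * I * z ^ 2 / τ)) *
        jacobiTheta₂ (z / τ) (-1 / τ) := by ring
    _ = _ := by rw [h3]; ring

/-! ### One-variable Gaussians: summability and a uniform bound -/

theorem summable_gauss_one (c : ℝ) (hc : 0 < c) (s : ℝ) :
    Summable (fun n : ℤ => Real.exp (-c * ((n : ℝ) + s) ^ 2)) := by
  have hπ : (Real.pi : ℝ) ≠ 0 := Real.pi_ne_zero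
  set τ : ℂ := ((c / Real.pi : ℝ) : ℂ) * I with hτ
  set z : ℂ := ((c * s / Real.pi : ℝ) : ℂ) * I with hz
  have hτim : τ.im = c / Real.pi := by simp [hτ]
  have hzim : z.im = c * s / Real.pi := by simp [hz]
  have hsum : Summable (fun n : ℤ => ‖jacobiTheta₂_term n z τ‖) := by
    apply Summable.norm
    rw [summable_jacobiTheta₂_term_iff, hτim]
    positivity
  have : (fun n : ℤ => Real.exp (-c * ((n : ℝ) + s) ^ 2)) =
      fun n : ℤ => Real.exp (-c * s ^ 2) * ‖jacobiTheta₂_term n z τ‖ := by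
    funext n
    rw [norm_jacobiTheta₂_term, hτim, hzim, ← Real.exp_add]
    congr 1
    field_simp
    ring
  rw [this]
  exact hsum.mul_left _

theorem exists_gauss_bound (c : ℝ) (hc : 0 < c) :
    ∃ K : ℝ, ∀ s : ℝ, ∑' n : ℤ, Real.exp (-c * ((n : ℝ) + s) ^ 2) ≤ K := by
  have h0 : Summable (fun n : ℤ => Real.exp (-(c / 2) * ((n : ℝ) + 0) ^ 2)) :=
    summable_gauss_one (c / 2) (by positivity) 0
  refine ⟨Real.exp c * ∑' n : ℤ, Real.exp (-(c / 2) * ((n : ℝ) + 0) ^ 2), fun s => ?_⟩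
  set k : ℤ := ⌊s⌋ with hk
  set s0 : ℝ := Int.fract s with hs0
  have hs : s = (k : ℝ) + s0 := by
    rw [hk, hs0]
    exact (Int.floor_add_fract s).symm
  have hs0a : 0 ≤ s0 := Int.fract_nonneg s
  have hs0b : s0 < 1 := Int.fract_lt_one s
  have hre : ∑' n : ℤ, Real.exp (-c * ((n : ℝ) + s) ^ 2) =
      ∑' n : ℤ, Real.exp (-c * ((n : ℝ) + s0) ^ 2) := by
    rw [← (Equiv.addRight k).tsum_eq (fun n : ℤ => Real.exp (-c * ((n : ℝ) + s0) ^ 2))]
    congr 1
    funext n
    simp only [Equiv.coe_addRight]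
    rw [hs]
    push_cast
    ring_nf
  rw [hre, ← tsum_mul_left]
  refine (summable_gauss_one c hc s0).tsum_le_tsum (fun n => ?_) (h0.mul_left _)
  rw [← Real.exp_add]
  apply Real.exp_le_exp.mpr
  have h1 : (n : ℝ) ^ 2 ≤ 2 * ((n : ℝ) + s0) ^ 2 + 2 * s0 ^ 2 := by
    nlinarith [sq_nonneg ((n : ℝ) + 2 * s0)]
  have h2 : s0 ^ 2 ≤ 1 := by nlinarith
  nlinarith

/-! ### Block algebra: splitting off the first variable -/

section Block

variable {r : ℕ}

/-- Schur complement of the `(0,0)` entry. -/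
noncomputable def schur (A : Matrix (Fin (r + 1)) (Fin (r + 1)) ℝ) : Matrix (Fin r) (Fin r) ℝ :=
  Matrix.of fun i j => A i.succ j.succ - A 0 i.succ * A 0 j.succ / A 0 0

/-- `b ⬝ Y` for the first row `b` of `A` (without the corner). -/
def bdot (A : Matrix (Fin (r + 1)) (Fin (r + 1)) ℝ) (Y : Fin r → ℝ) : ℝ :=
  ∑ i, A 0 i.succ * Y i

theorem quad_schur (A : Matrix (Fin (r + 1)) (Fin (r + 1)) ℝ) (Y : Fin r → ℝ) :
    quad (schur A) Y =
      (∑ i, Y i * ∑ j, A i.succ j.succ * Y j) - (bdot A Y) ^ 2 / A 0 0 := by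
  unfold quad bdot schur
  simp only [dotProduct, mulVec, Matrix.of_apply]
  rw [sq, Finset.sum_mul_sum, Finset.sum_div, ← Finset.sum_sub_distrib]
  refine Finset.sum_congr rfl fun i _ => ?_
  rw [Finset.mul_sum, Finset.mul_sum, Finset.sum_div, ← Finset.sum_sub_distrib]
  refine Finset.sum_congr rfl fun j _ => ?_
  ring

theorem quad_cons (A : Matrix (Fin (r + 1)) (Fin (r + 1)) ℝ) (hA : ∀ i j, A i j = A j i)
    (ha : A 0 0 ≠ 0) (t : ℝ) (Y : Fin r → ℝ) :
    quad A (Fin.cons t Y) = A 0 0 * (t + bdot A Y / A 0 0) ^ 2 + quad (schur A) Y := by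
  rw [quad_schur]
  unfold quad bdot
  simp only [dotProduct, mulVec, Fin.sum_univ_succ, Fin.cons_zero, Fin.cons_succ]
  have h1 : ∑ i : Fin r, Y i * (A i.succ 0 * t + ∑ j : Fin r, A i.succ j.succ * Y j) =
      t * (∑ i : Fin r, A 0 i.succ * Y i) + ∑ i : Fin r, Y i * ∑ j : Fin r, A i.succ j.succ * Y j := by
    rw [Finset.mul_sum, ← Finset.sum_add_distrib]
    refine Finset.sum_congr rfl fun i _ => ?_
    rw [hA i.succ 0]
    ring
  rw [h1]
  field_simp
  ring

theorem symm_of_posDef {n : Type*} [Fintype n] (A : Matrix n n ℝ) (hA : A.PosDef) :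
    ∀ i j, A i j = A j i := fun i j => by
  have := hA.isHermitian.apply j i
  simpa using this

theorem quad_pos {n : Type*} [Fintype n] (A : Matrix n n ℝ) (hA : A.PosDef) (x : n → ℝ)
    (hx : x ≠ 0) : 0 < quad A x := by
  have := hA.dotProduct_mulVec_pos hx
  simpa [quad] using this

theorem quad_nonneg {n : Type*} [Fintype n] (A : Matrix n n ℝ) (hA : A.PosDef) (x : n → ℝ) :
    0 ≤ quad A x := by
  rcases eq_or_ne x 0 with rfl | hx
  · simp [quad]
  · exact (quad_pos A hA x hx).le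

theorem pivot_pos (A : Matrix (Fin (r + 1)) (Fin (r + 1)) ℝ) (hA : A.PosDef) : 0 < A 0 0 :=
  hA.diag_pos

theorem schur_posDef (A : Matrix (Fin (r + 1)) (Fin (r + 1)) ℝ) (hA : A.PosDef) :
    (schur A).PosDef := by
  have hs := symm_of_posDef A hA
  have ha := pivot_pos A hA
  refine Matrix.PosDef.of_dotProduct_mulVec_pos ?_ ?_
  · refine Matrix.IsHermitian.ext fun i j => ?_
    simp only [schur, Matrix.of_apply, star_trivial]
    rw [hs j.succ i.succ]
    ring
  · intro Y hY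
    have h1 : quad A (Fin.cons (-(bdot A Y / A 0 0)) Y) = quad (schur A) Y := by
      rw [quad_cons A hs ha.ne']
      ring
    have h2 : (Fin.cons (-(bdot A Y / A 0 0)) Y : Fin (r + 1) → ℝ) ≠ 0 := by
      intro h
      apply hY
      funext i
      have := congrFun h i.succ
      simpa using this
    have h3 := quad_pos A hA _ h2
    rw [h1] at h3
    simpa [quad] using h3

theorem det_eq_pivot_mul (A : Matrix (Fin (r + 1)) (Fin (r + 1)) ℝ) (hA : ∀ i j, A i j = A j i)
    (ha : A 0 0 ≠ 0) : A.det = A 0 0 * (schur A).det := by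
  set c : Fin (r + 1) → ℝ := Fin.cons 0 (fun m => -(A 0 m.succ / A 0 0)) with hc
  set A' : Matrix (Fin (r + 1)) (Fin (r + 1)) ℝ := Matrix.of fun i j => A i j + c i * A 0 j
    with hA'
  have hdet : A'.det = A.det :=
    Matrix.det_eq_of_forall_row_eq_smul_add_const c 0 (by simp [hc]) (fun i j => by simp [hA'])
  rw [← hdet, Matrix.det_succ_column_zero, Fin.sum_univ_succ]
  have h0 : A' 0 0 = A 0 0 := by simp [hA', hc]
  have hsub : A'.submatrix (Fin.succAbove 0) Fin.succ = schur A := by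
    ext i j
    simp only [Fin.succAbove_zero, Matrix.submatrix_apply, hA', Matrix.of_apply, hc,
      Fin.cons_succ, schur]
    ring
  have hz : ∀ m : Fin r, A' m.succ 0 = 0 := by
    intro m
    simp only [hA', Matrix.of_apply, hc, Fin.cons_succ]
    rw [hA m.succ 0]
    field_simp
    ring
  rw [h0, hsub]
  simp [hz]

theorem quad_inv_cons (A : Matrix (Fin (r + 1)) (Fin (r + 1)) ℝ) (hA : A.PosDef)
    (μ0 : ℝ) (μ' : Fin r → ℝ) :
    quad A⁻¹ (Fin.cons μ0 μ') =
      μ0 ^ 2 / A 0 0 + quad (schur A)⁻¹ (fun i => μ' i - μ0 / A 0 0 * A 0 i.succ) := by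
  have hs := symm_of_posDef A hA
  have ha := pivot_pos A hA
  have hS := schur_posDef A hA
  have hsS := symm_of_posDef _ hS
  set μ : Fin (r + 1) → ℝ := Fin.cons μ0 μ' with hμ
  set z : Fin (r + 1) → ℝ := A⁻¹ *ᵥ μ with hz
  set ν : Fin r → ℝ := fun i => μ' i - μ0 / A 0 0 * A 0 i.succ with hν
  have hAz : A *ᵥ z = μ := by
    rw [hz, Matrix.mulVec_mulVec, Matrix.mul_nonsing_inv _ hA.det_pos.ne'.isUnit,
      Matrix.one_mulVec]
  -- general fact: quad M⁻¹ (M z) = quad M z for symmetric invertible M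
  have key : ∀ {n : Type} [Fintype n] [DecidableEq n] (M : Matrix n n ℝ)
      (hdet : IsUnit M.det) (y : n → ℝ),
      quad M⁻¹ (M *ᵥ y) = quad M y := by
    intro n _ _ M hdet y
    unfold quad
    rw [Matrix.mulVec_mulVec, Matrix.nonsing_inv_mul _ hdet, Matrix.one_mulVec, dotProduct_comm]
  have hz0 : A 0 0 * z 0 + bdot A (Fin.tail z) = μ0 := by
    have := congrFun hAz 0
    simp only [Matrix.mulVec, dotProduct, Fin.sum_univ_succ, hμ, Fin.cons_zero] at this
    simpa [bdot, Fin.tail] using this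
  have hz' : ∀ i : Fin r, A 0 i.succ * z 0 + ∑ j : Fin r, A i.succ j.succ * z j.succ = μ' i := by
    intro i
    have := congrFun hAz i.succ
    simp only [Matrix.mulVec, dotProduct, Fin.sum_univ_succ, hμ, Fin.cons_succ] at this
    rw [hs i.succ 0] at this
    exact this
  have hSz : schur A *ᵥ (Fin.tail z) = ν := by
    funext i
    simp only [Matrix.mulVec, dotProduct, schur, Matrix.of_apply, Fin.tail, hν]
    have h1 : ∑ j : Fin r, (A i.succ j.succ - A 0 i.succ * A 0 j.succ / A 0 0) * z j.succ =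
        (∑ j : Fin r, A i.succ j.succ * z j.succ) -
          A 0 i.succ / A 0 0 * ∑ j : Fin r, A 0 j.succ * z j.succ := by
      rw [Finset.mul_sum, ← Finset.sum_sub_distrib]
      refine Finset.sum_congr rfl fun j _ => ?_
      ring
    rw [h1]
    have h2 : ∑ j : Fin r, A 0 j.succ * z j.succ = μ0 - A 0 0 * z 0 := by
      have := hz0
      simp only [bdot, Fin.tail] at this
      linarith
    rw [h2, ← hz' i]
    field_simp
    ring
  have e1 : quad A⁻¹ μ = quad A z := by
    rw [← hAz]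
    exact key A hA.det_pos.ne'.isUnit z
  have e2 : quad (schur A)⁻¹ ν = quad (schur A) (Fin.tail z) := by
    rw [← hSz]
    exact key (schur A) hS.det_pos.ne'.isUnit _
  have e3 : quad A z = A 0 0 * (z 0 + bdot A (Fin.tail z) / A 0 0) ^ 2 +
      quad (schur A) (Fin.tail z) := by
    have : z = Fin.cons (z 0) (Fin.tail z) := (Fin.cons_self_tail z).symm
    conv_lhs => rw [this]
    exact quad_cons A hs ha.ne' _ _
  rw [e1, e2, e3, ← hz0]
  field_simp

end Block

/-! ### Norms of the general terms -/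

theorem norm_cexp_quad (w : ℂ) (q L : ℝ) :
    ‖cexp (Real.pi * I * w * (q : ℂ) + 2 * Real.pi * I * (L : ℂ))‖ =
      Real.exp (-(Real.pi * w.im) * q) := by
  rw [Complex.norm_exp]
  congr 1
  simp only [Complex.add_re, Complex.mul_re, Complex.mul_im, Complex.ofReal_re, Complex.ofReal_im,
    Complex.I_re, Complex.I_im, Complex.re_ofNat, Complex.im_ofNat]
  ring

theorem norm_cexp_dual (w : ℂ) (q L : ℝ) :
    ‖cexp (-(Real.pi * I * (q : ℂ)) / w + 2 * Real.pi * I * (L : ℂ))‖ =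
      Real.exp (-(Real.pi * (w.im / Complex.normSq w)) * q) := by
  rw [Complex.norm_exp]
  congr 1
  simp only [Complex.add_re, Complex.div_re, Complex.neg_re, Complex.neg_im, Complex.mul_re,
    Complex.mul_im, Complex.ofReal_re, Complex.ofReal_im, Complex.I_re, Complex.I_im,
    Complex.re_ofNat, Complex.im_ofNat]
  ring

theorem norm_thetaTerm {ι : Type*} [Fintype ι] (A : Matrix ι ι ℝ) (w : ℂ) (u v : ι → ℝ)
    (x : ι → ℤ) :
    ‖thetaTerm A w u v x‖ =
      Real.exp (-(Real.pi * w.im) * quad A (fun i => (x i : ℝ) + u i)) := by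
  rw [thetaTerm, norm_cexp_quad]

theorem norm_thetaDualTerm {ι : Type*} [Fintype ι] [DecidableEq ι] (A : Matrix ι ι ℝ) (w : ℂ)
    (u v : ι → ℝ) (m : ι → ℤ) :
    ‖thetaDualTerm A w u v m‖ =
      Real.exp (-(Real.pi * (w.im / Complex.normSq w)) *
        quad A⁻¹ (fun i => (m i : ℝ) - v i)) := by
  rw [thetaDualTerm, norm_cexp_dual]

/-! ### Gaussian summability in `r` variables -/

section Cons

variable {r : ℕ}

theorem shift_cons (n : ℤ) (y : Fin r → ℤ) (u : Fin (r + 1) → ℝ) :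
    (fun i => (((Fin.cons n y : Fin (r + 1) → ℤ) i : ℤ) : ℝ) + u i) =
      (Fin.cons ((n : ℝ) + u 0) (fun i => (y i : ℝ) + u i.succ) : Fin (r + 1) → ℝ) := by
  funext i
  refine Fin.cases ?_ (fun j => ?_) i
  · simp
  · simp

theorem shift_cons_sub (n : ℤ) (y : Fin r → ℤ) (v : Fin (r + 1) → ℝ) :
    (fun i => (((Fin.cons n y : Fin (r + 1) → ℤ) i : ℤ) : ℝ) - v i) =
      (Fin.cons ((n : ℝ) - v 0) (fun i => (y i : ℝ) - v i.succ) : Fin (r + 1) → ℝ) := by
  funext i
  refine Fin.cases ?_ (fun j => ?_) i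
  · simp
  · simp

/-- the shifted vector `y + u'` -/
def Yv (u : Fin (r + 1) → ℝ) (y : Fin r → ℤ) : Fin r → ℝ := fun i => (y i : ℝ) + u i.succ

/-- the shift `s = u₀ + b·(y+u')/a` -/
noncomputable def sv (A : Matrix (Fin (r + 1)) (Fin (r + 1)) ℝ) (u : Fin (r + 1) → ℝ)
    (y : Fin r → ℤ) : ℝ := u 0 + bdot A (Yv u y) / A 0 0

theorem quad_shift_cons (A : Matrix (Fin (r + 1)) (Fin (r + 1)) ℝ) (hA : A.PosDef)
    (u : Fin (r + 1) → ℝ) (n : ℤ) (y : Fin r → ℤ) :
    quad A (fun i => (((Fin.cons n y : Fin (r + 1) → ℤ) i : ℤ) : ℝ) + u i) =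
      A 0 0 * ((n : ℝ) + sv A u y) ^ 2 + quad (schur A) (Yv u y) := by
  rw [shift_cons, quad_cons A (symm_of_posDef A hA) (pivot_pos A hA).ne']
  unfold sv Yv
  ring

/-- the equivalence `(y, n) ↦ cons n y` -/
def consE (r : ℕ) : (Fin r → ℤ) × ℤ ≃ (Fin (r + 1) → ℤ) :=
  (Equiv.prodComm _ _).trans (Fin.consEquiv fun _ => ℤ)

@[simp] theorem consE_apply (q : (Fin r → ℤ) × ℤ) :
    consE r q = (Fin.cons q.2 q.1 : Fin (r + 1) → ℤ) := rfl

end Cons

theorem summable_gauss : ∀ (r : ℕ) (A : Matrix (Fin r) (Fin r) ℝ), A.PosDef → ∀ c : ℝ, 0 < c →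
    ∀ u : Fin r → ℝ,
      Summable (fun x : Fin r → ℤ => Real.exp (-c * quad A (fun i => (x i : ℝ) + u i))) := by
  intro r
  induction r with
  | zero =>
    intro A _ c _ u
    exact Summable.of_finite
  | succ r ih =>
    intro A hA c hc u
    have ha := pivot_pos A hA
    have hS := schur_posDef A hA
    rw [← (consE r).summable_iff]
    have hnn : (0 : (Fin r → ℤ) × ℤ → ℝ) ≤
        (fun x : Fin (r + 1) → ℤ =>
          Real.exp (-c * quad A (fun i => (x i : ℝ) + u i))) ∘ (consE r) :=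
      fun q => (Real.exp_pos _).le
    rw [summable_prod_of_nonneg hnn]
    have hform : ∀ (y : Fin r → ℤ) (n : ℤ),
        ((fun x : Fin (r + 1) → ℤ =>
          Real.exp (-c * quad A (fun i => (x i : ℝ) + u i))) ∘ (consE r)) (y, n) =
          Real.exp (-c * quad (schur A) (Yv u y)) *
            Real.exp (-(c * A 0 0) * ((n : ℝ) + sv A u y) ^ 2) := by
      intro y n
      simp only [Function.comp_apply, consE_apply]
      rw [quad_shift_cons A hA, ← Real.exp_add]
      congr 1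
      ring
    obtain ⟨K, hK⟩ := exists_gauss_bound (c * A 0 0) (by positivity)
    refine ⟨fun y => ?_, ?_⟩
    · simp_rw [hform]
      exact (summable_gauss_one (c * A 0 0) (by positivity) _).mul_left _
    · simp_rw [hform, tsum_mul_left]
      refine Summable.of_nonneg_of_le (fun y => ?_) (fun y => ?_)
        ((ih (schur A) hS c hc (fun i => u i.succ)).mul_right K)
      · exact mul_nonneg (Real.exp_pos _).le (tsum_nonneg fun n => (Real.exp_pos _).le)
      · exact mul_le_mul_of_nonneg_left (hK _) (Real.exp_pos _).le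

theorem summable_thetaTerm (r : ℕ) (A : Matrix (Fin r) (Fin r) ℝ) (hA : A.PosDef) (w : ℂ)
    (hw : 0 < w.im) (u v : Fin r → ℝ) : Summable (thetaTerm A w u v) := by
  apply Summable.of_norm
  simp_rw [norm_thetaTerm]
  exact summable_gauss r A hA (Real.pi * w.im) (by positivity) u

theorem summable_thetaDualTerm (r : ℕ) (A : Matrix (Fin r) (Fin r) ℝ) (hA : A.PosDef) (w : ℂ)
    (hw : 0 < w.im) (u v : Fin r → ℝ) : Summable (thetaDualTerm A w u v) := by
  have hw0 : w ≠ 0 := by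
    rintro rfl
    simp at hw
  have hN : 0 < Complex.normSq w := Complex.normSq_pos.mpr hw0
  apply Summable.of_norm
  simp_rw [norm_thetaDualTerm]
  have := summable_gauss r A⁻¹ hA.inv (Real.pi * (w.im / Complex.normSq w)) (by positivity)
    (fun i => - v i)
  simpa [sub_eq_add_neg] using this

/-! ### Square roots -/

theorem cpow_half_mul_ofReal (x : ℂ) (hx : x ≠ 0) (a : ℝ) (ha : 0 < a) :
    (x * (a : ℂ)) ^ (1 / 2 : ℂ) = x ^ (1 / 2 : ℂ) * (Real.sqrt a : ℂ) := by
  have ha' : (a : ℂ) ≠ 0 := by exact_mod_cast ha.ne'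
  rw [mul_comm x, Complex.cpow_def_of_ne_zero (mul_ne_zero ha' hx),
    Complex.cpow_def_of_ne_zero hx, Complex.log_ofReal_mul ha hx, add_mul, Complex.exp_add,
    mul_comm (cexp _)]
  congr 1
  rw [Real.sqrt_eq_rpow, Complex.ofReal_cpow ha.le, Complex.cpow_def_of_ne_zero ha',
    Complex.ofReal_log ha.le]
  congr 1
  push_cast
  ring

/-! ### Term identities for the inductive step -/

section Step

variable {r : ℕ}

/-- the new linear characteristic `v'' = v' + (m₀ - v₀)/a · b` -/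
noncomputable def vpp (A : Matrix (Fin (r + 1)) (Fin (r + 1)) ℝ) (v : Fin (r + 1) → ℝ) (m0 : ℤ) :
    Fin r → ℝ := fun i => v i.succ + ((m0 : ℝ) - v 0) / A 0 0 * A 0 i.succ

/-- the factor split off in the first variable -/
noncomputable def K0 (A : Matrix (Fin (r + 1)) (Fin (r + 1)) ℝ) (w : ℂ) (u v : Fin (r + 1) → ℝ)
    (m0 : ℤ) : ℂ :=
  cexp (-(Real.pi * I * (((m0 : ℝ) - v 0 : ℝ) : ℂ) ^ 2) / (w * (A 0 0 : ℂ)) +
    2 * Real.pi * I * (m0 : ℂ) * (u 0 : ℂ))

/-- the `y`-dependent factor after splitting off the first variable -/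
noncomputable def Ey (A : Matrix (Fin (r + 1)) (Fin (r + 1)) ℝ) (w : ℂ) (u v : Fin (r + 1) → ℝ)
    (y : Fin r → ℤ) : ℂ :=
  cexp (Real.pi * I * w * (quad (schur A) (Yv u y) : ℝ) +
    2 * Real.pi * I * (((∑ i, v i.succ * Yv u y i) - v 0 * (bdot A (Yv u y) / A 0 0) : ℝ) : ℂ))

theorem thetaTerm_cons (A : Matrix (Fin (r + 1)) (Fin (r + 1)) ℝ) (hA : A.PosDef) (w : ℂ)
    (u v : Fin (r + 1) → ℝ) (n : ℤ) (y : Fin r → ℤ) :
    thetaTerm A w u v (Fin.cons n y) =
      cexp (Real.pi * I * (w * (A 0 0 : ℂ)) * (((n : ℝ) + sv A u y : ℝ) : ℂ) ^ 2 +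
        2 * Real.pi * I * (v 0 : ℂ) * (((n : ℝ) + sv A u y : ℝ) : ℂ)) * Ey A w u v y := by
  unfold thetaTerm Ey
  rw [quad_shift_cons A hA, ← Complex.exp_add]
  congr 1
  have hlin : (∑ i : Fin (r + 1), v i * ((((Fin.cons n y : Fin (r + 1) → ℤ) i : ℤ) : ℝ) + u i)) =
      v 0 * ((n : ℝ) + u 0) + ∑ i : Fin r, v i.succ * Yv u y i := by
    rw [Fin.sum_univ_succ]
    simp [Yv]
  rw [hlin]
  simp only [sv]
  push_cast
  ring

theorem lin_vpp (A : Matrix (Fin (r + 1)) (Fin (r + 1)) ℝ) (u v : Fin (r + 1) → ℝ) (m0 : ℤ)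
    (y : Fin r → ℤ) :
    ∑ i, vpp A v m0 i * ((y i : ℝ) + u i.succ) =
      (∑ i, v i.succ * Yv u y i) + ((m0 : ℝ) - v 0) / A 0 0 * bdot A (Yv u y) := by
  unfold vpp bdot Yv
  rw [Finset.mul_sum, ← Finset.sum_add_distrib]
  refine Finset.sum_congr rfl fun i _ => ?_
  ring

theorem dual_one_mul_Ey (A : Matrix (Fin (r + 1)) (Fin (r + 1)) ℝ) (w : ℂ)
    (u v : Fin (r + 1) → ℝ) (m0 : ℤ) (y : Fin r → ℤ) :
    cexp (-(Real.pi * I * (((m0 : ℝ) - v 0 : ℝ) : ℂ) ^ 2) / (w * (A 0 0 : ℂ)) +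
        2 * Real.pi * I * (m0 : ℂ) * (sv A u y : ℂ)) * Ey A w u v y =
      K0 A w u v m0 * thetaTerm (schur A) w (fun i => u i.succ) (vpp A v m0) y := by
  unfold K0 Ey thetaTerm
  rw [← Complex.exp_add, ← Complex.exp_add, lin_vpp]
  congr 1
  change _ = _ + (Real.pi * I * w * (quad (schur A) (Yv u y) : ℝ) + _)
  simp only [sv]
  push_cast
  ring

theorem K0_mul_dual (A : Matrix (Fin (r + 1)) (Fin (r + 1)) ℝ) (hA : A.PosDef) (w : ℂ)
    (hw : w ≠ 0) (u v : Fin (r + 1) → ℝ) (m0 : ℤ) (m' : Fin r → ℤ) :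
    K0 A w u v m0 * thetaDualTerm (schur A) w (fun i => u i.succ) (vpp A v m0) m' =
      thetaDualTerm A w u v (Fin.cons m0 m') := by
  have ha := pivot_pos A hA
  have ha' : (A 0 0 : ℂ) ≠ 0 := by exact_mod_cast ha.ne'
  unfold K0 thetaDualTerm
  rw [shift_cons_sub, quad_inv_cons A hA, ← Complex.exp_add]
  have hfun : (fun i => (m' i : ℝ) - vpp A v m0 i) =
      fun i => ((m' i : ℝ) - v i.succ) - ((m0 : ℝ) - v 0) / A 0 0 * A 0 i.succ := by
    funext i
    unfold vpp
    ring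
  have hlin : (∑ i : Fin (r + 1), (((Fin.cons m0 m' : Fin (r + 1) → ℤ) i : ℤ) : ℝ) * u i) =
      (m0 : ℝ) * u 0 + ∑ i : Fin r, (m' i : ℝ) * u i.succ := by
    rw [Fin.sum_univ_succ]
    simp
  rw [hfun, hlin]
  congr 1
  generalize quad (schur A)⁻¹ (fun i => ((m' i : ℝ) - v i.succ) -
    ((m0 : ℝ) - v 0) / A 0 0 * A 0 i.succ) = Q
  push_cast
  field_simp
  ring

theorem norm_K0 (A : Matrix (Fin (r + 1)) (Fin (r + 1)) ℝ) (hA : A.PosDef) (w : ℂ)
    (u v : Fin (r + 1) → ℝ) (m0 : ℤ) :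
    ‖K0 A w u v m0‖ =
      Real.exp (-(Real.pi * (w.im / Complex.normSq w) / A 0 0) * ((m0 : ℝ) + (- v 0)) ^ 2) := by
  have ha := pivot_pos A hA
  unfold K0
  have h1 : (-(Real.pi * I * (((m0 : ℝ) - v 0 : ℝ) : ℂ) ^ 2) / (w * (A 0 0 : ℂ)) +
      2 * Real.pi * I * (m0 : ℂ) * (u 0 : ℂ)) =
      -(Real.pi * I * (((((m0 : ℝ) - v 0) ^ 2 / A 0 0 : ℝ)) : ℂ)) / w +
        2 * Real.pi * I * (((m0 : ℝ) * u 0 : ℝ) : ℂ) := by
    have ha' : (A 0 0 : ℂ) ≠ 0 := by exact_mod_cast ha.ne'
    push_cast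
    by_cases hw : w = 0
    · subst hw
      simp
      ring
    · field_simp
  rw [h1, norm_cexp_dual]
  congr 1
  field_simp
  ring

end Step

/-! ### The induction -/

theorem inversion_aux : ∀ (r : ℕ) (A : Matrix (Fin r) (Fin r) ℝ), A.PosDef → ∀ w : ℂ, 0 < w.im →
    ∀ u v : Fin r → ℝ,
      ∑' x, thetaTerm A w u v x =
        (1 / (-I * w) ^ (1 / 2 : ℂ)) ^ r * (1 / (Real.sqrt A.det : ℂ)) *
          ∑' m, thetaDualTerm A w u v m := by
  intro r
  induction r with
  | zero =>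
    intro A _ w _ u v
    have h1 : ∀ f : (Fin 0 → ℤ) → ℂ, ∑' x, f x = f default := fun f =>
      tsum_eq_single default (fun b hb => absurd (Subsingleton.elim b default) hb)
    rw [h1, h1]
    simp [thetaTerm, thetaDualTerm, quad]
  | succ r ih =>
    intro A hA w hw u v
    have ha := pivot_pos A hA
    have hS := schur_posDef A hA
    have hw0 : w ≠ 0 := by
      rintro rfl
      simp at hw
    have hτ : 0 < (w * (A 0 0 : ℂ)).im := by
      rw [Complex.mul_im]
      simp only [Complex.ofReal_re, Complex.ofReal_im, mul_zero]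
      positivity
    set u' : Fin r → ℝ := fun i => u i.succ with hu'
    set c1 : ℂ := 1 / (-I * (w * (A 0 0 : ℂ))) ^ (1 / 2 : ℂ) with hc1
    set c2 : ℂ := (1 / (-I * w) ^ (1 / 2 : ℂ)) ^ r * (1 / (Real.sqrt (schur A).det : ℂ))
      with hc2
    -- the doubly indexed family after the first Poisson step
    set g : ℤ → (Fin r → ℤ) → ℂ := fun m0 y =>
      K0 A w u v m0 * thetaTerm (schur A) w u' (vpp A v m0) y with hg
    -- Step 1: sum over the first variable first
    have hsumA := summable_thetaTerm (r + 1) A hA w hw u v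
    have S1 : ∑' x, thetaTerm A w u v x =
        ∑' y : Fin r → ℤ, ∑' n : ℤ, thetaTerm A w u v (Fin.cons n y) := by
      rw [← (consE r).tsum_eq]
      have h := (consE r).summable_iff.mpr hsumA
      exact h.tsum_prod' (fun y => h.prod_factor y)
    -- Step 2: the one-variable inversion
    have S2 : ∀ y : Fin r → ℤ, ∑' n : ℤ, thetaTerm A w u v (Fin.cons n y) =
        c1 * ∑' m0 : ℤ, g m0 y := by
      intro y
      simp_rw [thetaTerm_cons A hA]
      rw [tsum_mul_right, one_dim (w * (A 0 0 : ℂ)) hτ (sv A u y) (v 0), mul_assoc,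
        ← tsum_mul_right]
      congr 1
      refine tsum_congr fun m0 => ?_
      exact dual_one_mul_Ey A w u v m0 y
    -- Step 3: summability of `g` and exchange of the two sums
    have hN : 0 < Complex.normSq w := Complex.normSq_pos.mpr hw0
    have hgsum : Summable (Function.uncurry g) := by
      apply Summable.of_norm
      have hF : Summable (fun m0 : ℤ => Real.exp
          (-(Real.pi * (w.im / Complex.normSq w) / A 0 0) * ((m0 : ℝ) + (- v 0)) ^ 2)) :=
        summable_gauss_one _ (by positivity) _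
      have hG : Summable (fun y : Fin r → ℤ => Real.exp
          (-(Real.pi * w.im) * quad (schur A) (fun i => (y i : ℝ) + u' i))) :=
        summable_gauss r (schur A) hS (Real.pi * w.im) (by positivity) u'
      have := hF.mul_of_nonneg hG (fun _ => (Real.exp_pos _).le) (fun _ => (Real.exp_pos _).le)
      refine this.congr fun q => ?_
      simp only [Function.uncurry, hg, norm_mul, norm_K0 A hA, norm_thetaTerm]
    have S3 : ∑' y : Fin r → ℤ, ∑' m0 : ℤ, g m0 y = ∑' m0 : ℤ, ∑' y : Fin r → ℤ, g m0 y :=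
      Summable.tsum_comm' hgsum (fun m0 => hgsum.prod_factor m0)
        (fun y => hgsum.prod_symm.prod_factor y)
    -- Step 4: the induction hypothesis
    have S4 : ∀ m0 : ℤ, ∑' y : Fin r → ℤ, g m0 y =
        c2 * ∑' m' : Fin r → ℤ, thetaDualTerm A w u v (Fin.cons m0 m') := by
      intro m0
      simp only [hg]
      rw [tsum_mul_left, ih (schur A) hS w hw u' (vpp A v m0), ← hc2, mul_left_comm,
        ← tsum_mul_left]
      congr 1
      refine tsum_congr fun m' => ?_
      exact K0_mul_dual A hA w hw0 u v m0 m'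
    -- Step 5: reassemble the dual sum
    have hsumD := summable_thetaDualTerm (r + 1) A hA w hw u v
    have S5 : ∑' m0 : ℤ, ∑' m' : Fin r → ℤ, thetaDualTerm A w u v (Fin.cons m0 m') =
        ∑' m, thetaDualTerm A w u v m := by
      rw [← (Fin.consEquiv fun _ => ℤ).tsum_eq (thetaDualTerm A w u v)]
      have h := (Fin.consEquiv fun _ => ℤ).summable_iff.mpr hsumD
      exact (h.tsum_prod' (fun m0 => h.prod_factor m0)).symm
    -- constants
    have hx : -I * w ≠ 0 := mul_ne_zero (neg_ne_zero.mpr I_ne_zero) hw0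
    have hc1' : c1 = 1 / (-I * w) ^ (1 / 2 : ℂ) * (1 / (Real.sqrt (A 0 0) : ℂ)) := by
      rw [hc1, ← mul_assoc, cpow_half_mul_ofReal _ hx _ ha]
      simp only [one_div, mul_inv]
    have hdet : (Real.sqrt A.det : ℂ) = (Real.sqrt (A 0 0) : ℂ) * (Real.sqrt (schur A).det : ℂ) := by
      rw [det_eq_pivot_mul A (symm_of_posDef A hA) ha.ne', Real.sqrt_mul ha.le]
      push_cast
      rfl
    calc ∑' x, thetaTerm A w u v x
        = ∑' y : Fin r → ℤ, c1 * ∑' m0 : ℤ, g m0 y := by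
          rw [S1]
          exact tsum_congr S2
      _ = c1 * ∑' m0 : ℤ, ∑' y : Fin r → ℤ, g m0 y := by rw [tsum_mul_left, S3]
      _ = c1 * (c2 * ∑' m, thetaDualTerm A w u v m) := by
          rw [tsum_congr S4, tsum_mul_left, S5]
      _ = _ := by
          rw [hc1', hc2, hdet, pow_succ]
          have h1 : (Real.sqrt (A 0 0) : ℂ) ≠ 0 := by
            have := Real.sqrt_pos.mpr ha
            exact_mod_cast this.ne'
          have h2 : (Real.sqrt (schur A).det : ℂ) ≠ 0 := by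
            have := Real.sqrt_pos.mpr hS.det_pos
            exact_mod_cast this.ne'
          field_simp

/-- **Block (I)**: theta inversion in `r` variables with real characteristics. -/
theorem inversion : Fermat.Agent.S16.Theta.InversionStatement := by
  intro r A hA w hw u v
  exact ⟨summable_thetaTerm r A hA w hw u v, summable_thetaDualTerm r A hA w hw u v,
    inversion_aux r A hA w hw u v⟩

end Fermat.Agent.S16.Theta.Inversion
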