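import Fermat.Agent.S16.Theta.Inversion
import Fermat.Agent.S16.ThetaDefs

/-!
# S16, route (A-theta): adapters from `Theta/Inversion.lean` to the interface Props of `ThetaDefs.lean`

* `summability : SummabilityStatement`
* `inversion4 : Inversion4Statement`

Both are direct consequences of `Inversion.inversion` (`r = 4`, `v = 0`) and `Inversion.summable_gauss`.
-/

set_option autoImplicit false

open Complex Matrix

namespace Fermat.Agent.S16.Theta.Inversion4

open Fermat.Agent.S16.Theta Fermat.Agent.S16.Theta.Inversion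

/-- `shiftTerm` is the `v = 0` case of `thetaTerm`. -/
theorem shiftTerm_eq {n : ℕ} (M : Matrix (Fin n) (Fin n) ℝ) (u : Fin n → ℝ) (z : ℂ)
    (x : Fin n → ℤ) : shiftTerm M u z x = thetaTerm M z u 0 x := by
  simp [shiftTerm, thetaTerm, qf, quad]

/-- the norm of `twistTerm`. -/
theorem norm_twistTerm {n : ℕ} (M : Matrix (Fin n) (Fin n) ℝ) (u : Fin n → ℝ) (z : ℂ)
    (k : Fin n → ℤ) :
    ‖twistTerm M u z k‖ =
      Real.exp (-(Real.pi * z.im) * quad M (fun i => (k i : ℝ) + (0 : Fin n → ℝ) i)) := by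
  rw [twistTerm, norm_cexp_quad]
  simp [qf, quad]

/-- **(SUM)** absolute summability of both series. -/
theorem summability : SummabilityStatement := by
  intro n M hM u z hz
  refine ⟨?_, ?_⟩
  · simp_rw [shiftTerm_eq, norm_thetaTerm]
    exact summable_gauss n M hM (Real.pi * z.im) (by positivity) u
  · simp_rw [norm_twistTerm]
    exact summable_gauss n M hM (Real.pi * z.im) (by positivity) 0

/-- `((-I z)^{1/2})^4 = -z²`. -/
theorem cpow_half_pow_four (z : ℂ) : ((-I * z) ^ (1 / 2 : ℂ)) ^ 4 = -z ^ 2 := by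
  have h2 : ((-I * z) ^ (1 / 2 : ℂ)) ^ 2 = -I * z := by
    have := Complex.cpow_nat_inv_pow (-I * z) (n := 2) (by norm_num)
    simp only [Nat.cast_ofNat] at this
    rwa [one_div]
  have : ((-I * z) ^ (1 / 2 : ℂ)) ^ 4 = (((-I * z) ^ (1 / 2 : ℂ)) ^ 2) ^ 2 := by ring
  rw [this, h2]
  have hI : I ^ 2 = -1 := Complex.I_sq
  calc (-I * z) ^ 2 = I ^ 2 * z ^ 2 := by ring
    _ = -z ^ 2 := by rw [hI]; ring

/-- the dual term for `v = 0` is the twist term of the inverse matrix at `-1/z`. -/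
theorem thetaDualTerm_eq (M N : Matrix (Fin 4) (Fin 4) ℝ) (hMN : M * N = 1) (u : Fin 4 → ℝ)
    (z : ℂ) (m : Fin 4 → ℤ) : thetaDualTerm M z u 0 m = twistTerm N u (-1 / z) m := by
  have hN : M⁻¹ = N := Matrix.inv_eq_right_inv hMN
  rw [thetaDualTerm, twistTerm, hN]
  congr 1
  simp only [Pi.zero_apply, sub_zero, qf, quad]
  ring

/-- **(INV4)** theta inversion in four variables. -/
theorem inversion4 : Inversion4Statement := by
  intro M N D hM hMN hD hDdet u z hz
  obtain ⟨-, -, h3⟩ := inversion 4 M hM z hz u 0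
  have hz0 : z ≠ 0 := by
    rintro rfl
    simp at hz
  have hsqrt : Real.sqrt M.det = D := by
    rw [← hDdet]
    exact Real.sqrt_sq hD.le
  have hD0 : (D : ℂ) ≠ 0 := by exact_mod_cast hD.ne'
  unfold thetaShift thetaTwist
  simp_rw [shiftTerm_eq]
  rw [h3, hsqrt]
  simp_rw [thetaDualTerm_eq M N hMN]
  rw [_root_.one_div_pow, cpow_half_pow_four]
  have hz2 : z ^ 2 ≠ 0 := pow_ne_zero 2 hz0
  congr 1
  field_simp

end Fermat.Agent.S16.Theta.Inversion4
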