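import Mathlib
import Fermat.Agent.S16.Theta.Defs

/-!
# S16, lower bound, route (A-theta), block (III): the multiplier is trivial on `Γ₀(p)`

(lemma row 134; owner of this file: helper27; owner of the block: helper88.)

Main result: `eps_eq_one`.  Hypotheses (as closed `Prop`s, to be supplied by
`Theta/Transform.lean` (helper88) and `S16/GaussQuad.lean` (helper57)):

* `TStatement p A` : for `a d - b c = 1`, `p ∣ c`, `c > 0`, `Im z > 0`:
  `Θ_A((a z + b)/(c z + d)) = eps p A a c * (c z + d)² * Θ_A(z)`;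
* `WStatement p A B` : `Θ_A(-1/(p z)) = -p z² Θ_B(z)` (needed for `(A,B)` and for `(B,A)`);
* `PrimeGaussStatement p A` : `gaussQ A t q = q²` for primes `q ∤ 2p`, `q ∤ t`;
* `∃ z, 0 < Im z ∧ Θ_A(z) ≠ 0`.

Proof: (W) twice + period 1 of `Θ_B` give the transformation of `Θ_A` under `(1 0; p j 1)` with
trivial multiplier; comparing with (T) this gives `G(1,p) = -p³` and
`ε(a, c) = ε(a, c + p j a)`.  By Dirichlet, choose `j` with `c + p j a = p q`, `q > 2p` prime,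
`q ≡ a mod p`.  Then by CRT `G(a, p q) = G(a q, p) G(a p, q) = G(a², p) q² = G(1,p) q² = -p³q²`.
-/

set_option autoImplicit false

open Complex Matrix

namespace Fermat.Agent.S16.Theta.Multiplier

open Fermat.Agent.S16.Theta

/-- The bilinear form `xᵀ A y`. -/
def bil (A : Matrix (Fin 4) (Fin 4) ℤ) (x y : Fin 4 → ℤ) : ℤ := x ⬝ᵥ A *ᵥ y

lemma bil_comm {A : Matrix (Fin 4) (Fin 4) ℤ} (hA : A.IsSymm) (x y : Fin 4 → ℤ) :
    bil A x y = bil A y x := by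
  unfold bil
  rw [Matrix.dotProduct_mulVec, dotProduct_comm, ← Matrix.mulVec_transpose, hA.eq]

lemma qz_add {A : Matrix (Fin 4) (Fin 4) ℤ} (hA : A.IsSymm) (x y : Fin 4 → ℤ) :
    qz A (x + y) = qz A x + 2 * bil A x y + qz A y := by
  have h := bil_comm hA y x
  unfold qz bil at *
  rw [Matrix.mulVec_add, add_dotProduct, dotProduct_add, dotProduct_add, h]
  ring

lemma qz_smul (A : Matrix (Fin 4) (Fin 4) ℤ) (c : ℤ) (x : Fin 4 → ℤ) :
    qz A (c • x) = c ^ 2 * qz A x := by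
  unfold qz
  rw [Matrix.mulVec_smul, smul_dotProduct, dotProduct_smul]
  simp only [smul_eq_mul]
  ring

lemma bil_smul_right (A : Matrix (Fin 4) (Fin 4) ℤ) (c : ℤ) (x y : Fin 4 → ℤ) :
    bil A x (c • y) = c * bil A x y := by
  unfold bil
  rw [Matrix.mulVec_smul, dotProduct_smul]
  simp only [smul_eq_mul]

lemma bil_smul_left (A : Matrix (Fin 4) (Fin 4) ℤ) (c : ℤ) (x y : Fin 4 → ℤ) :
    bil A (c • x) y = c * bil A x y := by
  unfold bil
  rw [smul_dotProduct]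
  simp only [smul_eq_mul]

/-- `xᵀ A x` is even for symmetric `A` with even diagonal. -/
lemma even_qz {A : Matrix (Fin 4) (Fin 4) ℤ} (hA : A.IsSymm) (hev : ∀ i, Even (A i i))
    (x : Fin 4 → ℤ) : Even (qz A x) := by
  obtain ⟨k0, h0⟩ := hev 0
  obtain ⟨k1, h1⟩ := hev 1
  obtain ⟨k2, h2⟩ := hev 2
  obtain ⟨k3, h3⟩ := hev 3
  have s10 : A 1 0 = A 0 1 := hA.apply 0 1
  have s20 : A 2 0 = A 0 2 := hA.apply 0 2
  have s30 : A 3 0 = A 0 3 := hA.apply 0 3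
  have s21 : A 2 1 = A 1 2 := hA.apply 1 2
  have s31 : A 3 1 = A 1 3 := hA.apply 1 3
  have s32 : A 3 2 = A 2 3 := hA.apply 2 3
  refine ⟨k0 * x 0 ^ 2 + k1 * x 1 ^ 2 + k2 * x 2 ^ 2 + k3 * x 3 ^ 2 + A 0 1 * x 0 * x 1 +
    A 0 2 * x 0 * x 2 + A 0 3 * x 0 * x 3 + A 1 2 * x 1 * x 2 + A 1 3 * x 1 * x 3 +
    A 2 3 * x 2 * x 3, ?_⟩
  simp only [qz, dotProduct, mulVec, Fin.sum_univ_four, h0, h1, h2, h3, s10, s20, s30, s21, s31, s32]
  ring

/-- The general term of the Gauss sum, as a function on `ℤ⁴`. -/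
noncomputable def gterm (A : Matrix (Fin 4) (Fin 4) ℤ) (t : ℤ) (c : ℕ) (x : Fin 4 → ℤ) : ℂ :=
  cexp (Real.pi * I * (t : ℂ) * (qz A x : ℂ) / (c : ℂ))

lemma gaussQ_eq_sum_gterm (A : Matrix (Fin 4) (Fin 4) ℤ) (t : ℤ) (c : ℕ) :
    gaussQ A t c = ∑ g : Fin 4 → Fin c, gterm A t c (fun i => ((g i : ℕ) : ℤ)) := rfl

lemma gterm_periodic {A : Matrix (Fin 4) (Fin 4) ℤ} (hA : A.IsSymm) (hev : ∀ i, Even (A i i))
    (t : ℤ) {c : ℕ} (hc : c ≠ 0) (x y : Fin 4 → ℤ) (hxy : ∀ i, (c : ℤ) ∣ x i - y i) :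
    gterm A t c x = gterm A t c y := by
  choose w hw using hxy
  have hx : x = y + (c : ℤ) • w := by
    funext i
    simp only [Pi.add_apply, Pi.smul_apply, smul_eq_mul]
    linarith [hw i]
  obtain ⟨κ, hκ⟩ := even_qz hA hev w
  have hq : qz A x = qz A y + (c : ℤ) * (2 * (bil A y w + c * κ)) := by
    rw [hx, qz_add hA, qz_smul, bil_smul_right, hκ]
    ring
  have hcC : (c : ℂ) ≠ 0 := Nat.cast_ne_zero.mpr hc
  unfold gterm
  rw [hq]
  have : Real.pi * I * (t : ℂ) * ((qz A y + (c : ℤ) * (2 * (bil A y w + c * κ)) : ℤ) : ℂ) / (c : ℂ)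
      = Real.pi * I * (t : ℂ) * (qz A y : ℂ) / (c : ℂ)
        + ((t * (bil A y w + c * κ) : ℤ) : ℂ) * (2 * Real.pi * I) := by
    push_cast
    field_simp
  rw [this, Complex.exp_add, Complex.exp_int_mul_two_pi_mul_I, mul_one]

/-- Reindexing principle: a `c`-periodic function summed over any system of representatives of
`(ℤ/c)⁴` gives the sum over the standard representatives. -/
lemma sum_reindex {c : ℕ} [NeZero c] {ι : Type*} [Fintype ι] (f : (Fin 4 → ℤ) → ℂ)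
    (hf : ∀ x y : Fin 4 → ℤ, (∀ i, (c : ℤ) ∣ x i - y i) → f x = f y)
    (σ : ι → (Fin 4 → ℤ))
    (hσ : Function.Bijective (fun k : ι => (fun i => ((σ k i : ℤ) : ZMod c)))) :
    ∑ k, f (σ k) = ∑ g : Fin 4 → Fin c, f (fun i => ((g i : ℕ) : ℤ)) := by
  have h1 : ∑ g : Fin 4 → Fin c, f (fun i => ((g i : ℕ) : ℤ))
      = ∑ g : Fin 4 → ZMod c, f (fun i => (((g i).val : ℕ) : ℤ)) := by
    obtain ⟨n, rfl⟩ : ∃ n, c = n + 1 := Nat.exists_eq_succ_of_ne_zero (NeZero.ne c)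
    rfl
  rw [h1]
  have h2 : ∀ k, f (σ k) = f (fun i => ((((σ k i : ℤ) : ZMod c).val : ℕ) : ℤ)) := by
    intro k
    apply hf
    intro i
    have : (((((σ k i : ℤ) : ZMod c).val : ℕ) : ℤ) : ZMod c) = ((σ k i : ℤ) : ZMod c) := by
      rw [Int.cast_natCast, ZMod.natCast_zmod_val]
    rw [ZMod.intCast_eq_intCast_iff_dvd_sub] at this
    exact this
  simp_rw [h2]
  exact Function.Bijective.sum_comp hσ (fun g : Fin 4 → ZMod c => f (fun i => (((g i).val : ℕ) : ℤ)))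

lemma fin_eq_of_dvd_sub {m : ℕ} (a b : Fin m) (h : (m : ℤ) ∣ ((b : ℕ) : ℤ) - ((a : ℕ) : ℤ)) :
    a = b := by
  have h1 : ((a : ℕ) : ℤ) ≡ ((b : ℕ) : ℤ) [ZMOD (m : ℤ)] := Int.modEq_iff_dvd.mpr h
  have h2 : (a : ℕ) ≡ (b : ℕ) [MOD m] := Int.natCast_modEq_iff.mp h1
  exact Fin.ext (Nat.ModEq.eq_of_lt_of_lt h2 a.2 b.2)

/-- `G(t, c)` only depends on `t` modulo `c`. -/
lemma gterm_congr_mod {A : Matrix (Fin 4) (Fin 4) ℤ} (hA : A.IsSymm) (hev : ∀ i, Even (A i i))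
    {t t' : ℤ} {c : ℕ} (hc : c ≠ 0) (h : (c : ℤ) ∣ t - t') (x : Fin 4 → ℤ) :
    gterm A t c x = gterm A t' c x := by
  obtain ⟨k, hk⟩ := h
  obtain ⟨κ, hκ⟩ := even_qz hA hev x
  have hcC : (c : ℂ) ≠ 0 := Nat.cast_ne_zero.mpr hc
  have ht : t = t' + c * k := by linarith
  unfold gterm
  have : Real.pi * I * (t : ℂ) * (qz A x : ℂ) / (c : ℂ)
      = Real.pi * I * (t' : ℂ) * (qz A x : ℂ) / (c : ℂ) + ((k * κ : ℤ) : ℂ) * (2 * Real.pi * I) := by
    rw [ht, hκ]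
    push_cast
    field_simp
    ring
  rw [this, Complex.exp_add, Complex.exp_int_mul_two_pi_mul_I, mul_one]

lemma gaussQ_congr_mod {A : Matrix (Fin 4) (Fin 4) ℤ} (hA : A.IsSymm) (hev : ∀ i, Even (A i i))
    {t t' : ℤ} {c : ℕ} (hc : c ≠ 0) (h : (c : ℤ) ∣ t - t') :
    gaussQ A t c = gaussQ A t' c := by
  rw [gaussQ_eq_sum_gterm, gaussQ_eq_sum_gterm]
  exact Finset.sum_congr rfl fun g _ => gterm_congr_mod hA hev hc h _

lemma gterm_mul_sq (A : Matrix (Fin 4) (Fin 4) ℤ) (t s : ℤ) (c : ℕ) (x : Fin 4 → ℤ) :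
    gterm A (t * s ^ 2) c x = gterm A t c (s • x) := by
  unfold gterm
  rw [qz_smul]
  push_cast
  ring_nf

/-- Substitution `g ↦ s g`: `G(t s², c) = G(t, c)` for `s` prime to `c`. -/
lemma gaussQ_mul_sq {A : Matrix (Fin 4) (Fin 4) ℤ} (hA : A.IsSymm) (hev : ∀ i, Even (A i i))
    (t s : ℤ) {c : ℕ} (hc : c ≠ 0) (hs : IsCoprime s (c : ℤ)) :
    gaussQ A (t * s ^ 2) c = gaussQ A t c := by
  have : NeZero c := ⟨hc⟩
  rw [gaussQ_eq_sum_gterm, gaussQ_eq_sum_gterm]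
  simp_rw [gterm_mul_sq]
  refine sum_reindex (c := c) (gterm A t c) (fun x y hxy => gterm_periodic hA hev t hc x y hxy)
    (fun g : Fin 4 → Fin c => s • (fun i => ((g i : ℕ) : ℤ))) ?_
  rw [Fintype.bijective_iff_injective_and_card]
  constructor
  · intro g g' hgg'
    funext i
    have h1 := congrFun hgg' i
    simp only [Pi.smul_apply, smul_eq_mul] at h1
    rw [ZMod.intCast_eq_intCast_iff_dvd_sub] at h1
    have h2 : (c : ℤ) ∣ s * ((((g' i : ℕ) : ℤ)) - ((g i : ℕ) : ℤ)) := by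
      rw [mul_sub]; exact h1
    have h3 : (c : ℤ) ∣ (((g' i : ℕ) : ℤ)) - ((g i : ℕ) : ℤ) :=
      (hs.symm).dvd_of_dvd_mul_left h2
    exact fin_eq_of_dvd_sub _ _ h3
  · simp [ZMod.card]

/-- The Chinese remainder theorem for the Gauss sums:
`G(a, m n) = G(a n, m) G(a m, n)` for coprime `m, n`. -/
lemma gaussQ_mul {A : Matrix (Fin 4) (Fin 4) ℤ} (hA : A.IsSymm) (hev : ∀ i, Even (A i i))
    (a : ℤ) {m n : ℕ} (hm : m ≠ 0) (hn : n ≠ 0) (hmn : IsCoprime (m : ℤ) (n : ℤ)) :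
    gaussQ A a (m * n) = gaussQ A (a * n) m * gaussQ A (a * m) n := by
  have : NeZero m := ⟨hm⟩
  have : NeZero n := ⟨hn⟩
  have : NeZero (m * n) := ⟨Nat.mul_ne_zero hm hn⟩
  have hmC : (m : ℂ) ≠ 0 := Nat.cast_ne_zero.mpr hm
  have hnC : (n : ℂ) ≠ 0 := Nat.cast_ne_zero.mpr hn
  have key : ∀ x₁ x₂ : Fin 4 → ℤ,
      gterm A a (m * n) ((n : ℤ) • x₁ + (m : ℤ) • x₂) =
        gterm A (a * n) m x₁ * gterm A (a * m) n x₂ := by
    intro x₁ x₂
    unfold gterm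
    rw [qz_add hA, qz_smul, qz_smul, bil_smul_left, bil_smul_right, ← Complex.exp_add]
    have : Real.pi * I * (a : ℂ) *
          ((((n : ℤ) ^ 2 * qz A x₁ + 2 * ((n : ℤ) * ((m : ℤ) * bil A x₁ x₂)) +
            (m : ℤ) ^ 2 * qz A x₂ : ℤ)) : ℂ) / ((m * n : ℕ) : ℂ)
        = (Real.pi * I * ((a * n : ℤ) : ℂ) * (qz A x₁ : ℂ) / (m : ℂ) +
            Real.pi * I * ((a * m : ℤ) : ℂ) * (qz A x₂ : ℂ) / (n : ℂ)) +
          ((a * bil A x₁ x₂ : ℤ) : ℂ) * (2 * Real.pi * I) := by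
      push_cast
      field_simp
      ring
    rw [this, Complex.exp_add, Complex.exp_int_mul_two_pi_mul_I, mul_one]
  have hbij : Function.Bijective
      (fun k : (Fin 4 → Fin m) × (Fin 4 → Fin n) =>
        (fun i => ((((n : ℤ) • (fun i => ((k.1 i : ℕ) : ℤ)) +
          (m : ℤ) • (fun i => ((k.2 i : ℕ) : ℤ))) i : ℤ) : ZMod (m * n)))) := by
    rw [Fintype.bijective_iff_injective_and_card]
    constructor
    · rintro ⟨g₁, g₂⟩ ⟨g₁', g₂'⟩ hgg'
      have hi : ∀ i, g₁ i = g₁' i ∧ g₂ i = g₂' i := by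
        intro i
        have h1 := congrFun hgg' i
        simp only [Pi.add_apply, Pi.smul_apply, smul_eq_mul] at h1
        rw [ZMod.intCast_eq_intCast_iff_dvd_sub] at h1
        push_cast at h1
        constructor
        · apply fin_eq_of_dvd_sub
          have h2 : (m : ℤ) ∣ (n : ℤ) * ((((g₁' i : ℕ) : ℤ)) - ((g₁ i : ℕ) : ℤ)) := by
            obtain ⟨k, hk⟩ := h1
            exact ⟨(n : ℤ) * k - ((((g₂' i : ℕ) : ℤ)) - ((g₂ i : ℕ) : ℤ)), by linear_combination hk⟩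
          exact hmn.dvd_of_dvd_mul_left h2
        · apply fin_eq_of_dvd_sub
          have h2 : (n : ℤ) ∣ (m : ℤ) * ((((g₂' i : ℕ) : ℤ)) - ((g₂ i : ℕ) : ℤ)) := by
            obtain ⟨k, hk⟩ := h1
            exact ⟨(m : ℤ) * k - ((((g₁' i : ℕ) : ℤ)) - ((g₁ i : ℕ) : ℤ)), by linear_combination hk⟩
          exact hmn.symm.dvd_of_dvd_mul_left h2
      ext i
      · exact congrArg Fin.val (hi i).1
      · exact congrArg Fin.val (hi i).2
    · simp [ZMod.card, mul_pow]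
  rw [gaussQ_eq_sum_gterm, gaussQ_eq_sum_gterm, gaussQ_eq_sum_gterm, Finset.sum_mul_sum,
    ← Fintype.sum_prod_type']
  rw [← sum_reindex (c := m * n) (gterm A a (m * n))
    (fun x y hxy => gterm_periodic hA hev a (Nat.mul_ne_zero hm hn) x y hxy)
    (fun k : (Fin 4 → Fin m) × (Fin 4 → Fin n) =>
      (n : ℤ) • (fun i => ((k.1 i : ℕ) : ℤ)) + (m : ℤ) • (fun i => ((k.2 i : ℕ) : ℤ))) hbij]
  exact Finset.sum_congr rfl fun k _ => key _ _

/-- Statement (T): transformation of `Θ_A` under `γ = (a b; c d) ∈ Γ₀(p)`, `c > 0`, with the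
multiplier `eps`. -/
def TStatement (p : ℕ) (A : Matrix (Fin 4) (Fin 4) ℤ) : Prop :=
  ∀ a b c d : ℤ, a * d - b * c = 1 → (p : ℤ) ∣ c → 0 < c → ∀ z : ℂ, 0 < z.im →
    thetaFun A (((a : ℂ) * z + (b : ℂ)) / ((c : ℂ) * z + (d : ℂ))) =
      eps p A a c * ((c : ℂ) * z + (d : ℂ)) ^ 2 * thetaFun A z

/-- Statement (W): the Fricke involution exchanges `Θ_A` and `Θ_B`. -/
def WStatement (p : ℕ) (A B : Matrix (Fin 4) (Fin 4) ℤ) : Prop :=
  ∀ z : ℂ, 0 < z.im → thetaFun A (-1 / ((p : ℂ) * z)) = -(p : ℂ) * z ^ 2 * thetaFun B z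

/-- The prime Gauss sum (helper57, `GaussQuad`): for a prime `q ∤ 2p` and `q ∤ t`,
`G(t, q) = q²`. -/
def PrimeGaussStatement (p : ℕ) (A : Matrix (Fin 4) (Fin 4) ℤ) : Prop :=
  ∀ q : ℕ, q.Prime → ¬ q ∣ 2 * p → ∀ t : ℤ, ¬ (q : ℤ) ∣ t → gaussQ A t q = (q : ℂ) ^ 2

/-- `Θ_B` has period `1` when `B` is symmetric with even diagonal. -/
lemma thetaFun_add_int {B : Matrix (Fin 4) (Fin 4) ℤ} (hB : B.IsSymm) (hev : ∀ i, Even (B i i))
    (w : ℂ) (n : ℤ) : thetaFun B (w + n) = thetaFun B w := by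
  unfold thetaFun
  refine tsum_congr fun x => ?_
  obtain ⟨κ, hκ⟩ := even_qz hB hev x
  have : Real.pi * I * (w + (n : ℂ)) * (qz B x : ℂ)
      = Real.pi * I * w * (qz B x : ℂ) + ((n * κ : ℤ) : ℂ) * (2 * Real.pi * I) := by
    rw [hκ]
    push_cast
    ring
  rw [this, Complex.exp_add, Complex.exp_int_mul_two_pi_mul_I, mul_one]

lemma im_neg_one_div_pos {p : ℕ} (hp : p ≠ 0) {w : ℂ} (hw : 0 < w.im) :
    0 < (-1 / ((p : ℂ) * w)).im := by
  have hpR : (0 : ℝ) < (p : ℝ) := Nat.cast_pos.mpr (Nat.pos_of_ne_zero hp)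
  have hw0 : w ≠ 0 := fun h => by simp [h] at hw
  have hpw : (p : ℂ) * w ≠ 0 := mul_ne_zero (Nat.cast_ne_zero.mpr hp) hw0
  have h1 : (-1 / ((p : ℂ) * w)) = -((p : ℂ) * w)⁻¹ := by rw [neg_div, one_div]
  rw [h1, Complex.neg_im, Complex.inv_im]
  have h2 : -(-((p : ℂ) * w).im / Complex.normSq ((p : ℂ) * w))
      = ((p : ℂ) * w).im / Complex.normSq ((p : ℂ) * w) := by ring
  rw [h2]
  apply div_pos
  · simp only [Complex.mul_im, Complex.natCast_re, Complex.natCast_im, zero_mul, add_zero]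
    exact mul_pos hpR hw
  · exact Complex.normSq_pos.mpr hpw

/-- From (W) for `(A,B)` and `(B,A)`: `Θ_A` transforms with trivial multiplier under the
matrices `(1 0; p j 1)`, for every `j : ℤ`. -/
lemma theta_lower_unipotent {p : ℕ} (hp : p ≠ 0) {A B : Matrix (Fin 4) (Fin 4) ℤ}
    (hB : B.IsSymm) (hevB : ∀ i, Even (B i i))
    (hWA : WStatement p A B) (hWB : WStatement p B A) (j : ℤ) (w : ℂ) (hw : 0 < w.im) :
    thetaFun A (w / ((p : ℂ) * j * w + 1)) = ((p : ℂ) * j * w + 1) ^ 2 * thetaFun A w := by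
  have hpC : (p : ℂ) ≠ 0 := Nat.cast_ne_zero.mpr hp
  have hw0 : w ≠ 0 := fun h => by simp [h] at hw
  have hne1 : (p : ℂ) * j * w + 1 ≠ 0 := by
    intro h0
    have him := congrArg Complex.im h0
    simp only [Complex.add_im, Complex.mul_im, Complex.natCast_re, Complex.natCast_im,
      Complex.intCast_re, Complex.intCast_im, Complex.one_im, Complex.zero_im, zero_mul,
      add_zero, mul_zero, Complex.mul_re, sub_zero] at him
    have hpR : (p : ℝ) ≠ 0 := Nat.cast_ne_zero.mpr hp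
    have hj : (j : ℝ) = 0 := by
      rcases mul_eq_zero.mp him with h | h
      · rcases mul_eq_zero.mp h with h' | h'
        · exact absurd h' hpR
        · exact h'
      · exact absurd h hw.ne'
    have hj' : j = 0 := by exact_mod_cast hj
    rw [hj'] at h0
    simp at h0
  set u : ℂ := -1 / ((p : ℂ) * w) + ((-j : ℤ) : ℂ) with hu
  have hu_im : 0 < u.im := by
    rw [hu, Complex.add_im, Complex.intCast_im, add_zero]
    exact im_neg_one_div_pos hp hw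
  have hpu : (p : ℂ) * u = -((p : ℂ) * j * w + 1) / w := by
    rw [hu]
    push_cast
    field_simp
    ring
  have hu0 : u ≠ 0 := fun h => by simp [h] at hu_im
  have harg : -1 / ((p : ℂ) * u) = w / ((p : ℂ) * j * w + 1) := by
    rw [hpu]
    field_simp
  have h1 := hWA u hu_im
  rw [harg] at h1
  have h2 : thetaFun B u = thetaFun B (-1 / ((p : ℂ) * w)) := by
    rw [hu]
    exact thetaFun_add_int hB hevB _ _
  have h3 := hWB w hw
  rw [h1, h2, h3]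
  have hpuw : (p : ℂ) * u * w = -((p : ℂ) * j * w + 1) := by
    rw [hpu]
    field_simp
  have : -(p : ℂ) * u ^ 2 * (-(p : ℂ) * w ^ 2 * thetaFun A w)
      = ((p : ℂ) * u * w) ^ 2 * thetaFun A w := by ring
  rw [this, hpuw]
  ring

/-- `c z + d ≠ 0` for `c ≠ 0` real and `Im z > 0`. -/
lemma cz_add_d_ne_zero {c d : ℤ} (hc : c ≠ 0) {z : ℂ} (hz : 0 < z.im) :
    (c : ℂ) * z + (d : ℂ) ≠ 0 := by
  intro h0
  have him := congrArg Complex.im h0
  simp only [Complex.add_im, Complex.mul_im, Complex.intCast_re, Complex.intCast_im,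
    Complex.zero_im, zero_mul, add_zero] at him
  have hcR : (c : ℝ) ≠ 0 := Int.cast_ne_zero.mpr hc
  rcases mul_eq_zero.mp him with h | h
  · exact hcR h
  · exact hz.ne' h

/-- `Im (γ z) > 0`. -/
lemma im_moebius_pos {a b c d : ℤ} (hdet : a * d - b * c = 1) (hc : c ≠ 0) {z : ℂ}
    (hz : 0 < z.im) :
    0 < (((a : ℂ) * z + (b : ℂ)) / ((c : ℂ) * z + (d : ℂ))).im := by
  have hne := cz_add_d_ne_zero (d := d) hc hz
  have hpos : 0 < Complex.normSq ((c : ℂ) * z + (d : ℂ)) := Complex.normSq_pos.mpr hne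
  have hdetR : (a : ℝ) * d - b * c = 1 := by exact_mod_cast hdet
  rw [Complex.div_im]
  simp only [Complex.add_im, Complex.mul_im, Complex.intCast_re, Complex.intCast_im,
    zero_mul, add_zero, Complex.add_re, Complex.mul_re, sub_zero]
  rw [← sub_div]
  apply div_pos _ hpos
  have : (a : ℝ) * z.im * ((c : ℝ) * z.re + d) - ((a : ℝ) * z.re + b) * ((c : ℝ) * z.im)
      = ((a : ℝ) * d - b * c) * z.im := by ring
  rw [this, hdetR, one_mul]
  exact hz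

/-- Step (F): multiplying `γ` on the left by `(1 0; p j 1)` does not change the multiplier. -/
lemma eps_shift {p : ℕ} (hp : p ≠ 0) {A B : Matrix (Fin 4) (Fin 4) ℤ}
    (hB : B.IsSymm) (hevB : ∀ i, Even (B i i))
    (hT : TStatement p A) (hWA : WStatement p A B) (hWB : WStatement p B A)
    {z₀ : ℂ} (hz₀ : 0 < z₀.im) (hθ : thetaFun A z₀ ≠ 0)
    {a b c d : ℤ} (hdet : a * d - b * c = 1) (hpc : (p : ℤ) ∣ c) (hc : 0 < c) (j : ℤ)
    (hc' : 0 < c + p * j * a) :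
    eps p A a (c + p * j * a) = eps p A a c := by
  have hdet' : a * (d + p * j * b) - b * (c + p * j * a) = 1 := by linear_combination hdet
  have hpc' : (p : ℤ) ∣ c + p * j * a := dvd_add hpc ⟨j * a, by ring⟩
  have h1 := hT a b c d hdet hpc hc z₀ hz₀
  have h2 := hT a b (c + p * j * a) (d + p * j * b) hdet' hpc' hc' z₀ hz₀
  have hwim : 0 < (((a : ℂ) * z₀ + (b : ℂ)) / ((c : ℂ) * z₀ + (d : ℂ))).im :=
    im_moebius_pos hdet hc.ne' hz₀
  have h3 := theta_lower_unipotent hp hB hevB hWA hWB j _ hwim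
  have hcd : (c : ℂ) * z₀ + (d : ℂ) ≠ 0 := cz_add_d_ne_zero hc.ne' hz₀
  have hcd' : ((c + p * j * a : ℤ) : ℂ) * z₀ + ((d + p * j * b : ℤ) : ℂ) ≠ 0 :=
    cz_add_d_ne_zero hc'.ne' hz₀
  have hw'' : ((a : ℂ) * z₀ + (b : ℂ)) / ((c : ℂ) * z₀ + (d : ℂ)) * ((c : ℂ) * z₀ + (d : ℂ))
      = (a : ℂ) * z₀ + (b : ℂ) := div_mul_cancel₀ _ hcd
  generalize ((a : ℂ) * z₀ + (b : ℂ)) / ((c : ℂ) * z₀ + (d : ℂ)) = w at h1 h3 hwim hw''
  have hw' : w * ((c : ℂ) * z₀ + (d : ℂ)) = (a : ℂ) * z₀ + (b : ℂ) := hw''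
  have hfac : ((p : ℂ) * j * w + 1) * ((c : ℂ) * z₀ + (d : ℂ))
      = ((c + p * j * a : ℤ) : ℂ) * z₀ + ((d + p * j * b : ℤ) : ℂ) := by
    push_cast
    linear_combination ((p : ℂ) * j) * hw'
  have hne1 : (p : ℂ) * j * w + 1 ≠ 0 := fun h => hcd' (by rw [← hfac, h, zero_mul])
  have harg : w / ((p : ℂ) * j * w + 1)
      = ((a : ℂ) * z₀ + (b : ℂ)) /
        (((c + p * j * a : ℤ) : ℂ) * z₀ + ((d + p * j * b : ℤ) : ℂ)) := by
    rw [div_eq_div_iff hne1 hcd', ← hfac]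
    linear_combination ((p : ℂ) * j * w + 1) * hw'
  rw [harg, h2, h1] at h3
  have h4 : eps p A a (c + p * j * a) *
        ((((c + p * j * a : ℤ) : ℂ) * z₀ + ((d + p * j * b : ℤ) : ℂ)) ^ 2 * thetaFun A z₀)
      = eps p A a c *
        ((((c + p * j * a : ℤ) : ℂ) * z₀ + ((d + p * j * b : ℤ) : ℂ)) ^ 2 * thetaFun A z₀) := by
    rw [← hfac] at h3 ⊢
    linear_combination h3
  exact mul_right_cancel₀ (mul_ne_zero (pow_ne_zero 2 hcd') hθ) h4

/-- Step (B3): `ε(1 0; p 1) = 1`, i.e. `G(1, p) = -p³`. -/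
lemma gaussQ_one_p {p : ℕ} (hp : p ≠ 0) {A B : Matrix (Fin 4) (Fin 4) ℤ}
    (hB : B.IsSymm) (hevB : ∀ i, Even (B i i))
    (hT : TStatement p A) (hWA : WStatement p A B) (hWB : WStatement p B A)
    {z₀ : ℂ} (hz₀ : 0 < z₀.im) (hθ : thetaFun A z₀ ≠ 0) :
    gaussQ A 1 p = -(p : ℂ) ^ 3 := by
  have hpZ : (0 : ℤ) < (p : ℤ) := by exact_mod_cast Nat.pos_of_ne_zero hp
  have h1 := hT 1 0 p 1 (by ring) (dvd_refl _) hpZ z₀ hz₀
  have h3 := theta_lower_unipotent hp hB hevB hWA hWB 1 z₀ hz₀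
  have hcd : (p : ℂ) * z₀ + 1 ≠ 0 := by
    have := cz_add_d_ne_zero (c := (p : ℤ)) (d := 1) hpZ.ne' hz₀
    simpa using this
  simp only [Int.cast_one, Int.cast_zero, Int.cast_natCast, one_mul, add_zero] at h1
  simp only [Int.cast_one, mul_one] at h3
  rw [h3] at h1
  have heps : eps p A 1 (p : ℤ) = 1 := by
    have h4 : (1 : ℂ) * (((p : ℂ) * z₀ + 1) ^ 2 * thetaFun A z₀)
        = eps p A 1 (p : ℤ) * (((p : ℂ) * z₀ + 1) ^ 2 * thetaFun A z₀) := by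
      linear_combination h1
    exact (mul_right_cancel₀ (mul_ne_zero (pow_ne_zero 2 hcd) hθ) h4).symm
  unfold eps at heps
  rw [Int.toNat_natCast] at heps
  have hpC : (p : ℂ) ≠ 0 := Nat.cast_ne_zero.mpr hp
  have h5 : -gaussQ A 1 p = (p : ℂ) * ((p : ℤ) : ℂ) ^ 2 := by
    have hden : (p : ℂ) * ((p : ℤ) : ℂ) ^ 2 ≠ 0 := by
      rw [Int.cast_natCast]
      exact mul_ne_zero hpC (pow_ne_zero 2 hpC)
    rw [div_eq_iff hden, one_mul] at heps
    exact heps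
  rw [Int.cast_natCast] at h5
  linear_combination -h5

/-- **Block (III): the multiplier is trivial on `Γ₀(p)`.**  From the transformation formula (T)
with the Gauss-sum multiplier, the Fricke relation (W) in both directions, the prime Gauss sums,
and `Θ_A ≢ 0`, we get `ε(γ) = 1` for every `γ = (a b; c d) ∈ Γ₀(p)` with `c > 0`. -/
theorem eps_eq_one {p : ℕ} [hpP : Fact p.Prime] {A B : Matrix (Fin 4) (Fin 4) ℤ}
    (h : IsLevelLattice p A B) (hT : TStatement p A) (hWA : WStatement p A B)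
    (hWB : WStatement p B A) (hG : PrimeGaussStatement p A)
    (hne : ∃ z : ℂ, 0 < z.im ∧ thetaFun A z ≠ 0) :
    ∀ a b c d : ℤ, a * d - b * c = 1 → (p : ℤ) ∣ c → 0 < c → eps p A a c = 1 := by
  intro a b c d hdet hpc hc
  obtain ⟨z₀, hz₀, hθ⟩ := hne
  have hp : p.Prime := hpP.out
  have hp0 : p ≠ 0 := hp.ne_zero
  have hpZ : (0 : ℤ) < (p : ℤ) := by exact_mod_cast hp.pos
  have hpc_saved := hpc
  obtain ⟨c₀, hc₀eq⟩ := hpc
  have hac : IsCoprime a c := ⟨d, -b, by linear_combination hdet⟩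
  have hap : IsCoprime a (p : ℤ) := by
    rw [hc₀eq] at hac
    exact hac.of_mul_right_left
  have hac₀ : IsCoprime a c₀ := by
    rw [hc₀eq] at hac
    exact hac.of_mul_right_right
  have ha0 : a ≠ 0 := by
    rintro rfl
    have h1 : IsUnit (p : ℤ) := isCoprime_zero_left.mp hap
    have h2 : (p : ℤ).natAbs = 1 := Int.isUnit_iff_natAbs_eq.mp h1
    rw [Int.natAbs_natCast] at h2
    exact hp.one_lt.ne' h2
  obtain ⟨u, v, huv⟩ := hap
  have hap : IsCoprime a (p : ℤ) := ⟨u, v, huv⟩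
  -- the CRT solution `x₀ ≡ a mod p`, `x₀ ≡ c₀ mod a`
  obtain ⟨x₀, hx₀⟩ : ∃ x₀ : ℤ, x₀ = a + p * (c₀ * v) := ⟨_, rfl⟩
  have hx₀p : IsCoprime x₀ (p : ℤ) := by
    rw [hx₀]
    exact hap.add_mul_left_left (c₀ * v)
  have hx₀' : x₀ = c₀ + a * (1 - c₀ * u) := by rw [hx₀]; linear_combination c₀ * huv
  have hx₀a : IsCoprime x₀ a := by
    rw [hx₀']
    exact hac₀.symm.add_mul_left_left _
  have hN0 : p * a.natAbs ≠ 0 := Nat.mul_ne_zero hp0 (Int.natAbs_ne_zero.mpr ha0)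
  have hx₀N : IsCoprime x₀ ((p * a.natAbs : ℕ) : ℤ) := by
    push_cast
    refine hx₀p.mul_right ?_
    rcases abs_choice a with h' | h' <;> rw [h']
    · exact hx₀a
    · exact hx₀a.neg_right
  obtain ⟨q, hq2p, hqP, hqmod⟩ := Nat.forall_exists_prime_gt_and_zmodEq (2 * p) hN0 hx₀N
  have hdvdN : ((p * a.natAbs : ℕ) : ℤ) ∣ x₀ - q := hqmod.dvd
  have hpq : (p : ℤ) ∣ x₀ - q := dvd_trans ⟨(a.natAbs : ℤ), by push_cast; ring⟩ hdvdN
  have haq : a ∣ x₀ - q := by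
    refine dvd_trans ?_ hdvdN
    push_cast
    exact Dvd.dvd.mul_left ((dvd_abs a a).mpr dvd_rfl) _
  obtain ⟨k, hk⟩ := haq
  -- `q = c₀ + a j`
  obtain ⟨j, hj⟩ : ∃ j : ℤ, j = 1 - k - c₀ * u := ⟨_, rfl⟩
  have hqj : (q : ℤ) = c₀ + a * j := by
    rw [hj, hx₀] at *
    linear_combination c₀ * huv - hk
  have hc'eq : c + p * j * a = ((p * q : ℕ) : ℤ) := by
    push_cast
    rw [hqj, hc₀eq]
    ring
  have hqpos : 0 < q := hqP.pos
  have hc'pos : 0 < c + p * j * a := by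
    rw [hc'eq]
    exact_mod_cast Nat.mul_pos hp.pos hqpos
  have hshift := eps_shift hp0 h.symmB h.evenB hT hWA hWB hz₀ hθ hdet hpc_saved hc j hc'pos
  rw [← hshift, hc'eq]
  -- now compute `ε(a, p q)`
  have hqa : IsCoprime (q : ℤ) a := by
    have h1 := hx₀a.add_mul_left_left (-k)
    have h2 : x₀ + a * -k = (q : ℤ) := by linear_combination hk
    rwa [h2] at h1
  have hpq_lt : p < q := by omega
  have hcop : IsCoprime (p : ℤ) (q : ℤ) := by
    rw [Nat.isCoprime_iff_coprime]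
    exact (Nat.coprime_primes hp hqP).mpr (by omega)
  have hq1 : gaussQ A (a * p) q = (q : ℂ) ^ 2 := by
    refine hG q hqP (Nat.not_dvd_of_pos_of_lt (by omega) hq2p) (a * p) ?_
    intro hdvd
    have h1 : (q : ℤ) ∣ (p : ℤ) := hqa.dvd_of_dvd_mul_left hdvd
    have h2 : q ∣ p := Int.natCast_dvd_natCast.mp h1
    have h3 := Nat.le_of_dvd hp.pos h2
    omega
  have hq2 : gaussQ A (a * q) p = -(p : ℂ) ^ 3 := by
    have hdvd : (p : ℤ) ∣ a * q - 1 * a ^ 2 := by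
      obtain ⟨m, hm⟩ := hpq
      refine ⟨a * (c₀ * v - m), ?_⟩
      rw [hx₀] at hm
      linear_combination (-a) * hm
    rw [gaussQ_congr_mod h.symm h.even hp0 hdvd, gaussQ_mul_sq h.symm h.even 1 a hp0 hap,
      gaussQ_one_p hp0 h.symmB h.evenB hT hWA hWB hz₀ hθ]
  unfold eps
  rw [Int.toNat_natCast, gaussQ_mul h.symm h.even a hp0 hqP.ne_zero hcop, hq1, hq2]
  have hpC : (p : ℂ) ≠ 0 := Nat.cast_ne_zero.mpr hp0
  have hqC : (q : ℂ) ≠ 0 := Nat.cast_ne_zero.mpr hqP.ne_zero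
  push_cast
  field_simp

end Fermat.Agent.S16.Theta.Multiplier
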