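import Mathlib

/-!
# One-dimensional theta inversion with real characteristics (S16, A-theta, leaf of block (I))

For `Im τ > 0` and real `s`, `lam`:
`∑_n exp(π i τ (n+s)² + 2π i lam (n+s)) = (-iτ)^(-1/2) ∑_m exp(-π i (m-lam)²/τ + 2π i m s)`,
from Mathlib's `jacobiTheta₂_functional_equation`.  Also: splitting of the square root
`(-I (a w))^(1/2) = √a (-I w)^(1/2)` for `a > 0`, and a uniform bound for shifted Gaussian sums.
-/

set_option autoImplicit false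

open Complex Real

namespace Fermat.Agent.S16.Theta.OneDim

/-- the left-hand term. -/
noncomputable def termL (τ : ℂ) (s lam : ℝ) (n : ℤ) : ℂ :=
  cexp (π * I * τ * ((n : ℂ) + s) ^ 2 + 2 * π * I * lam * ((n : ℂ) + s))

/-- the right-hand (dual) term. -/
noncomputable def termR (τ : ℂ) (s lam : ℝ) (m : ℤ) : ℂ :=
  cexp (-(π * I * ((m : ℂ) - lam) ^ 2) / τ + 2 * π * I * m * s)

lemma termL_eq (τ : ℂ) (s lam : ℝ) (n : ℤ) :
    termL τ s lam n =
      cexp (π * I * τ * (s : ℂ) ^ 2 + 2 * π * I * lam * s) * jacobiTheta₂_term n (τ * s + lam) τ := by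
  rw [termL, jacobiTheta₂_term, ← Complex.exp_add]
  congr 1
  ring

lemma termR_eq {τ : ℂ} (hτ : τ ≠ 0) (s lam : ℝ) (m : ℤ) :
    termR τ s lam m =
      cexp (-(π * I * (lam : ℂ) ^ 2) / τ) * jacobiTheta₂_term m (s + lam / τ) (-1 / τ) := by
  rw [termR, jacobiTheta₂_term, ← Complex.exp_add]
  congr 1
  field_simp
  ring

lemma im_neg_one_div_pos {τ : ℂ} (hτ : 0 < τ.im) : 0 < (-1 / τ).im := by
  rw [neg_div, neg_im, one_div, inv_im, neg_div, neg_neg]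
  exact div_pos hτ (normSq_pos.mpr (fun h => by rw [h] at hτ; simp at hτ))

lemma ne_zero_of_im_pos {τ : ℂ} (hτ : 0 < τ.im) : τ ≠ 0 := fun h => by rw [h] at hτ; simp at hτ

theorem summable_termL {τ : ℂ} (hτ : 0 < τ.im) (s lam : ℝ) : Summable (termL τ s lam) := by
  have := ((summable_jacobiTheta₂_term_iff (τ * s + lam) τ).mpr hτ).mul_left
    (cexp (π * I * τ * (s : ℂ) ^ 2 + 2 * π * I * lam * s))
  exact this.congr fun n => (termL_eq τ s lam n).symm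

theorem summable_termR {τ : ℂ} (hτ : 0 < τ.im) (s lam : ℝ) : Summable (termR τ s lam) := by
  have := ((summable_jacobiTheta₂_term_iff (s + lam / τ) (-1 / τ)).mpr
    (im_neg_one_div_pos hτ)).mul_left (cexp (-(π * I * (lam : ℂ) ^ 2) / τ))
  exact this.congr fun m => (termR_eq (ne_zero_of_im_pos hτ) s lam m).symm

/-- **One-dimensional theta inversion with real characteristics.** -/
theorem oneDim {τ : ℂ} (hτ : 0 < τ.im) (s lam : ℝ) :
    ∑' n : ℤ, termL τ s lam n = 1 / (-I * τ) ^ (1 / 2 : ℂ) * ∑' m : ℤ, termR τ s lam m := by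
  have hτ0 := ne_zero_of_im_pos hτ
  have hL : ∑' n : ℤ, termL τ s lam n =
      cexp (π * I * τ * (s : ℂ) ^ 2 + 2 * π * I * lam * s) * jacobiTheta₂ (τ * s + lam) τ := by
    rw [jacobiTheta₂, ← tsum_mul_left]
    exact tsum_congr fun n => termL_eq τ s lam n
  have hR : ∑' m : ℤ, termR τ s lam m =
      cexp (-(π * I * (lam : ℂ) ^ 2) / τ) * jacobiTheta₂ (s + lam / τ) (-1 / τ) := by
    rw [jacobiTheta₂, ← tsum_mul_left]
    exact tsum_congr fun m => termR_eq hτ0 s lam m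
  rw [hL, hR, jacobiTheta₂_functional_equation]
  have hz : (τ * s + lam) / τ = s + lam / τ := by field_simp
  rw [hz]
  have hexp : cexp (π * I * τ * (s : ℂ) ^ 2 + 2 * π * I * lam * s) *
      cexp (-π * I * (τ * s + lam) ^ 2 / τ) = cexp (-(π * I * (lam : ℂ) ^ 2) / τ) := by
    rw [← Complex.exp_add]
    congr 1
    field_simp
    ring
  rw [← hexp]
  ring

/-- splitting a positive real factor out of the square root. -/
theorem cpow_half_ofReal_mul {a : ℝ} (ha : 0 < a) {x : ℂ} (hx : x ≠ 0) :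
    ((a : ℂ) * x) ^ (1 / 2 : ℂ) = (Real.sqrt a : ℂ) * x ^ (1 / 2 : ℂ) := by
  have ha' : (a : ℂ) ≠ 0 := ofReal_ne_zero.mpr ha.ne'
  rw [cpow_def_of_ne_zero (mul_ne_zero ha' hx), Complex.log_ofReal_mul ha hx, add_mul,
    Complex.exp_add, ← cpow_def_of_ne_zero hx]
  congr 1
  rw [Real.sqrt_eq_rpow, Complex.ofReal_cpow ha.le, cpow_def_of_ne_zero ha', Complex.ofReal_log ha.le]
  push_cast
  ring_nf

/-- the form used in the induction: `(-I (w a))^(1/2) = √a (-I w)^(1/2)`. -/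
theorem neg_I_mul_cpow_half {a : ℝ} (ha : 0 < a) {w : ℂ} (hw : w ≠ 0) :
    (-I * (w * a)) ^ (1 / 2 : ℂ) = (Real.sqrt a : ℂ) * (-I * w) ^ (1 / 2 : ℂ) := by
  have h : -I * (w * a) = (a : ℂ) * (-I * w) := by ring
  rw [h, cpow_half_ofReal_mul ha (mul_ne_zero (neg_ne_zero.mpr I_ne_zero) hw)]


/-! ### norms and the uniform Gaussian bound -/

theorem norm_termL (τ : ℂ) (s lam : ℝ) (n : ℤ) :
    ‖termL τ s lam n‖ = rexp (-(π * τ.im) * ((n : ℝ) + s) ^ 2) := by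
  rw [termL, Complex.norm_exp]
  congr 1
  have h1 : ((n : ℂ) + s) = (((n : ℝ) + s : ℝ) : ℂ) := by push_cast; ring
  rw [h1]
  have h2 : (π * I * τ * ((((n : ℝ) + s : ℝ) : ℂ)) ^ 2 +
      2 * π * I * lam * (((n : ℝ) + s : ℝ) : ℂ)) =
      ((π * ((n : ℝ) + s) ^ 2 : ℝ) : ℂ) * (I * τ) +
        ((2 * π * lam * ((n : ℝ) + s) : ℝ) : ℂ) * I := by
    push_cast; ring
  rw [h2, add_re, re_ofReal_mul, re_ofReal_mul, I_re, mul_zero, add_zero]
  simp only [mul_re, I_re, I_im, zero_mul, one_mul, zero_sub]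
  ring

theorem norm_termR {τ : ℂ} (s lam : ℝ) (m : ℤ) :
    ‖termR τ s lam m‖ = rexp (-(π * (-1 / τ).im) * ((m : ℝ) - lam) ^ 2) := by
  rw [termR, Complex.norm_exp]
  congr 1
  have h1 : ((m : ℂ) - lam) = (((m : ℝ) - lam : ℝ) : ℂ) := by push_cast; ring
  rw [h1]
  have h2 : (-(π * I * ((((m : ℝ) - lam : ℝ) : ℂ)) ^ 2) / τ + 2 * π * I * m * s) =
      ((π * ((m : ℝ) - lam) ^ 2 : ℝ) : ℂ) * (I * (-1 / τ)) +
        ((2 * π * m * s : ℝ) : ℂ) * I := by
    push_cast; ring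
  rw [h2, add_re, re_ofReal_mul, re_ofReal_mul, I_re, mul_zero, add_zero]
  simp only [mul_re, I_re, I_im, zero_mul, one_mul, zero_sub]
  ring

/-- summability of the Gaussian over `ℤ`. -/
theorem summable_gaussian_int {c : ℝ} (hc : 0 < c) :
    Summable fun n : ℤ => rexp (-c * (n : ℝ) ^ 2) := by
  have h := summable_pow_mul_jacobiTheta₂_term_bound 0 (T := c / π) (div_pos hc pi_pos) 0
  refine h.congr fun n => ?_
  simp only [pow_zero, one_mul, zero_mul, mul_zero, sub_zero]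
  congr 1
  field_simp

/-- pointwise majorant, for `0 ≤ t < 1`. -/
lemma gaussian_shift_le {c : ℝ} (hc : 0 < c) {t : ℝ} (ht0 : 0 ≤ t) (ht1 : t < 1) (n : ℤ) :
    rexp (-c * ((n : ℝ) + t) ^ 2) ≤
      rexp (-c * (n : ℝ) ^ 2) + rexp (-c * (((n + 1 : ℤ) : ℝ)) ^ 2) := by
  rcases le_or_gt 0 n with hn | hn
  · have hn' : (0 : ℝ) ≤ n := by exact_mod_cast hn
    have h1 : rexp (-c * ((n : ℝ) + t) ^ 2) ≤ rexp (-c * (n : ℝ) ^ 2) := by
      apply Real.exp_le_exp.mpr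
      have : (n : ℝ) ^ 2 ≤ ((n : ℝ) + t) ^ 2 := by nlinarith
      nlinarith
    exact h1.trans (le_add_of_nonneg_right (Real.exp_pos _).le)
  · have hn' : ((n + 1 : ℤ) : ℝ) ≤ 0 := by
      have : n + 1 ≤ 0 := by omega
      exact_mod_cast this
    have hcast : ((n + 1 : ℤ) : ℝ) = (n : ℝ) + 1 := by push_cast; ring
    have h1 : rexp (-c * ((n : ℝ) + t) ^ 2) ≤ rexp (-c * (((n + 1 : ℤ) : ℝ)) ^ 2) := by
      apply Real.exp_le_exp.mpr
      rw [hcast] at hn' ⊢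
      have : ((n : ℝ) + 1) ^ 2 ≤ ((n : ℝ) + t) ^ 2 := by nlinarith
      nlinarith
    exact h1.trans (le_add_of_nonneg_left (Real.exp_pos _).le)

/-- **Uniform bound for shifted Gaussian sums.** -/
theorem exists_gaussian_bound {c : ℝ} (hc : 0 < c) :
    ∃ K : ℝ, 0 ≤ K ∧ ∀ s : ℝ, Summable (fun n : ℤ => rexp (-c * ((n : ℝ) + s) ^ 2)) ∧
      ∑' n : ℤ, rexp (-c * ((n : ℝ) + s) ^ 2) ≤ K := by
  have hG := summable_gaussian_int hc
  have hG1 : Summable fun n : ℤ => rexp (-c * (((n + 1 : ℤ) : ℝ)) ^ 2) :=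
    hG.comp_injective (Equiv.addRight (1 : ℤ)).injective
  refine ⟨2 * ∑' n : ℤ, rexp (-c * (n : ℝ) ^ 2), by positivity, fun s => ?_⟩
  -- reduce to `t = s - ⌊s⌋ ∈ [0,1)`
  set t : ℝ := Int.fract s with ht
  have ht0 : 0 ≤ t := Int.fract_nonneg s
  have ht1 : t < 1 := Int.fract_lt_one s
  have hmaj : Summable fun n : ℤ => rexp (-c * ((n : ℝ) + t) ^ 2) :=
    Summable.of_nonneg_of_le (fun n => (Real.exp_pos _).le)
      (fun n => gaussian_shift_le hc ht0 ht1 n) (hG.add hG1)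
  have hle : ∑' n : ℤ, rexp (-c * ((n : ℝ) + t) ^ 2) ≤ 2 * ∑' n : ℤ, rexp (-c * (n : ℝ) ^ 2) := by
    calc ∑' n : ℤ, rexp (-c * ((n : ℝ) + t) ^ 2)
        ≤ ∑' n : ℤ, (rexp (-c * (n : ℝ) ^ 2) + rexp (-c * (((n + 1 : ℤ) : ℝ)) ^ 2)) :=
          hmaj.tsum_le_tsum (fun n => gaussian_shift_le hc ht0 ht1 n) (hG.add hG1)
      _ = ∑' n : ℤ, rexp (-c * (n : ℝ) ^ 2) + ∑' n : ℤ, rexp (-c * (((n + 1 : ℤ) : ℝ)) ^ 2) :=
          hG.tsum_add hG1
      _ = 2 * ∑' n : ℤ, rexp (-c * (n : ℝ) ^ 2) := by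
          have : ∑' n : ℤ, rexp (-c * (((n + 1 : ℤ) : ℝ)) ^ 2) =
              ∑' n : ℤ, rexp (-c * (n : ℝ) ^ 2) :=
            (Equiv.addRight (1 : ℤ)).tsum_eq (fun n : ℤ => rexp (-c * (n : ℝ) ^ 2))
          rw [this]; ring
  -- reindex by `⌊s⌋`
  have hreidx : (fun n : ℤ => rexp (-c * ((n : ℝ) + s) ^ 2)) =
      fun n : ℤ => (fun k : ℤ => rexp (-c * ((k : ℝ) + t) ^ 2)) (Equiv.addRight ⌊s⌋ n) := by
    funext n
    have h : (n : ℝ) + s = (((n + ⌊s⌋ : ℤ)) : ℝ) + Int.fract s := by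
      have := Int.floor_add_fract s
      push_cast
      linarith
    simp only [Equiv.coe_addRight, ht]
    rw [h]
  constructor
  · rw [hreidx]; exact hmaj.comp_injective (Equiv.addRight ⌊s⌋).injective
  · rw [hreidx, (Equiv.addRight ⌊s⌋).tsum_eq (fun n : ℤ => rexp (-c * ((n : ℝ) + t) ^ 2))]
    exact hle

end Fermat.Agent.S16.Theta.OneDim
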