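import Mathlib
import Fermat.Agent.S16.Theta.Defs
import Fermat.Agent.S16.Theta.Multiplier
import Fermat.Agent.S16.Theta.Transform
import Fermat.Agent.S16.Theta.GaussPrime
import Fermat.Agent.S16.Theta.Inversion
import Fermat.Agent.S16.Theta.Package

/-!
# S16, (A-theta): `Θ_A` is invariant under the weight-2 action of `Γ₀(p)`

Glue of the landed blocks (CRT route): `Inversion.inversion` (I), `Transform.theta_smul` and
`Transform.theta_fricke` (II), `GaussPrime.gaussQ_prime_of_isLevelLattice` + `Multiplier.eps_eq_one`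
(III).  The final statement `hslash` is literally the hypothesis `hslash` of
`Package.thetaForm_of`.

Owner: helper27.
-/

set_option autoImplicit false

open Complex Matrix

namespace Fermat.Agent.S16.Theta.Slash

open Fermat.Agent.S16.Theta Fermat.Agent.S16.Theta.Multiplier

variable {p : ℕ} {A B : Matrix (Fin 4) (Fin 4) ℤ}

/-- The hypotheses on the lattice are symmetric in `(A, B)`. -/
theorem isLevelLattice_swap (hp : p ≠ 0) (h : IsLevelLattice p A B) : IsLevelLattice p B A := by
  have hpR : (0 : ℝ) < (p : ℝ) := by exact_mod_cast Nat.pos_of_ne_zero hp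
  have hBpos : (Transform.toR B).PosDef := by
    have h1 : Transform.toR B = (p : ℝ) • (Transform.toR A)⁻¹ := by
      rw [Transform.toR_inv h hp, smul_smul, mul_one_div_cancel hpR.ne', one_smul]
    rw [h1]
    exact (h.posDef.inv).smul hpR
  refine ⟨h.symmB, h.evenB, hBpos, ?_, ?_, h.symm, h.mul', h.mul, h.even⟩
  · intro x hx
    have hx' : (fun i => (x i : ℝ)) ≠ 0 := by
      intro h0
      apply hx
      funext i
      have := congrFun h0 i
      simpa using this
    have h1 := hBpos.dotProduct_mulVec_pos hx'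
    rw [star_trivial] at h1
    have h2 := Transform.quad_toR_cast B x
    unfold quad at h2
    rw [h2] at h1
    have h3 : 0 < qz B x := by exact_mod_cast h1
    exact h3
  · have h1 : A.det * B.det = (p : ℤ) ^ 4 := by
      rw [← Matrix.det_mul, h.mul, Matrix.det_smul, Matrix.det_one]
      simp
    rw [h.det] at h1
    have hpZ : ((p : ℤ)) ^ 2 ≠ 0 := pow_ne_zero 2 (by exact_mod_cast hp)
    apply mul_left_cancel₀ hpZ
    rw [h1]
    ring

/-- `Θ_A(i) ≠ 0` (it is a sum of positive reals). -/
theorem thetaFun_I_ne_zero (h : IsLevelLattice p A B) : thetaFun A I ≠ 0 := by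
  have hI : 0 < (I : ℂ).im := by simp
  have hs := Package.hasSum_term h hI
  have hre := Complex.reCLM.hasSum hs
  have hterm : ∀ x : Fin 4 → ℤ,
      Complex.reCLM (Package.term A x I) = Real.exp (-(Real.pi * (qz A x : ℝ))) := by
    intro x
    unfold Package.term
    have : (Real.pi * I * I * (qz A x : ℂ) : ℂ) = ((-(Real.pi * (qz A x : ℝ)) : ℝ) : ℂ) := by
      push_cast
      rw [mul_assoc (Real.pi : ℂ) I I, I_mul_I]
      ring
    rw [this, ← Complex.ofReal_exp, Complex.reCLM_apply, Complex.ofReal_re]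
  simp_rw [hterm] at hre
  have hpos : 0 < Complex.reCLM (thetaFun A I) := by
    rw [← hre.tsum_eq]
    exact hre.summable.tsum_pos (fun x => (Real.exp_pos _).le) 0 (Real.exp_pos _)
  intro h0
  rw [h0] at hpos
  simp at hpos

/-- Statement (T), from `Transform.theta_smul` and `Inversion.inversion`. -/
theorem tStatement (h : IsLevelLattice p A B) : TStatement p A := by
  intro a b c d hdet hpc hc z hz
  obtain ⟨n, rfl⟩ : ∃ n : ℕ, c = n := ⟨c.toNat, (Int.toNat_of_nonneg hc.le).symm⟩
  have : NeZero n := ⟨by rintro rfl; simp at hc⟩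
  have hpn : p ∣ n := Int.natCast_dvd_natCast.mp hpc
  have key := Transform.theta_smul h Inversion.inversion n hpn a b d hdet z hz
  rw [Int.cast_natCast]
  exact key

/-- Statement (W), from `Transform.theta_fricke` and `Inversion.inversion`. -/
theorem wStatement (hp : p ≠ 0) (h : IsLevelLattice p A B) : WStatement p A B :=
  fun z hz => Transform.theta_fricke h hp Inversion.inversion z hz

/-- The prime Gauss sums, from `GaussPrime`. -/
theorem primeGaussStatement (h : IsLevelLattice p A B) : PrimeGaussStatement p A := by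
  intro q hq hq2p t ht
  have : Fact q.Prime := ⟨hq⟩
  refine GaussPrime.gaussQ_prime_of_isLevelLattice h q ?_ ?_ t ht
  · rintro rfl
    exact hq2p (dvd_mul_right 2 p)
  · intro hdvd
    exact hq2p (Dvd.dvd.mul_left hdvd 2)

/-- **The multiplier is trivial**, hypothesis-free. -/
theorem eps_eq_one' [Fact p.Prime] (h : IsLevelLattice p A B) (a b c d : ℤ)
    (hdet : a * d - b * c = 1) (hpc : (p : ℤ) ∣ c) (hc : 0 < c) : eps p A a c = 1 := by
  have hp : p ≠ 0 := (Fact.out : p.Prime).ne_zero
  exact eps_eq_one h (tStatement h) (wStatement hp h) (wStatement hp (isLevelLattice_swap hp h))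
    (primeGaussStatement h) ⟨I, by simp, thetaFun_I_ne_zero h⟩ a b c d hdet hpc hc

/-- The transformation law for `(a b; c d) ∈ Γ₀(p)`, complex-number form, all signs of `c`. -/
theorem theta_moebius [Fact p.Prime] (h : IsLevelLattice p A B) (a b c d : ℤ)
    (hdet : a * d - b * c = 1) (hpc : (p : ℤ) ∣ c) (z : ℂ) (hz : 0 < z.im) :
    thetaFun A (((a : ℂ) * z + (b : ℂ)) / ((c : ℂ) * z + (d : ℂ))) =
      ((c : ℂ) * z + (d : ℂ)) ^ 2 * thetaFun A z := by
  rcases lt_trichotomy c 0 with hc | hc | hc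
  · -- `c < 0`: use `-γ`
    have hdet' : (-a) * (-d) - (-b) * (-c) = 1 := by linear_combination hdet
    have hpc' : (p : ℤ) ∣ -c := (dvd_neg).mpr hpc
    have hc' : 0 < -c := by omega
    have key := tStatement h (-a) (-b) (-c) (-d) hdet' hpc' hc' z hz
    rw [eps_eq_one' h (-a) (-b) (-c) (-d) hdet' hpc' hc', one_mul] at key
    have e1 : (((-a : ℤ) : ℂ) * z + ((-b : ℤ) : ℂ)) / (((-c : ℤ) : ℂ) * z + ((-d : ℤ) : ℂ))
        = ((a : ℂ) * z + (b : ℂ)) / ((c : ℂ) * z + (d : ℂ)) := by
      push_cast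
      rw [← neg_div_neg_eq]
      congr 1 <;> ring
    have e2 : (((-c : ℤ) : ℂ) * z + ((-d : ℤ) : ℂ)) ^ 2 = ((c : ℂ) * z + (d : ℂ)) ^ 2 := by
      push_cast
      ring
    rw [e1, e2] at key
    exact key
  · -- `c = 0`: translation
    subst hc
    have had : a * d = 1 := by linear_combination hdet
    have hd : d = a := by
      rcases Int.eq_one_or_neg_one_of_mul_eq_one' had with ⟨ha, hd⟩ | ⟨ha, hd⟩ <;> rw [ha, hd]
    subst hd
    have haC : (d : ℂ) * (d : ℂ) = 1 := by exact_mod_cast had
    have hd0 : (d : ℂ) ≠ 0 := by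
      intro h0
      rw [h0, mul_zero] at haC
      exact zero_ne_one haC
    have e1 : ((d : ℂ) * z + (b : ℂ)) / (((0 : ℤ) : ℂ) * z + (d : ℂ))
        = z + ((b * d : ℤ) : ℂ) := by
      push_cast
      rw [zero_mul, zero_add, div_eq_iff hd0]
      linear_combination (-(b : ℂ)) * haC
    have e2 : (((0 : ℤ) : ℂ) * z + (d : ℂ)) ^ 2 = 1 := by
      push_cast
      rw [zero_mul, zero_add, sq]
      exact haC
    rw [e1, e2, one_mul]
    exact thetaFun_add_int h.symm h.even z (b * d)
  · have key := tStatement h a b c d hdet hpc hc z hz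
    rw [eps_eq_one' h a b c d hdet hpc hc, one_mul] at key
    exact key

/-- **`Θ_A` is invariant under `Γ₀(p)` in weight 2**: literally the hypothesis `hslash` of
`Package.thetaForm_of`. -/
theorem hslash [Fact p.Prime] (h : IsLevelLattice p A B) :
    ∀ γ ∈ CongruenceSubgroup.Gamma0 p, ∀ z : UpperHalfPlane, thetaFun A ((γ • z : UpperHalfPlane) : ℂ) =
      (((γ 1 0 : ℤ) : ℂ) * (z : ℂ) + ((γ 1 1 : ℤ) : ℂ)) ^ 2 * thetaFun A (z : ℂ) := by
  intro γ hγ z
  have hdet : γ 0 0 * γ 1 1 - γ 0 1 * γ 1 0 = 1 := by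
    have := γ.det_coe
    rw [Matrix.det_fin_two] at this
    exact this
  have hpc : (p : ℤ) ∣ γ 1 0 := by
    rw [CongruenceSubgroup.Gamma0_mem] at hγ
    exact (ZMod.intCast_zmod_eq_zero_iff_dvd _ _).mp hγ
  have key := theta_moebius h (γ 0 0) (γ 0 1) (γ 1 0) (γ 1 1) hdet hpc (z : ℂ) z.im_pos
  rw [UpperHalfPlane.coe_specialLinearGroup_apply]
  simp only [algebraMap_int_eq, eq_intCast, Complex.ofReal_intCast]
  exact key

end Fermat.Agent.S16.Theta.Slash
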